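import Mathlib
import Fermat.Prelude.Def_FLTPrelim_Ramification

/-!
# Unram / I: elementary consequences of `σ ∈ A.inertiaSubgroupIn K`

`A` is a valuation subring of a field `L`, `K` a subfield, `v = A.valuation`.

* decomposition group: `σ x ∈ A ↔ x ∈ A`, `v (σ x) ≤ v (σ y) ↔ v x ≤ v y`, and (for `L / K` algebraic)
  `v (σ x) = v x`;
* inertia group: `v x ≤ 1 → v (σ x - x) < 1`;
* a rational prime `q` in the maximal ideal: `v q < 1`, `v n = 1` for `q ∤ n`,
  `v r = (v q) ^ padicValRat q r`;
* square roots of inertia-fixed units are inertia-fixed (`v 2 = 1`).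
-/

set_option autoImplicit false

namespace Fermat.Agent.Unram

open ValuationSubring

open scoped Pointwise

section Decomposition

variable {K L : Type*} [Field K] [Field L] [Algebra K L] (A : ValuationSubring L)
  {σ : L ≃ₐ[K] L}

theorem mem_inertiaSubgroupIn_iff :
    σ ∈ A.inertiaSubgroupIn K ↔ ∃ h : σ ∈ A.decompositionSubgroup K,
      ∀ x : IsLocalRing.ResidueField A, (⟨σ, h⟩ : A.decompositionSubgroup K) • x = x := by
  constructor
  · rintro ⟨⟨τ, hτ⟩, hker, rfl⟩
    refine ⟨hτ, fun x => ?_⟩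
    have h1 : MulSemiringAction.toRingAut (A.decompositionSubgroup K)
        (IsLocalRing.ResidueField A) ⟨τ, hτ⟩ = 1 := hker
    have h2 := congrArg (fun f : RingAut (IsLocalRing.ResidueField A) => f x) h1
    exact h2
  · rintro ⟨h, hx⟩
    refine ⟨⟨σ, h⟩, ?_, rfl⟩
    change MulSemiringAction.toRingAut (A.decompositionSubgroup K)
        (IsLocalRing.ResidueField A) ⟨σ, h⟩ = 1
    ext x
    exact hx x

theorem mem_decompositionSubgroup_of_mem_inertiaSubgroupIn (hσ : σ ∈ A.inertiaSubgroupIn K) :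
    σ ∈ A.decompositionSubgroup K :=
  ((mem_inertiaSubgroupIn_iff A).mp hσ).1

theorem inv_mem_inertiaSubgroupIn (hσ : σ ∈ A.inertiaSubgroupIn K) :
    σ⁻¹ ∈ A.inertiaSubgroupIn K := inv_mem hσ

/-- the decomposition group preserves `A` -/
theorem apply_mem_of_mem_decompositionSubgroup (hσ : σ ∈ A.decompositionSubgroup K) {x : L}
    (hx : x ∈ A) : σ x ∈ A := by
  have h1 : σ • A = A := hσ
  have h2 : σ • x ∈ σ • A := ValuationSubring.smul_mem_pointwise_smul σ x A hx
  rw [h1] at h2
  exact h2

theorem apply_mem_iff_of_mem_decompositionSubgroup (hσ : σ ∈ A.decompositionSubgroup K) (x : L) :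
    σ x ∈ A ↔ x ∈ A := by
  constructor
  · intro h
    have := apply_mem_of_mem_decompositionSubgroup A (inv_mem hσ) h
    have h3 : σ⁻¹ (σ x) = x := σ.symm_apply_apply x
    rwa [h3] at this
  · exact apply_mem_of_mem_decompositionSubgroup A hσ

theorem valuation_apply_le_one_iff (hσ : σ ∈ A.decompositionSubgroup K) (x : L) :
    A.valuation (σ x) ≤ 1 ↔ A.valuation x ≤ 1 := by
  rw [A.valuation_le_one_iff, A.valuation_le_one_iff]
  exact apply_mem_iff_of_mem_decompositionSubgroup A hσ x

/-- the decomposition group preserves the order of valuations -/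
theorem valuation_apply_le_iff (hσ : σ ∈ A.decompositionSubgroup K) (x y : L) :
    A.valuation (σ x) ≤ A.valuation (σ y) ↔ A.valuation x ≤ A.valuation y := by
  rcases eq_or_ne y 0 with rfl | hy
  · simp
  have hσy : σ y ≠ 0 := by simpa using hy
  have h1 : A.valuation (σ x) ≤ A.valuation (σ y) ↔ A.valuation (σ (x / y)) ≤ 1 := by
    rw [map_div₀, map_div₀, div_le_one₀ (zero_lt_iff.mpr ((map_ne_zero _).mpr hσy))]
  have h2 : A.valuation x ≤ A.valuation y ↔ A.valuation (x / y) ≤ 1 := by
    rw [map_div₀, div_le_one₀ (zero_lt_iff.mpr ((map_ne_zero _).mpr hy))]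
  rw [h1, h2]
  exact valuation_apply_le_one_iff A hσ _

theorem valuation_apply_lt_iff (hσ : σ ∈ A.decompositionSubgroup K) (x y : L) :
    A.valuation (σ x) < A.valuation (σ y) ↔ A.valuation x < A.valuation y := by
  rw [← not_le, ← not_le, valuation_apply_le_iff A hσ]

theorem valuation_apply_lt_one_iff (hσ : σ ∈ A.decompositionSubgroup K) (x : L) :
    A.valuation (σ x) < 1 ↔ A.valuation x < 1 := by
  have := valuation_apply_lt_iff A hσ x 1
  simpa using this

theorem one_lt_valuation_apply_iff (hσ : σ ∈ A.decompositionSubgroup K) (x : L) :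
    1 < A.valuation (σ x) ↔ 1 < A.valuation x := by
  have := valuation_apply_lt_iff A hσ 1 x
  simpa using this

theorem valuation_apply_eq_one_iff (hσ : σ ∈ A.decompositionSubgroup K) (x : L) :
    A.valuation (σ x) = 1 ↔ A.valuation x = 1 := by
  constructor
  · intro h
    exact le_antisymm ((valuation_apply_le_one_iff A hσ x).mp h.le)
      (not_lt.mp fun h1 => absurd h (ne_of_lt ((valuation_apply_lt_one_iff A hσ x).mpr h1)))
  · intro h
    exact le_antisymm ((valuation_apply_le_one_iff A hσ x).mpr h.le)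
      (not_lt.mp fun h1 => absurd h (ne_of_lt ((valuation_apply_lt_one_iff A hσ x).mp h1)))

theorem valuation_pow_apply_lt (hσ : σ ∈ A.decompositionSubgroup K) {x : L}
    (h : A.valuation (σ x) < A.valuation x) (n : ℕ) :
    A.valuation ((σ ^ (n + 1)) x) < A.valuation x := by
  induction n with
  | zero => simpa using h
  | succ n ih =>
    have h1 : (σ ^ (n + 1 + 1)) x = σ ((σ ^ (n + 1)) x) := by
      rw [pow_succ' σ (n + 1)]
      rfl
    rw [h1]
    exact lt_trans ((valuation_apply_lt_iff A hσ _ _).mpr ih) h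

theorem valuation_lt_pow_apply (hσ : σ ∈ A.decompositionSubgroup K) {x : L}
    (h : A.valuation x < A.valuation (σ x)) (n : ℕ) :
    A.valuation x < A.valuation ((σ ^ (n + 1)) x) := by
  induction n with
  | zero => simpa using h
  | succ n ih =>
    have h1 : (σ ^ (n + 1 + 1)) x = σ ((σ ^ (n + 1)) x) := by
      rw [pow_succ' σ (n + 1)]
      rfl
    rw [h1]
    exact lt_trans h ((valuation_apply_lt_iff A hσ _ _).mpr ih)

/-- an algebraic element has a finite orbit under the powers of an automorphism -/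
theorem exists_pow_apply_eq_self (σ : L ≃ₐ[K] L) {x : L} (hx : IsAlgebraic K x) :
    ∃ n : ℕ, (σ ^ (n + 1)) x = x := by
  have hfin : ((minpoly K x).rootSet L).Finite := Polynomial.rootSet_finite _ _
  have hmem : ∀ k : ℕ, (σ ^ k) x ∈ (minpoly K x).rootSet L := by
    intro k
    rw [Polynomial.mem_rootSet]
    refine ⟨minpoly.ne_zero hx.isIntegral, ?_⟩
    change Polynomial.aeval ((σ ^ k : L ≃ₐ[K] L).toAlgHom x) (minpoly K x) = 0
    rw [Polynomial.aeval_algHom_apply, minpoly.aeval, map_zero]
  have hninj : ¬ Function.Injective fun k : ℕ => (σ ^ k) x := by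
    intro hinj
    exact Set.infinite_of_injective_forall_mem hinj hmem hfin
  rw [Function.Injective] at hninj
  push Not at hninj
  obtain ⟨i, j, hij, hne⟩ := hninj
  wlog hlt : i < j generalizing i j
  · exact this j i hij.symm hne.symm (lt_of_le_of_ne (not_lt.mp hlt) hne.symm)
  obtain ⟨d, rfl⟩ := Nat.exists_eq_add_of_lt hlt
  refine ⟨d, ?_⟩
  have h1 : (σ ^ (i + d + 1)) x = (σ ^ i) ((σ ^ (d + 1)) x) := by
    rw [show i + d + 1 = i + (d + 1) by ring, pow_add]
    rfl
  have h2 : (σ ^ i) x = (σ ^ i) ((σ ^ (d + 1)) x) := by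
    rw [← h1]
    exact hij
  exact ((σ ^ i).injective h2).symm

/-- For an algebraic extension the decomposition group preserves the valuation. -/
theorem valuation_apply_eq [Algebra.IsAlgebraic K L] (hσ : σ ∈ A.decompositionSubgroup K) (x : L) :
    A.valuation (σ x) = A.valuation x := by
  obtain ⟨n, hn⟩ := exists_pow_apply_eq_self σ (Algebra.IsAlgebraic.isAlgebraic (R := K) x)
  rcases lt_trichotomy (A.valuation (σ x)) (A.valuation x) with h | h | h
  · have := valuation_pow_apply_lt A hσ h n
    rw [hn] at this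
    exact absurd this (lt_irrefl _)
  · exact h
  · have := valuation_lt_pow_apply A hσ h n
    rw [hn] at this
    exact absurd this (lt_irrefl _)

/-- **Inertia**: `σ x ≡ x` modulo the maximal ideal, for `x ∈ A`. -/
theorem valuation_apply_sub_lt_one (hσ : σ ∈ A.inertiaSubgroupIn K) {x : L}
    (hx : A.valuation x ≤ 1) : A.valuation (σ x - x) < 1 := by
  obtain ⟨h, hres⟩ := (mem_inertiaSubgroupIn_iff A).mp hσ
  have hxA : x ∈ A := (A.valuation_le_one_iff x).mp hx
  have h1 := hres (IsLocalRing.residue A ⟨x, hxA⟩)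
  rw [← IsLocalRing.ResidueField.residue_smul, ← sub_eq_zero, ← map_sub,
    IsLocalRing.residue_eq_zero_iff] at h1
  have h2 : (((⟨σ, h⟩ : A.decompositionSubgroup K) • (⟨x, hxA⟩ : A) - ⟨x, hxA⟩ : A) : L) =
      σ x - x := rfl
  rw [← h2]
  exact (A.valuation_lt_one_iff _).mp h1

/-- **Square roots**: an inertia element fixing `θ ^ 2`, `θ` a unit, fixes `θ` (if `2` is a
unit). -/
theorem apply_eq_of_apply_sq_eq (hσ : σ ∈ A.inertiaSubgroupIn K) (h2 : A.valuation (2 : L) = 1)
    {θ : L} (hθ : A.valuation θ = 1) (hsq : σ (θ ^ 2) = θ ^ 2) : σ θ = θ := by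
  have h1 : (σ θ - θ) * (σ θ + θ) = 0 := by
    rw [map_pow] at hsq
    linear_combination hsq
  rcases mul_eq_zero.mp h1 with h | h
  · exact sub_eq_zero.mp h
  · exfalso
    have h3 : σ θ - θ = -(2 * θ) := by linear_combination h
    have h4 := valuation_apply_sub_lt_one A hσ hθ.le
    rw [h3, Valuation.map_neg, map_mul, h2, hθ, one_mul] at h4
    exact lt_irrefl _ h4

end Decomposition

section Prime

variable {L : Type*} [Field L] (A : ValuationSubring L) {q : ℕ}

theorem valuation_natCast_le_one (n : ℕ) : A.valuation (n : L) ≤ 1 :=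
  (A.valuation_le_one_iff _).mpr (natCast_mem A n)

theorem valuation_intCast_le_one (n : ℤ) : A.valuation (n : L) ≤ 1 :=
  (A.valuation_le_one_iff _).mpr (intCast_mem A n)

theorem valuation_prime_lt_one (hA : A.LiesOverPrime q) : A.valuation (q : L) < 1 :=
  (ValuationSubring.mem_nonunits_iff A).mp hA

theorem valuation_natCast_eq_one_of_not_dvd (hq : q.Prime) (hA : A.LiesOverPrime q) {n : ℕ}
    (hn : ¬ q ∣ n) : A.valuation (n : L) = 1 := by
  refine le_antisymm (valuation_natCast_le_one A n) (not_lt.mp fun hlt => ?_)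
  have hcop : Nat.Coprime q n := (Nat.Prime.coprime_iff_not_dvd hq).mpr hn
  have hbez : ((q : ℤ) * Nat.gcdA q n + n * Nat.gcdB q n : ℤ) = 1 := by
    have := Nat.gcd_eq_gcd_ab q n
    rw [hcop] at this
    exact_mod_cast this.symm
  have hL : ((q : L) * ((Nat.gcdA q n : ℤ) : L) + (n : L) * ((Nat.gcdB q n : ℤ) : L)) = 1 := by
    exact_mod_cast congrArg (fun z : ℤ => (z : L)) hbez
  have h1 : A.valuation ((q : L) * ((Nat.gcdA q n : ℤ) : L)) < 1 := by
    rw [map_mul]
    exact mul_lt_one_of_lt_of_le (valuation_prime_lt_one A hA) (valuation_intCast_le_one A _)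
  have h2 : A.valuation ((n : L) * ((Nat.gcdB q n : ℤ) : L)) < 1 := by
    rw [map_mul]
    exact mul_lt_one_of_lt_of_le hlt (valuation_intCast_le_one A _)
  have h3 := Valuation.map_add_lt A.valuation h1 h2
  rw [hL, map_one] at h3
  exact lt_irrefl _ h3

theorem valuation_intCast_eq_one_of_not_dvd (hq : q.Prime) (hA : A.LiesOverPrime q) {n : ℤ}
    (hn : ¬ (q : ℤ) ∣ n) : A.valuation (n : L) = 1 := by
  have h1 : ¬ q ∣ n.natAbs := fun h => hn (Int.natCast_dvd.mpr h)
  have h2 := valuation_natCast_eq_one_of_not_dvd A hq hA h1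
  rcases Int.natAbs_eq n with h | h
  · rw [h]
    simpa using h2
  · rw [h]
    simpa using h2

variable [CharZero L]

theorem valuation_prime_ne_zero (hq : q.Prime) : A.valuation (q : L) ≠ 0 := by
  rw [Ne, map_eq_zero]
  exact_mod_cast hq.ne_zero

theorem valuation_natCast (hq : q.Prime) (hA : A.LiesOverPrime q) {n : ℕ} (hn : n ≠ 0) :
    A.valuation (n : L) = A.valuation (q : L) ^ padicValNat q n := by
  have := Fact.mk hq
  obtain ⟨m, hm⟩ := pow_padicValNat_dvd (p := q) (n := n)
  have hqm : ¬ q ∣ m := by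
    intro hdvd
    obtain ⟨m', rfl⟩ := hdvd
    apply pow_succ_padicValNat_not_dvd (p := q) hn
    rw [pow_succ]
    exact ⟨m', by rw [mul_assoc]; exact hm⟩
  have h1 : (n : L) = (q : L) ^ padicValNat q n * (m : L) := by
    exact_mod_cast congrArg (fun z : ℕ => (z : L)) hm
  rw [h1, map_mul, map_pow, valuation_natCast_eq_one_of_not_dvd A hq hA hqm, mul_one]

theorem valuation_intCast (hq : q.Prime) (hA : A.LiesOverPrime q) {n : ℤ} (hn : n ≠ 0) :
    A.valuation (n : L) = A.valuation (q : L) ^ padicValInt q n := by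
  have h0 : n.natAbs ≠ 0 := Int.natAbs_ne_zero.mpr hn
  have h2 := valuation_natCast A hq hA h0
  rw [padicValInt]
  rcases Int.natAbs_eq n with h | h
  · conv_lhs => rw [h]
    simpa using h2
  · conv_lhs => rw [h]
    simpa using h2

theorem valuation_ratCast (hq : q.Prime) (hA : A.LiesOverPrime q) {r : ℚ} (hr : r ≠ 0) :
    A.valuation (r : L) = A.valuation (q : L) ^ padicValRat q r := by
  have hnum : r.num ≠ 0 := Rat.num_ne_zero.mpr hr
  have hden : r.den ≠ 0 := r.den_ne_zero
  have hv0 : A.valuation (q : L) ≠ 0 := valuation_prime_ne_zero A hq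
  rw [Rat.cast_def, map_div₀, valuation_intCast A hq hA hnum, valuation_natCast A hq hA hden,
    padicValRat, zpow_sub₀ hv0, zpow_natCast, zpow_natCast]

end Prime

end Fermat.Agent.Unram
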