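/-
S05 (Frey E[p] unramified at q ≠ 2, p): shared definitions and formulas.
Curves of the shape `Y² = X³ + aX² + bX` ("short" curves), their group law formulas, the Galois action on
coordinates, and the valuation context used by all packages in `Fermat/Agent/Unram/`.
-/
import Mathlib
import Fermat.Prelude.Def_FLTPrelim_GaloisRep
import Fermat.Prelude.Def_FLTPrelim_Ramification

set_option autoImplicit false

namespace Fermat.Agent.Unram

open WeierstrassCurve WeierstrassCurve.Affine WeierstrassCurve.Affine.Point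

/-- A Weierstrass curve of the shape `Y² = X³ + a₂X² + a₄X`. -/
structure IsShort {R : Type*} [CommRing R] (W : WeierstrassCurve R) : Prop where
  a₁ : W.a₁ = 0
  a₃ : W.a₃ = 0
  a₆ : W.a₆ = 0

/-- The curve `Y² = X³ + aX² + bX`. -/
def shortW {R : Type*} [CommRing R] (a b : R) : WeierstrassCurve R := ⟨0, a, 0, b, 0⟩

section ring

variable {R : Type*} [CommRing R] (a b : R)

@[simp] lemma shortW_a₁ : (shortW a b).a₁ = 0 := rfl
@[simp] lemma shortW_a₂ : (shortW a b).a₂ = a := rfl
@[simp] lemma shortW_a₃ : (shortW a b).a₃ = 0 := rfl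
@[simp] lemma shortW_a₄ : (shortW a b).a₄ = b := rfl
@[simp] lemma shortW_a₆ : (shortW a b).a₆ = 0 := rfl

lemma isShort_shortW : IsShort (shortW a b) := ⟨rfl, rfl, rfl⟩

variable {S : Type*} [CommRing S] [Algebra R S]

lemma isShort_baseChange {W : WeierstrassCurve R} (hW : IsShort W) : IsShort (W⁄S) := by
  constructor
  · change algebraMap R S W.a₁ = 0
    rw [hW.a₁, _root_.map_zero]
  · change algebraMap R S W.a₃ = 0
    rw [hW.a₃, _root_.map_zero]
  · change algebraMap R S W.a₆ = 0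
    rw [hW.a₆, _root_.map_zero]

lemma isShort_shortW_baseChange : IsShort ((shortW a b)⁄S) := isShort_baseChange (isShort_shortW a b)

@[simp] lemma shortW_baseChange_a₂ : ((shortW a b)⁄S).a₂ = algebraMap R S a := rfl
@[simp] lemma shortW_baseChange_a₄ : ((shortW a b)⁄S).a₄ = algebraMap R S b := rfl

lemma shortW_Δ : (shortW a b).Δ = 16 * b ^ 2 * (a ^ 2 - 4 * b) := by
  simp only [WeierstrassCurve.Δ, WeierstrassCurve.b₂, WeierstrassCurve.b₄, WeierstrassCurve.b₆,
    WeierstrassCurve.b₈, shortW_a₁, shortW_a₂, shortW_a₃, shortW_a₄, shortW_a₆]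
  ring

/-- For `a = α + β`, `b = αβ` the discriminant is `16 α² β² (α - β)²`. -/
lemma shortW_Δ_roots (α β : R) : (shortW (α + β) (α * β)).Δ = 16 * α ^ 2 * β ^ 2 * (α - β) ^ 2 := by
  rw [shortW_Δ]; ring

end ring

section field

variable {L : Type*} [Field L] {W : WeierstrassCurve L}

lemma IsShort.equation_iff (hW : IsShort W) (x y : L) :
    W.toAffine.Equation x y ↔ y ^ 2 = x ^ 3 + W.a₂ * x ^ 2 + W.a₄ * x := by
  rw [Affine.equation_iff, hW.a₁, hW.a₃, hW.a₆]
  constructor <;> intro h <;> linear_combination h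

lemma IsShort.negY (hW : IsShort W) (x y : L) : W.toAffine.negY x y = -y := by
  simp [Affine.negY, hW.a₁, hW.a₃]

lemma IsShort.addX (hW : IsShort W) (x₁ x₂ ℓ : L) :
    W.toAffine.addX x₁ x₂ ℓ = ℓ ^ 2 - W.a₂ - x₁ - x₂ := by
  simp [Affine.addX, hW.a₁]

lemma IsShort.negAddY (hW : IsShort W) (x₁ x₂ y₁ ℓ : L) :
    W.toAffine.negAddY x₁ x₂ y₁ ℓ = ℓ * (ℓ ^ 2 - W.a₂ - x₁ - x₂ - x₁) + y₁ := by
  simp [Affine.negAddY, hW.a₁]

lemma IsShort.addY (hW : IsShort W) (x₁ x₂ y₁ ℓ : L) :
    W.toAffine.addY x₁ x₂ y₁ ℓ = -(ℓ * (ℓ ^ 2 - W.a₂ - x₁ - x₂ - x₁) + y₁) := by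
  rw [Affine.addY, hW.negY, hW.negAddY]

lemma IsShort.slope_of_X_ne [DecidableEq L] (_hW : IsShort W) {x₁ x₂ : L} (y₁ y₂ : L) (hx : x₁ ≠ x₂) :
    W.toAffine.slope x₁ x₂ y₁ y₂ = (y₁ - y₂) / (x₁ - x₂) :=
  Affine.slope_of_X_ne hx

lemma IsShort.slope_of_Y_ne [DecidableEq L] (hW : IsShort W) {x₁ x₂ y₁ y₂ : L} (hx : x₁ = x₂) (hy : y₁ ≠ -y₂) :
    W.toAffine.slope x₁ x₂ y₁ y₂ = (3 * x₁ ^ 2 + 2 * W.a₂ * x₁ + W.a₄) / (2 * y₁) := by
  rw [Affine.slope_of_Y_ne hx (by rwa [hW.negY]), hW.negY, hW.a₁]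
  congr 1 <;> ring

/-- The `x`-coordinate of a point (`0` at the point at infinity). -/
def xc : W.toAffine.Point → L
  | .zero => 0
  | .some x _ _ => x

/-- The `y`-coordinate of a point (`0` at the point at infinity). -/
def yc : W.toAffine.Point → L
  | .zero => 0
  | .some _ y _ => y

@[simp] lemma xc_zero : xc (0 : W.toAffine.Point) = 0 := rfl
@[simp] lemma yc_zero : yc (0 : W.toAffine.Point) = 0 := rfl
@[simp] lemma xc_some {x y : L} (h : W.toAffine.Nonsingular x y) : xc (Point.some x y h) = x := rfl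
@[simp] lemma yc_some {x y : L} (h : W.toAffine.Nonsingular x y) : yc (Point.some x y h) = y := rfl

lemma IsShort.neg_some (hW : IsShort W) {x y : L} (h : W.toAffine.Nonsingular x y) :
    ∃ h' : W.toAffine.Nonsingular x (-y), -Point.some x y h = Point.some x (-y) h' := by
  have h' := (Affine.nonsingular_neg (W' := W.toAffine) x y).mpr h
  rw [hW.negY] at h'
  refine ⟨h', ?_⟩
  rw [Point.neg_some]
  congr 1
  exact hW.negY x y

@[simp] lemma xc_neg (P : W.toAffine.Point) : xc (-P) = xc P := by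
  cases P <;> rfl

lemma IsShort.yc_neg (hW : IsShort W) (P : W.toAffine.Point) : yc (-P) = -yc P := by
  cases P with
  | zero =>
    change yc (0 : W.toAffine.Point) = -yc (0 : W.toAffine.Point)
    simp
  | some x y h =>
    rw [Point.neg_some, yc_some, yc_some]
    exact hW.negY x y

/-- A point is in the "kernel of reduction" `E₁`: it is `0` or its `x`-coordinate is not integral. -/
def InE1 (A : ValuationSubring L) (P : W.toAffine.Point) : Prop :=
  P = 0 ∨ 1 < A.valuation (xc P)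

/-- The valuation context: `W : Y² = X(X+α)(X+β)`, residue characteristic `≠ 2`, `α` and `α - β` units,
`β` integral and nonzero. Multiplicative reduction iff `A.valuation β < 1`. -/
structure Ctx (A : ValuationSubring L) (W : WeierstrassCurve L) (α β : L) : Prop where
  short : IsShort W
  ha : W.a₂ = α + β
  hb : W.a₄ = α * β
  two : A.valuation (2 : L) = 1
  hα : A.valuation α = 1
  hβ : A.valuation β ≤ 1
  hβ0 : β ≠ 0
  hαβ : A.valuation (α - β) = 1

namespace Ctx

variable {A : ValuationSubring L} {α β : L}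

lemma val_b (h : Ctx A W α β) : A.valuation W.a₄ = A.valuation β := by
  rw [h.hb, map_mul, h.hα, one_mul]

lemma val_a_le (h : Ctx A W α β) : A.valuation W.a₂ ≤ 1 := by
  rw [h.ha]
  exact (A.valuation.map_add _ _).trans (max_le h.hα.le h.hβ)

lemma val_a (h : Ctx A W α β) (hβ : A.valuation β < 1) : A.valuation W.a₂ = 1 := by
  rw [h.ha, Valuation.map_add_eq_of_lt_left _ (by rw [h.hα]; exact hβ), h.hα]

lemma b_ne_zero (h : Ctx A W α β) : W.a₄ ≠ 0 := by
  rw [h.hb]
  refine mul_ne_zero (fun h0 => ?_) h.hβ0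
  have := h.hα
  rw [h0, _root_.map_zero] at this
  exact zero_ne_one this

lemma Δ_ne_zero (h : Ctx A W α β) : W.Δ ≠ 0 := by
  have hW : W = shortW (α + β) (α * β) := by
    ext
    · exact h.short.a₁
    · exact h.ha
    · exact h.short.a₃
    · exact h.hb
    · exact h.short.a₆
  rw [hW, shortW_Δ_roots]
  have h2 : (2 : L) ≠ 0 := fun h0 => by
    have := h.two
    rw [h0, _root_.map_zero] at this
    exact zero_ne_one this
  have hα : α ≠ 0 := fun h0 => by
    have := h.hα
    rw [h0, _root_.map_zero] at this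
    exact zero_ne_one this
  have hαβ : α - β ≠ 0 := fun h0 => by
    have := h.hαβ
    rw [h0, _root_.map_zero] at this
    exact zero_ne_one this
  have h16 : (16 : L) = 2 ^ 4 := by norm_num
  rw [h16]
  exact mul_ne_zero (mul_ne_zero (mul_ne_zero (pow_ne_zero _ h2) (pow_ne_zero _ hα))
    (pow_ne_zero _ h.hβ0)) (pow_ne_zero _ hαβ)

/-- Every solution of the equation is a nonsingular point. -/
lemma nonsingular_of_equation (h : Ctx A W α β) {x y : L} (hxy : W.toAffine.Equation x y) :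
    W.toAffine.Nonsingular x y :=
  (Affine.equation_iff_nonsingular_of_Δ_ne_zero (W := W.toAffine) h.Δ_ne_zero).mp hxy

end Ctx

end field

section galois

/-! The Galois action of the Prelude on points of `(shortW a b)⁄L`, in coordinates. -/

variable {K : Type*} [Field K] {L : Type*} [Field L] [DecidableEq L] [Algebra K L]
  (W' : WeierstrassCurve K)

lemma smul_some (σ : L ≃ₐ[K] L) {x y : L} (h : (W'⁄L).toAffine.Nonsingular x y) :
    ∃ h' : (W'⁄L).toAffine.Nonsingular (σ x) (σ y),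
      σ • (Point.some x y h : (W'⁄L).toAffine.Point) = Point.some (σ x) (σ y) h' :=
  ⟨_, rfl⟩

@[simp] lemma xc_smul (σ : L ≃ₐ[K] L) (P : (W'⁄L).toAffine.Point) : xc (σ • P) = σ (xc P) := by
  cases P with
  | zero => simp [show (Point.zero : (W'⁄L).toAffine.Point) = 0 from rfl]
  | some x y h => rfl

@[simp] lemma yc_smul (σ : L ≃ₐ[K] L) (P : (W'⁄L).toAffine.Point) : yc (σ • P) = σ (yc P) := by
  cases P with
  | zero => simp [show (Point.zero : (W'⁄L).toAffine.Point) = 0 from rfl]
  | some x y h => rfl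

/-! `rw`-friendly forms of the `DistribMulAction` lemmas (the Prelude `SMul` instance is found directly,
so `rw [smul_zero]`, `rw [smul_sub]` etc. fail to unify instances; use these instead). -/

lemma gal_smul_zero (σ : L ≃ₐ[K] L) : σ • (0 : (W'⁄L).toAffine.Point) = 0 :=
  smul_zero (A := (W'⁄L).toAffine.Point) σ

lemma gal_smul_add (σ : L ≃ₐ[K] L) (P Q : (W'⁄L).toAffine.Point) : σ • (P + Q) = σ • P + σ • Q :=
  smul_add σ P Q

lemma gal_smul_neg (σ : L ≃ₐ[K] L) (P : (W'⁄L).toAffine.Point) : σ • (-P) = -(σ • P) :=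
  smul_neg σ P

lemma gal_smul_sub (σ : L ≃ₐ[K] L) (P Q : (W'⁄L).toAffine.Point) : σ • (P - Q) = σ • P - σ • Q :=
  smul_sub σ P Q

lemma gal_smul_zsmul (σ : L ≃ₐ[K] L) (n : ℤ) (P : (W'⁄L).toAffine.Point) :
    σ • (n • P) = n • (σ • P) :=
  algEquiv_smul_zsmul σ n P

lemma gal_smul_nsmul (σ : L ≃ₐ[K] L) (n : ℕ) (P : (W'⁄L).toAffine.Point) :
    σ • (n • P) = n • (σ • P) := by
  rw [← natCast_zsmul, gal_smul_zsmul, natCast_zsmul]

lemma smul_eq_zero_iff (σ : L ≃ₐ[K] L) (P : (W'⁄L).toAffine.Point) : σ • P = 0 ↔ P = 0 := by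
  constructor
  · intro h
    have := congrArg (fun Q => σ⁻¹ • Q) h
    simpa using this
  · rintro rfl
    exact smul_zero σ

omit [DecidableEq L] in
/-- Two points with the same coordinates are equal. -/
lemma point_ext {W : WeierstrassCurve L} {P Q : W.toAffine.Point} (hP : P ≠ 0) (hQ : Q ≠ 0)
    (hx : xc P = xc Q) (hy : yc P = yc Q) : P = Q := by
  cases P with
  | zero => exact absurd rfl hP
  | some x y h =>
    cases Q with
    | zero => exact absurd rfl hQ
    | some x' y' h' =>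
      simp only [xc_some, yc_some] at hx hy
      subst hx hy
      rfl

end galois

end Fermat.Agent.Unram
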