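import Mathlib
import Fermat.Agent.Unram.Setup

/-!
# S05: the annulus `v b < v x < 1` on a curve `Y² = X³ + aX² + bX`

Shared by packages W1 (`WalkStep`), W2 (`WalkMain`) and END.
-/

set_option autoImplicit false

namespace Fermat.Agent.Unram

open WeierstrassCurve WeierstrassCurve.Affine WeierstrassCurve.Affine.Point

variable {L : Type*} [Field L] {W : WeierstrassCurve L}

/-- The annulus `v b < v x < 1` (affine points only), `b = W.a₄`. -/
def InAnn (A : ValuationSubring L) (P : W.toAffine.Point) : Prop :=
  P ≠ 0 ∧ A.valuation W.a₄ < A.valuation (xc P) ∧ A.valuation (xc P) < 1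

theorem InAnn.ne_zero {A : ValuationSubring L} {P : W.toAffine.Point} (h : InAnn A P) : P ≠ 0 := h.1

theorem InAnn.lt_val {A : ValuationSubring L} {P : W.toAffine.Point} (h : InAnn A P) :
    A.valuation W.a₄ < A.valuation (xc P) := h.2.1

theorem InAnn.val_lt_one {A : ValuationSubring L} {P : W.toAffine.Point} (h : InAnn A P) :
    A.valuation (xc P) < 1 := h.2.2

theorem InAnn.neg [DecidableEq L] {A : ValuationSubring L} {P : W.toAffine.Point} (h : InAnn A P) :
    InAnn A (-P) := by
  refine ⟨neg_ne_zero.mpr h.1, ?_, ?_⟩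
  · rw [xc_neg]; exact h.2.1
  · rw [xc_neg]; exact h.2.2

/-- Trichotomy used in END: an affine point has `v x ≥ 1`, or `v x ≤ v b` and `v x < 1`, or lies in
the annulus. -/
theorem inAnn_of_not {A : ValuationSubring L} {P : W.toAffine.Point} (hP : P ≠ 0)
    (h1 : ¬ 1 ≤ A.valuation (xc P)) (h2 : ¬ A.valuation (xc P) ≤ A.valuation W.a₄) : InAnn A P :=
  ⟨hP, not_le.mp h2, not_le.mp h1⟩

/-- Two affine points with the same `x`-coordinate are equal or opposite. -/
theorem eq_or_eq_neg_of_xc_eq {P Q : W.toAffine.Point} (hP : P ≠ 0) (hQ : Q ≠ 0)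
    (hx : xc P = xc Q) : P = Q ∨ P = -Q := by
  cases P with
  | zero => exact absurd rfl hP
  | some x y h =>
    cases Q with
    | zero => exact absurd rfl hQ
    | some x' y' h' =>
      simp only [xc_some] at hx
      subst hx
      rcases Affine.Y_eq_of_X_eq h.1 h'.1 rfl with hy | hy
      · left
        subst hy
        rfl
      · right
        rw [Point.neg_some]
        congr 1

end Fermat.Agent.Unram
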