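/-
S05 package X: `x`-only identities on a short curve `Y² = X³ + aX² + bX`.

* `xc_add_of_xc_ne`, `xc_sub_of_xc_ne`: the chord formulas for `x(R ± S)`;
* `xc_add_mul_xc_sub` (Prod), `xc_add_add_xc_sub` (Sum): the symmetric functions of `x(R + S)`, `x(R - S)`;
* `xc_two_nsmul` (Dup): the duplication formula `x(2R) = (x² - b)² / (4 y²)`;
* `Ctx.one_le_val_xc_two_nsmul` (Dbl): if `v x ≤ v b` and `v x < 1` then `v x(2R) ≥ 1`.
-/
import Fermat.Agent.Unram.Setup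

set_option autoImplicit false

namespace Fermat.Agent.Unram

open WeierstrassCurve WeierstrassCurve.Affine WeierstrassCurve.Affine.Point

namespace XOnly

/-! ### Raw field identities -/

variable {F : Type*} [Field F]

theorem raw_sum {a b x₁ x₂ y₁ y₂ : F} (h₁ : y₁ ^ 2 = x₁ ^ 3 + a * x₁ ^ 2 + b * x₁)
    (h₂ : y₂ ^ 2 = x₂ ^ 3 + a * x₂ ^ 2 + b * x₂) (hx : x₁ ≠ x₂) :
    (((y₁ - y₂) / (x₁ - x₂)) ^ 2 - a - x₁ - x₂) + (((y₁ + y₂) / (x₁ - x₂)) ^ 2 - a - x₁ - x₂)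
      = 2 * ((x₁ * x₂ + b) * (x₁ + x₂) + 2 * a * (x₁ * x₂)) / (x₁ - x₂) ^ 2 := by
  have hd : x₁ - x₂ ≠ 0 := sub_ne_zero.mpr hx
  field_simp
  linear_combination 2 * h₁ + 2 * h₂

theorem raw_prod {a b x₁ x₂ y₁ y₂ : F} (h₁ : y₁ ^ 2 = x₁ ^ 3 + a * x₁ ^ 2 + b * x₁)
    (h₂ : y₂ ^ 2 = x₂ ^ 3 + a * x₂ ^ 2 + b * x₂) (hx : x₁ ≠ x₂) :
    (((y₁ - y₂) / (x₁ - x₂)) ^ 2 - a - x₁ - x₂) * (((y₁ + y₂) / (x₁ - x₂)) ^ 2 - a - x₁ - x₂)
      = (x₁ * x₂ - b) ^ 2 / (x₁ - x₂) ^ 2 := by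
  have hd : x₁ - x₂ ≠ 0 := sub_ne_zero.mpr hx
  field_simp
  linear_combination
    (y₁ ^ 2 + (x₁ ^ 3 + a * x₁ ^ 2 + b * x₁) - 2 * y₂ ^ 2
      - 2 * ((a + x₁ + x₂) * (x₁ - x₂) ^ 2)) * h₁ +
    (y₂ ^ 2 + (x₂ ^ 3 + a * x₂ ^ 2 + b * x₂) - 2 * (x₁ ^ 3 + a * x₁ ^ 2 + b * x₁)
      - 2 * ((a + x₁ + x₂) * (x₁ - x₂) ^ 2)) * h₂

theorem raw_dup {a b x y : F} (h2 : (2 : F) ≠ 0) (h : y ^ 2 = x ^ 3 + a * x ^ 2 + b * x)
    (hy : y ≠ 0) :
    ((3 * x ^ 2 + 2 * a * x + b) / (2 * y)) ^ 2 - a - x - x = (x ^ 2 - b) ^ 2 / (4 * y ^ 2) := by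
  have h4 : (4 : F) ≠ 0 := by
    have : (4 : F) = 2 * 2 := by norm_num
    rw [this]; exact mul_ne_zero h2 h2
  field_simp
  linear_combination (-16 * a - 32 * x) * h

end XOnly

section points

variable {L : Type*} [Field L] [DecidableEq L] {W : WeierstrassCurve L}

omit [DecidableEq L] in
/-- The equation of the curve in terms of the coordinates of a nonzero point. -/
theorem IsShort.yc_sq (hW : IsShort W) {P : W.toAffine.Point} (hP : P ≠ 0) :
    yc P ^ 2 = xc P ^ 3 + W.a₂ * xc P ^ 2 + W.a₄ * xc P := by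
  cases P with
  | zero => exact absurd rfl hP
  | some x y h => exact (hW.equation_iff x y).mp h.1

omit [DecidableEq L] in
/-- A nonzero point with `y = 0` satisfies `x (x² + a x + b) = 0`; in particular its `x`-coordinate is
a root of the cubic. -/
theorem IsShort.cubic_eq_zero_of_yc_eq_zero (hW : IsShort W) {P : W.toAffine.Point} (hP : P ≠ 0)
    (hy : yc P = 0) : xc P ^ 3 + W.a₂ * xc P ^ 2 + W.a₄ * xc P = 0 := by
  rw [← hW.yc_sq hP, hy]; ring

/-- If two nonzero points have different `x`-coordinates, their sum is nonzero. -/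
theorem add_ne_zero_of_xc_ne {R S : W.toAffine.Point} (hR : R ≠ 0) (hS : S ≠ 0)
    (hx : xc R ≠ xc S) : R + S ≠ 0 := by
  cases R with
  | zero => exact absurd rfl hR
  | some x₁ y₁ h₁ =>
    cases S with
    | zero => exact absurd rfl hS
    | some x₂ y₂ h₂ =>
      simp only [xc_some] at hx
      rw [Point.add_of_X_ne hx]
      exact Point.some_ne_zero _

/-- If two nonzero points have different `x`-coordinates, their difference is nonzero. -/
theorem sub_ne_zero_of_xc_ne {R S : W.toAffine.Point} (hx : xc R ≠ xc S) : R - S ≠ 0 := by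
  intro h
  rw [sub_eq_zero] at h
  exact hx (by rw [h])

/-- Chord formula for `x(R + S)`. -/
theorem IsShort.xc_add_of_xc_ne (hW : IsShort W) {R S : W.toAffine.Point} (hR : R ≠ 0)
    (hS : S ≠ 0) (hx : xc R ≠ xc S) :
    xc (R + S) = ((yc R - yc S) / (xc R - xc S)) ^ 2 - W.a₂ - xc R - xc S := by
  cases R with
  | zero => exact absurd rfl hR
  | some x₁ y₁ h₁ =>
    cases S with
    | zero => exact absurd rfl hS
    | some x₂ y₂ h₂ =>
      simp only [xc_some, yc_some] at hx ⊢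
      rw [Point.add_of_X_ne hx, xc_some, hW.addX, Affine.slope_of_X_ne hx]

/-- Chord formula for `y(R + S)`. -/
theorem IsShort.yc_add_of_xc_ne (hW : IsShort W) {R S : W.toAffine.Point} (hR : R ≠ 0)
    (hS : S ≠ 0) (hx : xc R ≠ xc S) :
    yc (R + S) = -(((yc R - yc S) / (xc R - xc S)) * (xc (R + S) - xc R) + yc R) := by
  rw [hW.xc_add_of_xc_ne hR hS hx]
  cases R with
  | zero => exact absurd rfl hR
  | some x₁ y₁ h₁ =>
    cases S with
    | zero => exact absurd rfl hS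
    | some x₂ y₂ h₂ =>
      simp only [xc_some, yc_some] at hx ⊢
      rw [Point.add_of_X_ne hx, yc_some, hW.addY, Affine.slope_of_X_ne hx]

/-- Chord formula for `x(R - S)`. -/
theorem IsShort.xc_sub_of_xc_ne (hW : IsShort W) {R S : W.toAffine.Point} (hR : R ≠ 0)
    (hS : S ≠ 0) (hx : xc R ≠ xc S) :
    xc (R - S) = ((yc R + yc S) / (xc R - xc S)) ^ 2 - W.a₂ - xc R - xc S := by
  have hS' : -S ≠ 0 := neg_ne_zero.mpr hS
  have hx' : xc R ≠ xc (-S) := by rwa [xc_neg]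
  rw [sub_eq_add_neg, hW.xc_add_of_xc_ne hR hS' hx', xc_neg, hW.yc_neg, sub_neg_eq_add]

/-- **Prod**: `x(R + S) x(R - S) = (x_R x_S - b)² / (x_R - x_S)²`. -/
theorem IsShort.xc_add_mul_xc_sub (hW : IsShort W) {R S : W.toAffine.Point} (hR : R ≠ 0)
    (hS : S ≠ 0) (hx : xc R ≠ xc S) :
    xc (R + S) * xc (R - S) = (xc R * xc S - W.a₄) ^ 2 / (xc R - xc S) ^ 2 := by
  rw [hW.xc_add_of_xc_ne hR hS hx, hW.xc_sub_of_xc_ne hR hS hx]
  exact XOnly.raw_prod (hW.yc_sq hR) (hW.yc_sq hS) hx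

/-- **Sum**: `x(R + S) + x(R - S) = 2 ((x_R x_S + b)(x_R + x_S) + 2 a x_R x_S) / (x_R - x_S)²`. -/
theorem IsShort.xc_add_add_xc_sub (hW : IsShort W) {R S : W.toAffine.Point} (hR : R ≠ 0)
    (hS : S ≠ 0) (hx : xc R ≠ xc S) :
    xc (R + S) + xc (R - S) =
      2 * ((xc R * xc S + W.a₄) * (xc R + xc S) + 2 * W.a₂ * (xc R * xc S))
        / (xc R - xc S) ^ 2 := by
  rw [hW.xc_add_of_xc_ne hR hS hx, hW.xc_sub_of_xc_ne hR hS hx]
  exact XOnly.raw_sum (hW.yc_sq hR) (hW.yc_sq hS) hx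

/-- A nonzero point with `y ≠ 0` is not `2`-torsion (characteristic `≠ 2`). -/
theorem IsShort.two_nsmul_ne_zero (hW : IsShort W) (h2 : (2 : L) ≠ 0) {P : W.toAffine.Point}
    (hP : P ≠ 0) (hy : yc P ≠ 0) : 2 • P ≠ 0 := by
  cases P with
  | zero => exact absurd rfl hP
  | some x y h =>
    simp only [yc_some] at hy
    have hne : y ≠ W.toAffine.negY x y := by
      rw [hW.negY]
      intro h'
      apply hy
      have : (2 : L) * y = 0 := by linear_combination h'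
      exact (mul_eq_zero.mp this).resolve_left h2
    rw [two_nsmul, Point.add_self_of_Y_ne hne]
    exact Point.some_ne_zero _

/-- **Dup**: `x(2P) = (x² - b)² / (4 y²)`. -/
theorem IsShort.xc_two_nsmul (hW : IsShort W) (h2 : (2 : L) ≠ 0) {P : W.toAffine.Point}
    (hP : P ≠ 0) (hy : yc P ≠ 0) :
    xc (2 • P) = (xc P ^ 2 - W.a₄) ^ 2 / (4 * yc P ^ 2) := by
  have hEq := hW.yc_sq hP
  cases P with
  | zero => exact absurd rfl hP
  | some x y h =>
    simp only [xc_some, yc_some] at hy hEq ⊢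
    have hne : y ≠ -y := by
      intro h'
      apply hy
      have : (2 : L) * y = 0 := by linear_combination h'
      exact (mul_eq_zero.mp this).resolve_left h2
    have hne' : y ≠ W.toAffine.negY x y := by rwa [hW.negY]
    rw [two_nsmul, Point.add_self_of_Y_ne hne', xc_some, hW.addX, hW.slope_of_Y_ne rfl hne]
    exact XOnly.raw_dup h2 hEq hy

/-- **Prod**, denominator-free. -/
theorem IsShort.xc_add_mul_xc_sub_mul (hW : IsShort W) {R S : W.toAffine.Point} (hR : R ≠ 0)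
    (hS : S ≠ 0) (hx : xc R ≠ xc S) :
    xc (R + S) * xc (R - S) * (xc R - xc S) ^ 2 = (xc R * xc S - W.a₄) ^ 2 := by
  have hd : (xc R - xc S) ^ 2 ≠ 0 := pow_ne_zero 2 (sub_ne_zero.mpr hx)
  rw [hW.xc_add_mul_xc_sub hR hS hx, div_mul_cancel₀ _ hd]

/-- **Sum**, denominator-free. -/
theorem IsShort.xc_add_add_xc_sub_mul (hW : IsShort W) {R S : W.toAffine.Point} (hR : R ≠ 0)
    (hS : S ≠ 0) (hx : xc R ≠ xc S) :
    (xc (R + S) + xc (R - S)) * (xc R - xc S) ^ 2 =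
      2 * ((xc R * xc S + W.a₄) * (xc R + xc S) + 2 * W.a₂ * xc R * xc S) := by
  have hd : (xc R - xc S) ^ 2 ≠ 0 := pow_ne_zero 2 (sub_ne_zero.mpr hx)
  rw [hW.xc_add_add_xc_sub hR hS hx, div_mul_cancel₀ _ hd]
  ring

/-- **Dup**, denominator-free. -/
theorem IsShort.xc_two_nsmul_mul (hW : IsShort W) (h2 : (2 : L) ≠ 0) {P : W.toAffine.Point}
    (hP : P ≠ 0) (hy : yc P ≠ 0) :
    xc (2 • P) * (4 * yc P ^ 2) = (xc P ^ 2 - W.a₄) ^ 2 := by
  have h4 : (4 : L) ≠ 0 := by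
    have : (4 : L) = 2 * 2 := by norm_num
    rw [this]; exact mul_ne_zero h2 h2
  have hd : 4 * yc P ^ 2 ≠ 0 := mul_ne_zero h4 (pow_ne_zero 2 hy)
  rw [hW.xc_two_nsmul h2 hP hy, div_mul_cancel₀ _ hd]

end points

section valuation

variable {L : Type*} [Field L] [DecidableEq L] {W : WeierstrassCurve L}
  {A : ValuationSubring L} {α β : L}

omit [DecidableEq L] in
theorem Ctx.two_ne_zero (h : Ctx A W α β) : (2 : L) ≠ 0 := fun h0 => by
  have := h.two
  rw [h0, _root_.map_zero] at this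
  exact zero_ne_one this

omit [DecidableEq L] in
/-- `y² = x (x + α)(x + β)` for a nonzero point. -/
theorem Ctx.yc_sq_eq (h : Ctx A W α β) {P : W.toAffine.Point} (hP : P ≠ 0) :
    yc P ^ 2 = xc P * (xc P + α) * (xc P + β) := by
  rw [h.short.yc_sq hP, h.ha, h.hb]; ring

/-- **Dbl**: if `v x ≤ v b`, `v x < 1` and `y ≠ 0`, then `x(2P)` has valuation `≥ 1`. -/
theorem Ctx.one_le_val_xc_two_nsmul (h : Ctx A W α β) {P : W.toAffine.Point} (hP : P ≠ 0)
    (hy : yc P ≠ 0) (hxb : A.valuation (xc P) ≤ A.valuation W.a₄)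
    (hx1 : A.valuation (xc P) < 1) : 1 ≤ A.valuation (xc (2 • P)) := by
  set v := A.valuation with hv
  have h2 := h.two_ne_zero
  have hb0 : W.a₄ ≠ 0 := h.b_ne_zero
  have hvb : 0 < v W.a₄ := (Valuation.pos_iff v).mpr hb0
  have hvb' : v W.a₄ = v β := h.val_b
  rw [h.short.xc_two_nsmul h2 hP hy, map_div₀, map_pow, map_mul, map_pow]
  have h4 : v (4 : L) = 1 := by
    have : (4 : L) = 2 * 2 := by norm_num
    rw [this, map_mul, h.two, one_mul]
  rw [h4, one_mul]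
  -- the numerator
  have hnum : v (xc P ^ 2 - W.a₄) = v W.a₄ := by
    have hlt : v (xc P ^ 2) < v W.a₄ := by
      rw [map_pow, pow_two]
      calc v (xc P) * v (xc P) ≤ v (xc P) * v W.a₄ := mul_le_mul_right hxb _
        _ < 1 * v W.a₄ := by
            exact mul_lt_mul_of_pos_right hx1 hvb
        _ = v W.a₄ := one_mul _
    exact Valuation.map_sub_eq_of_lt_right _ hlt
  -- the denominator
  have hy2 : v (yc P) ^ 2 ≤ v W.a₄ ^ 2 := by
    rw [← map_pow, h.yc_sq_eq hP, map_mul, map_mul]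
    have h1 : v (xc P + α) = 1 := by
      rw [Valuation.map_add_eq_of_lt_right _ (by rw [h.hα]; exact hx1), h.hα]
    have h3 : v (xc P + β) ≤ v W.a₄ := by
      refine (v.map_add _ _).trans (max_le hxb ?_)
      rw [hvb']
    rw [h1, mul_one, pow_two]
    exact mul_le_mul' hxb h3
  have hy0 : 0 < v (yc P) ^ 2 := pow_pos ((Valuation.pos_iff v).mpr hy) 2
  rw [hnum, one_le_div₀ hy0]
  exact hy2

end valuation

end Fermat.Agent.Unram
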