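import Mathlib
import Fermat.Prelude.Def_FLTPrelim_FreyPackage
import Fermat.Agent.Unram.Setup

/-!
# Unram / M2: the short model of the Frey curve

* `ToShort`: for a curve `E : y² + xy = x³ + a₂x² + a₄x` and `r` with
  `r³ + (4a₂+1)r² + 16a₄r = 0`, the map `(x, y) ↦ (4x - r, 8y + 4x)` is an injective additive map
  from the points of `E` to the points of the short curve
  `Y² = X³ + (3r + 4a₂ + 1)X² + (3r² + 2r(4a₂+1) + 16a₄)X`, compatible with the Galois action.
* `exists_freyModel`: for a Frey package and an odd prime `q` there are integers `α`, `β` with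
  `q ∤ α`, `q ∤ α - β`, `β ≠ 0`, `v_q β = p m`, and an injective Galois-equivariant additive map
  from the points of the Frey curve to the points of `Y² = X(X + α)(X + β)`.
-/

set_option autoImplicit false

namespace Fermat.Agent.Unram

open WeierstrassCurve WeierstrassCurve.Affine WeierstrassCurve.Affine.Point

namespace ToShort

section field

variable {L : Type*} [Field L]

/-- The relation between `E : y² + xy = x³ + a₂x² + a₄x` and the short curve `W` obtained from
the substitution `X = 4x - r`, `Y = 8y + 4x`. -/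
structure Rel (E W : WeierstrassCurve L) (r : L) : Prop where
  e1 : E.a₁ = 1
  e3 : E.a₃ = 0
  e6 : E.a₆ = 0
  w : IsShort W
  ha : W.a₂ = 3 * r + 4 * E.a₂ + 1
  hb : W.a₄ = 3 * r ^ 2 + 2 * r * (4 * E.a₂ + 1) + 16 * E.a₄
  hc : r ^ 3 + (4 * E.a₂ + 1) * r ^ 2 + 16 * E.a₄ * r = 0
  two : (2 : L) ≠ 0

variable {E W : WeierstrassCurve L} {r : L}

lemma Rel.equation (h : Rel E W r) {x y : L} (hxy : E.toAffine.Equation x y) :
    W.toAffine.Equation (4 * x - r) (8 * y + 4 * x) := by
  rw [h.w.equation_iff, h.ha, h.hb]
  rw [Affine.equation_iff, h.e1, h.e3, h.e6] at hxy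
  linear_combination 64 * hxy + h.hc

lemma Rel.nonsingular (h : Rel E W r) {x y : L} (hxy : E.toAffine.Nonsingular x y) :
    W.toAffine.Nonsingular (4 * x - r) (8 * y + 4 * x) := by
  rw [Affine.nonsingular_iff'] at hxy ⊢
  refine ⟨h.equation hxy.1, ?_⟩
  rw [h.w.a₁, h.w.a₃, h.ha, h.hb]
  rw [h.e1, h.e3] at hxy
  have h8 : (8 : L) ≠ 0 := by
    have : (8 : L) = 2 ^ 3 := by norm_num
    rw [this]
    exact pow_ne_zero _ h.two
  have h16 : (16 : L) ≠ 0 := by
    have : (16 : L) = 2 ^ 4 := by norm_num
    rw [this]
    exact pow_ne_zero _ h.two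
  by_cases hY : 2 * y + 1 * x + 0 = 0
  · rcases hxy.2 with hX | hY'
    · left
      intro h0
      apply hX
      apply mul_left_cancel₀ h16
      linear_combination h0 + 8 * hY
    · exact absurd hY hY'
  · right
    intro h0
    apply hY
    apply mul_left_cancel₀ h8
    linear_combination h0

/-- the map on points -/
def toFun (h : Rel E W r) : E.toAffine.Point → W.toAffine.Point
  | .zero => 0
  | .some _ _ hxy => .some _ _ (h.nonsingular hxy)

@[simp] lemma toFun_zero (h : Rel E W r) : toFun h 0 = 0 := rfl

@[simp] lemma toFun_some (h : Rel E W r) {x y : L} (hxy : E.toAffine.Nonsingular x y) :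
    toFun h (.some x y hxy) = .some (4 * x - r) (8 * y + 4 * x) (h.nonsingular hxy) := rfl

lemma toFun_eq_zero_iff (h : Rel E W r) (P : E.toAffine.Point) : toFun h P = 0 ↔ P = 0 := by
  cases P with
  | zero => exact ⟨fun _ => rfl, fun _ => rfl⟩
  | some x y hxy =>
    constructor
    · intro h0
      exact absurd h0 (Point.some_ne_zero _)
    · intro h0
      exact absurd h0 (Point.some_ne_zero _)

lemma xc_toFun (h : Rel E W r) {P : E.toAffine.Point} (hP : P ≠ 0) :
    xc (toFun h P) = 4 * xc P - r := by
  cases P with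
  | zero => exact absurd rfl hP
  | some x y hxy => rfl

lemma yc_toFun (h : Rel E W r) {P : E.toAffine.Point} (hP : P ≠ 0) :
    yc (toFun h P) = 8 * yc P + 4 * xc P := by
  cases P with
  | zero => exact absurd rfl hP
  | some x y hxy => rfl

lemma toFun_injective (h : Rel E W r) : Function.Injective (toFun h) := by
  have h4 : (4 : L) ≠ 0 := by
    have : (4 : L) = 2 ^ 2 := by norm_num
    rw [this]
    exact pow_ne_zero _ h.two
  have h8 : (8 : L) ≠ 0 := by
    have : (8 : L) = 2 ^ 3 := by norm_num
    rw [this]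
    exact pow_ne_zero _ h.two
  intro P Q hPQ
  cases P with
  | zero =>
    cases Q with
    | zero => rfl
    | some x y hxy => exact absurd hPQ.symm (Point.some_ne_zero _)
  | some x y hxy =>
    cases Q with
    | zero => exact absurd hPQ (Point.some_ne_zero _)
    | some x' y' hxy' =>
      simp only [toFun_some, Point.some.injEq] at hPQ
      obtain ⟨hx, hy⟩ := hPQ
      have hx' : x = x' := by
        apply mul_left_cancel₀ h4
        linear_combination hx
      subst hx'
      have hy' : y = y' := by
        apply mul_left_cancel₀ h8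
        linear_combination hy
      subst hy'
      rfl

variable [DecidableEq L]

lemma toFun_add (h : Rel E W r) (P Q : E.toAffine.Point) :
    toFun h (P + Q) = toFun h P + toFun h Q := by
  have h2 := h.two
  have h4 : (4 : L) ≠ 0 := by
    have : (4 : L) = 2 ^ 2 := by norm_num
    rw [this]
    exact pow_ne_zero _ h.two
  have h8 : (8 : L) ≠ 0 := by
    have : (8 : L) = 2 ^ 3 := by norm_num
    rw [this]
    exact pow_ne_zero _ h.two
  cases P with
  | zero =>
    change toFun h (0 + Q) = toFun h 0 + toFun h Q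
    rw [zero_add, toFun_zero, zero_add]
  | some x₁ y₁ h₁ =>
    cases Q with
    | zero =>
      change toFun h (Point.some x₁ y₁ h₁ + 0) = toFun h (Point.some x₁ y₁ h₁) + toFun h 0
      rw [add_zero, toFun_zero, add_zero]
    | some x₂ y₂ h₂ =>
      have hnegE : ∀ x y : L, E.toAffine.negY x y = -y - x := by
        intro x y
        simp [Affine.negY, h.e1, h.e3]
      by_cases hxy : x₁ = x₂ ∧ y₁ = E.toAffine.negY x₂ y₂
      · rw [Point.add_of_Y_eq hxy.1 hxy.2, toFun_zero, toFun_some, toFun_some,
          Point.add_of_Y_eq]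
        · rw [hxy.1]
        · rw [h.w.negY, hxy.2, hnegE, hxy.1]
          ring
      · have hxy' : ¬ (4 * x₁ - r = 4 * x₂ - r ∧
            8 * y₁ + 4 * x₁ = W.toAffine.negY (4 * x₂ - r) (8 * y₂ + 4 * x₂)) := by
          rintro ⟨hx, hy⟩
          apply hxy
          have hx' : x₁ = x₂ := by
            apply mul_left_cancel₀ h4
            linear_combination hx
          refine ⟨hx', ?_⟩
          rw [h.w.negY] at hy
          rw [hnegE]
          apply mul_left_cancel₀ h8
          rw [hx'] at hy
          linear_combination hy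
        rw [Point.add_some hxy, toFun_some, toFun_some, toFun_some, Point.add_some hxy']
        -- slopes
        have hslope : W.toAffine.slope (4 * x₁ - r) (4 * x₂ - r) (8 * y₁ + 4 * x₁)
            (8 * y₂ + 4 * x₂) = 2 * E.toAffine.slope x₁ x₂ y₁ y₂ + 1 := by
          by_cases hx : x₁ = x₂
          · have hy : y₁ ≠ E.toAffine.negY x₂ y₂ := fun hy => hxy ⟨hx, hy⟩
            have hy' : 8 * y₁ + 4 * x₁ ≠ -(8 * y₂ + 4 * x₂) := by
              intro h0
              apply hy
              rw [hnegE]
              apply mul_left_cancel₀ h8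
              rw [hx] at h0
              linear_combination h0
            have hx' : 4 * x₁ - r = 4 * x₂ - r := by rw [hx]
            rw [h.w.slope_of_Y_ne hx' hy', Affine.slope_of_Y_ne hx hy, hnegE, h.ha, h.hb, h.e1]
            have hd0 : y₁ - (-y₂ - x₂) ≠ 0 := by
              intro h0
              apply hy
              rw [hnegE]
              linear_combination h0
            have hy12 : y₁ = y₂ := by
              have e1 := h₁.1
              have e2 := h₂.1
              rw [Affine.equation_iff, h.e1, h.e3, h.e6] at e1 e2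
              rw [hx] at e1
              have : (y₁ - y₂) * (y₁ - (-y₂ - x₂)) = 0 := by linear_combination e1 - e2
              rcases mul_eq_zero.mp this with h0 | h0
              · exact sub_eq_zero.mp h0
              · exact absurd h0 hd0
            have hd : y₁ - (-y₁ - x₁) ≠ 0 := by
              rw [hx]
              conv_lhs => rw [hy12]
              rw [← hy12]
              intro h0
              apply hd0
              rw [← hy12]
              exact h0
            have hd' : 2 * (8 * y₁ + 4 * x₁) ≠ 0 := by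
              intro h0
              apply hd
              apply mul_left_cancel₀ h8
              linear_combination h0
            have e3 : 2 * ((3 * x₁ ^ 2 + 2 * E.toAffine.a₂ * x₁ + E.toAffine.a₄ - 1 * y₁) /
                (y₁ - (-y₁ - x₁))) + 1 =
                (2 * (3 * x₁ ^ 2 + 2 * E.toAffine.a₂ * x₁ + E.toAffine.a₄ - 1 * y₁) +
                  (y₁ - (-y₁ - x₁))) / (y₁ - (-y₁ - x₁)) := by
              rw [add_div, div_self hd, mul_div_assoc]
            rw [e3, div_eq_div_iff hd' hd]
            ring
          · have hx' : 4 * x₁ - r ≠ 4 * x₂ - r := by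
              intro h0
              apply hx
              apply mul_left_cancel₀ h4
              linear_combination h0
            rw [h.w.slope_of_X_ne _ _ hx', Affine.slope_of_X_ne hx]
            have hd : x₁ - x₂ ≠ 0 := sub_ne_zero.mpr hx
            have hd' : 4 * x₁ - r - (4 * x₂ - r) ≠ 0 := sub_ne_zero.mpr hx'
            field_simp
            ring
        simp only [Point.some.injEq]
        constructor
        · rw [h.w.addX, hslope, Affine.addX, h.e1, h.ha]
          ring
        · rw [h.w.addY, hslope, Affine.addY, Affine.negAddY, Affine.negY, Affine.addX, h.e1,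
            h.e3, h.ha]
          ring

/-- The additive map `(x, y) ↦ (4x - r, 8y + 4x)`. -/
def hom (h : Rel E W r) : E.toAffine.Point →+ W.toAffine.Point where
  toFun := toFun h
  map_zero' := rfl
  map_add' := toFun_add h

@[simp] lemma hom_apply (h : Rel E W r) (P : E.toAffine.Point) : hom h P = toFun h P := rfl

lemma hom_injective (h : Rel E W r) : Function.Injective (hom h) := toFun_injective h

end field

section baseChange

variable {K : Type*} [Field K] {L : Type*} [Field L] [Algebra K L]
  {E₀ W₀ : WeierstrassCurve K} {r₀ : K}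

/-- base change of the relation -/
lemma Rel.baseChange (h : Rel E₀ W₀ r₀) : Rel (E₀⁄L) (W₀⁄L) (algebraMap K L r₀) where
  e1 := by
    change algebraMap K L E₀.a₁ = 1
    rw [h.e1, map_one]
  e3 := by
    change algebraMap K L E₀.a₃ = 0
    rw [h.e3, _root_.map_zero]
  e6 := by
    change algebraMap K L E₀.a₆ = 0
    rw [h.e6, _root_.map_zero]
  w := isShort_baseChange h.w
  ha := by
    change algebraMap K L W₀.a₂ = 3 * algebraMap K L r₀ + 4 * algebraMap K L E₀.a₂ + 1
    rw [h.ha]
    simp only [map_add, map_mul, map_one, map_ofNat]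
  hb := by
    change algebraMap K L W₀.a₄ = 3 * algebraMap K L r₀ ^ 2 +
      2 * algebraMap K L r₀ * (4 * algebraMap K L E₀.a₂ + 1) + 16 * algebraMap K L E₀.a₄
    rw [h.hb]
    simp only [map_add, map_mul, map_one, map_ofNat, map_pow]
  hc := by
    change algebraMap K L r₀ ^ 3 + (4 * algebraMap K L E₀.a₂ + 1) * algebraMap K L r₀ ^ 2 +
      16 * algebraMap K L E₀.a₄ * algebraMap K L r₀ = 0
    have := congrArg (algebraMap K L) h.hc
    simpa only [map_add, map_mul, map_one, map_ofNat, map_pow, _root_.map_zero] using this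
  two := by
    have := h.two
    intro h0
    apply this
    apply (algebraMap K L).injective
    rw [map_ofNat, _root_.map_zero]
    exact h0

variable [DecidableEq L]

/-- The map is compatible with the Galois action. -/
lemma hom_smul (h : Rel E₀ W₀ r₀) (σ : L ≃ₐ[K] L) (P : (E₀⁄L).toAffine.Point) :
    hom (h.baseChange (L := L)) (σ • P) = σ • hom (h.baseChange (L := L)) P := by
  cases P with
  | zero =>
    change hom (h.baseChange (L := L)) (σ • (0 : (E₀⁄L).toAffine.Point)) =
      σ • hom (h.baseChange (L := L)) 0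
    rw [smul_zero, _root_.map_zero, smul_zero]
  | some x y hxy =>
    obtain ⟨h1, e1⟩ := smul_some E₀ σ hxy
    rw [e1, hom_apply, hom_apply, toFun_some, toFun_some]
    obtain ⟨h2, e2⟩ := smul_some W₀ σ ((h.baseChange (L := L)).nonsingular hxy)
    rw [e2]
    simp only [map_sub, map_add, map_mul, map_ofNat, AlgEquiv.commutes]

end baseChange

end ToShort

/-! ### The Frey curve -/

section Frey

lemma padicValInt_neg_pow {q : ℕ} (hq : q.Prime) (a : ℤ) (_ha : a ≠ 0) (n : ℕ) :
    padicValInt q (-(a ^ n)) = n * padicValInt q a := by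
  have := Fact.mk hq
  rw [padicValInt, padicValInt, Int.natAbs_neg, Int.natAbs_pow, padicValNat.pow]

lemma padicValInt_pow' {q : ℕ} (hq : q.Prime) (a : ℤ) (_ha : a ≠ 0) (n : ℕ) :
    padicValInt q (a ^ n) = n * padicValInt q a := by
  have := Fact.mk hq
  rw [padicValInt, padicValInt, Int.natAbs_pow, padicValNat.pow]

lemma not_dvd_of_isCoprime {q : ℕ} (hq : q.Prime) {a b : ℤ} (hab : gcd a b = 1)
    (ha : (q : ℤ) ∣ a) : ¬ (q : ℤ) ∣ b := by
  intro hb
  have h1 : (q : ℤ) ∣ gcd a b := dvd_gcd ha hb
  rw [hab] at h1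
  have h2 := Int.isUnit_iff.mp (isUnit_of_dvd_one h1)
  have hq1 := hq.one_lt
  rcases h2 with h2 | h2 <;> omega

variable (P : FreyPackage)

/-- The short model `Y² = X (X + α) (X + β)` of the Frey curve adapted to the prime `q`. -/
theorem exists_freyModel {L : Type*} [Field L] [DecidableEq L] [Algebra ℚ L] {q : ℕ}
    (hq : q.Prime) :
    ∃ (α β : ℤ) (m : ℕ), ¬ (q : ℤ) ∣ α ∧ ¬ (q : ℤ) ∣ (α - β) ∧ β ≠ 0 ∧
      padicValInt q β = P.p * m ∧
      ∃ φ : (P.freyCurve⁄L).Point →+ ((shortW ((α : ℚ) + β) ((α : ℚ) * β))⁄L).Point,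
        Function.Injective φ ∧ ∀ (σ : L ≃ₐ[ℚ] L) (x : (P.freyCurve⁄L).Point),
          φ (σ • x) = σ • φ x := by
  have hFLT : ((P.a : ℚ) ^ P.p + (P.b : ℚ) ^ P.p = (P.c : ℚ) ^ P.p) := by
    exact_mod_cast congrArg (fun z : ℤ => (z : ℚ)) P.hFLT
  have hp0 : P.p ≠ 0 := P.hp0
  have hpow : ∀ {z : ℤ}, ¬ (q : ℤ) ∣ z → ¬ (q : ℤ) ∣ z ^ P.p := fun hz hdvd =>
    hz ((Nat.prime_iff_prime_int.mp hq).dvd_of_dvd_pow hdvd)
  have h2Q : (2 : ℚ) ≠ 0 := two_ne_zero
  -- the three models
  by_cases hb : (q : ℤ) ∣ P.b
  · -- `q ∣ b`: `(α, β, r) = (-A, B, 0)`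
    have hqa : ¬ (q : ℤ) ∣ P.a := not_dvd_of_isCoprime hq (by rw [gcd_comm]; exact P.hgcdab) hb
    have hqc : ¬ (q : ℤ) ∣ P.c := not_dvd_of_isCoprime hq P.hgcdbc hb
    have hrel : ToShort.Rel P.freyCurve
        (shortW (((-(P.a ^ P.p) : ℤ) : ℚ) + ((P.b ^ P.p : ℤ) : ℚ))
          (((-(P.a ^ P.p) : ℤ) : ℚ) * ((P.b ^ P.p : ℤ) : ℚ))) 0 :=
      { e1 := rfl, e3 := rfl, e6 := rfl, w := isShort_shortW _ _
        ha := by
          simp only [shortW_a₂, FreyPackage.freyCurve]
          push_cast
          ring
        hb := by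
          simp only [shortW_a₄, FreyPackage.freyCurve]
          push_cast
          ring
        hc := by ring
        two := h2Q }
    refine ⟨-(P.a ^ P.p), P.b ^ P.p, padicValInt q P.b, ?_, ?_, pow_ne_zero _ P.hb0, ?_,
      ToShort.hom (hrel.baseChange (L := L)), ToShort.hom_injective _, ?_⟩
    · rw [dvd_neg]
      exact hpow hqa
    · have : -(P.a ^ P.p) - P.b ^ P.p = -(P.c ^ P.p) := by rw [← P.hFLT]; ring
      rw [this, dvd_neg]
      exact hpow hqc
    · rw [padicValInt_pow' hq _ P.hb0]
    · intro σ x
      have := ToShort.hom_smul hrel σ x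
      simpa using this
  · by_cases hc : (q : ℤ) ∣ P.c
    · -- `q ∣ c`: `(α, β, r) = (A, C, A)`
      have hqa : ¬ (q : ℤ) ∣ P.a :=
        not_dvd_of_isCoprime hq (by rw [gcd_comm]; exact P.hgcdac) hc
      have hrel : ToShort.Rel P.freyCurve
          (shortW (((P.a ^ P.p : ℤ) : ℚ) + ((P.c ^ P.p : ℤ) : ℚ))
            (((P.a ^ P.p : ℤ) : ℚ) * ((P.c ^ P.p : ℤ) : ℚ))) ((P.a : ℚ) ^ P.p) :=
        { e1 := rfl, e3 := rfl, e6 := rfl, w := isShort_shortW _ _
          ha := by
            simp only [shortW_a₂, FreyPackage.freyCurve]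
            push_cast
            rw [← hFLT]
            ring
          hb := by
            simp only [shortW_a₄, FreyPackage.freyCurve]
            push_cast
            rw [← hFLT]
            ring
          hc := by
            simp only [FreyPackage.freyCurve]
            ring
          two := h2Q }
      refine ⟨P.a ^ P.p, P.c ^ P.p, padicValInt q P.c, hpow hqa, ?_, pow_ne_zero _ P.hc0, ?_,
        ToShort.hom (hrel.baseChange (L := L)), ToShort.hom_injective _, ?_⟩
      · have : P.a ^ P.p - P.c ^ P.p = -(P.b ^ P.p) := by rw [← P.hFLT]; ring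
        rw [this, dvd_neg]
        exact hpow hb
      · rw [padicValInt_pow' hq _ P.hc0]
      · intro σ x
        exact ToShort.hom_smul hrel σ x
    · -- `q ∤ bc`: `(α, β, r) = (B, -A, 0)`
      have hrel : ToShort.Rel P.freyCurve
          (shortW (((P.b ^ P.p : ℤ) : ℚ) + ((-(P.a ^ P.p) : ℤ) : ℚ))
            (((P.b ^ P.p : ℤ) : ℚ) * ((-(P.a ^ P.p) : ℤ) : ℚ))) 0 :=
        { e1 := rfl, e3 := rfl, e6 := rfl, w := isShort_shortW _ _
          ha := by
            simp only [shortW_a₂, FreyPackage.freyCurve]
            push_cast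
            ring
          hb := by
            simp only [shortW_a₄, FreyPackage.freyCurve]
            push_cast
            ring
          hc := by ring
          two := h2Q }
      refine ⟨P.b ^ P.p, -(P.a ^ P.p), padicValInt q P.a, hpow hb, ?_,
        neg_ne_zero.mpr (pow_ne_zero _ P.ha0), ?_,
        ToShort.hom (hrel.baseChange (L := L)), ToShort.hom_injective _, ?_⟩
      · have : P.b ^ P.p - -(P.a ^ P.p) = P.c ^ P.p := by rw [← P.hFLT]; ring
        rw [this]
        exact hpow hc
      · rw [padicValInt_neg_pow hq _ P.ha0]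
      · intro σ x
        have := ToShort.hom_smul hrel σ x
        simpa using this

end Frey

end Fermat.Agent.Unram
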