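/-
S05 package DC (`Unram/DirectComp.lean`, helper3): NS + DC of the S05 blueprint.

* `DirectComp.sub_some_some`: two points of `y² = x³ + a₂x² + a₄x + a₆` with the same nonsingular reduction
  differ by a point of the kernel of reduction `E₁` (coordinate form, any valuation with `v 2 = 1`).
* `DirectComp.ns_of_val_eq_one` (NS): in a context `Ctx A W α β`, a point with `v x = 1` has nonsingular reduction
  (`v y = 1` or `v f'(x) = 1`); `DirectComp.ns_of_good` (NS'): if `v β = 1` the same holds for all `v x ≤ 1`.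
* `DirectComp.inE1_smul_sub` (DC): for `σ` with `v (σ z - z) < 1` on integral `z`, and `Q` an integral point with
  nonsingular reduction, `σ • Q - Q ∈ E₁`.  Corollaries `inE1_smul_sub_of_val_eq_one`, `inE1_smul_sub_of_good`.
-/
import Mathlib
import Fermat.Agent.Unram.Setup

set_option autoImplicit false
set_option linter.unusedSectionVars false

namespace Fermat.Agent.Unram
namespace DirectComp

open WeierstrassCurve WeierstrassCurve.Affine

variable {L : Type*} [Field L] [DecidableEq L]
  {Γ₀ : Type*} [LinearOrderedCommGroupWithZero Γ₀] (v : Valuation L Γ₀)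

/-- valuation of a sum dominated by a term of valuation `> 1`. -/
lemma one_lt_of_add {z w : L} (hz : 1 < v z) (hw : v w ≤ 1) : 1 < v (z + w) := by
  rw [Valuation.map_add_eq_of_lt_left v (lt_of_le_of_lt hw hz)]
  exact hz

lemma one_lt_addX {W : Affine L} (h1 : W.a₁ = 0) (ha2 : v W.a₂ ≤ 1) {x x' ℓ : L}
    (hx : v x ≤ 1) (hx' : v x' ≤ 1) (hℓ : 1 < v ℓ) : 1 < v (W.addX x' x ℓ) := by
  have h : W.addX x' x ℓ = ℓ ^ 2 + (-(W.a₂ + x' + x)) := by
    simp only [addX, h1]; ring
  rw [h]
  apply one_lt_of_add
  · rw [map_pow]; exact one_lt_pow₀ hℓ two_ne_zero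
  · rw [Valuation.map_neg]
    exact (v.map_add_le (v.map_add_le ha2 hx') hx)

/-- `1 < v (a / b)` when `v a = 1` and `0 < v b < 1` -/
lemma one_lt_div {a b : L} (ha : v a = 1) (hb0 : b ≠ 0) (hb : v b < 1) : 1 < v (a / b) := by
  rw [map_div₀, ha, one_div]
  have hb0' : v b ≠ 0 := (Valuation.ne_zero_iff v).mpr hb0
  exact (one_lt_inv₀ (zero_lt_iff.mpr hb0')).mpr hb

/-- **Same nonsingular reduction ⟹ the difference lies in the kernel of reduction**
(coordinate form).  `W : y² = x³ + a₂ x² + a₄ x + a₆` with `a₂` integral and `v 2 = 1`;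
`(x, y)`, `(x', y')` points with `x` integral, `x' ≡ x`, `y' ≡ y` and `(x, y)` reducing to a
nonsingular point (`y` a unit or `f'(x)` a unit). -/
theorem sub_some_some {W : Affine L} (h1 : W.a₁ = 0) (h3 : W.a₃ = 0) (ha2 : v W.a₂ ≤ 1)
    (h2 : v 2 = 1) {x y x' y' : L} (h : W.Nonsingular x y) (h' : W.Nonsingular x' y')
    (hx : v x ≤ 1) (hxx : v (x' - x) < 1) (hyy : v (y' - y) < 1)
    (hns : v y = 1 ∨ v (3 * x ^ 2 + 2 * W.a₂ * x + W.a₄) = 1) :
    Point.some x' y' h' - Point.some x y h = 0 ∨
      ∃ (x₃ y₃ : L) (h₃ : W.Nonsingular x₃ y₃),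
        Point.some x' y' h' - Point.some x y h = Point.some x₃ y₃ h₃ ∧ 1 < v x₃ := by
  have hx' : v x' ≤ 1 := by
    have : x' = x + (x' - x) := by ring
    rw [this]; exact v.map_add_le hx hxx.le
  have h20 : (2 : L) ≠ 0 := by
    intro h0
    rw [h0, map_zero] at h2
    exact zero_ne_one h2
  have hnegY : W.negY x y = -y := by simp [negY, h1, h3]
  have hE := (W.equation_iff x y).mp h.1
  have hE' := (W.equation_iff x' y').mp h'.1
  rw [h1, h3] at hE hE'
  simp only [zero_mul, add_zero] at hE hE'
  rw [sub_eq_add_neg, Point.neg_some]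
  by_cases hxe : x' = x
  · -- same `x`
    subst hxe
    by_cases hye : y' = y
    · left
      subst hye
      exact Point.add_of_Y_eq rfl (by rw [negY_negY])
    · right
      have hyy2 : (y' - y) * (y' + y) = 0 := by
        have : y' ^ 2 = y ^ 2 := by rw [hE, hE']
        linear_combination this
      have hy' : y' = -y := by
        rcases mul_eq_zero.mp hyy2 with hy | hy
        · exact absurd (sub_eq_zero.mp hy) hye
        · exact eq_neg_of_add_eq_zero_left hy
      have hy0 : y ≠ 0 := by
        rintro rfl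
        exact hye (by rw [hy', neg_zero])
      have hvy : v y < 1 := by
        have : y' - y = -(2 * y) := by rw [hy']; ring
        rw [this, Valuation.map_neg, map_mul, h2, one_mul] at hyy
        exact hyy
      have hf' : v (3 * x' ^ 2 + 2 * W.a₂ * x' + W.a₄) = 1 := by
        rcases hns with h | h
        · exact absurd h hvy.ne
        · exact h
      have hne : y' ≠ W.negY x' (W.negY x' y) := by rwa [negY_negY]
      rw [Point.add_of_Y_ne hne]
      refine ⟨_, _, _, rfl, ?_⟩
      apply one_lt_addX v h1 ha2 hx hx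
      rw [slope_of_Y_ne rfl hne, h1, zero_mul, sub_zero]
      have hden : y' - W.negY x' y' = -(2 * y) := by
        simp only [negY, h1, h3, hy']; ring
      rw [hden]
      apply one_lt_div v hf' (neg_ne_zero.mpr (mul_ne_zero h20 hy0))
      rw [Valuation.map_neg, map_mul, h2, one_mul]
      exact hvy
  · -- different `x`
    right
    rw [Point.add_of_X_ne hxe]
    refine ⟨_, _, _, rfl, ?_⟩
    apply one_lt_addX v h1 ha2 hx hx'
    rw [slope_of_X_ne hxe, hnegY, sub_neg_eq_add]
    have hxne : x' - x ≠ 0 := sub_ne_zero.mpr hxe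
    rcases hns with hy1 | hf1
    · -- `y` is a unit
      have hnum : v (y' + y) = 1 := by
        have : y' + y = 2 * y + (y' - y) := by ring
        rw [this, Valuation.map_add_eq_of_lt_left, map_mul, h2, hy1, one_mul]
        rw [map_mul, h2, hy1, one_mul]; exact hyy
      exact one_lt_div v hnum hxne hxx
    · -- `f'(x)` is a unit
      set g : L := x' ^ 2 + x' * x + x ^ 2 + W.a₂ * (x' + x) + W.a₄ with hg
      have hgf : g = (3 * x ^ 2 + 2 * W.a₂ * x + W.a₄) + (x' - x) * (x' + 2 * x + W.a₂) := by
        rw [hg]; ring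
      have hvg : v g = 1 := by
        rw [hgf, Valuation.map_add_eq_of_lt_left, hf1]
        rw [hf1, map_mul]
        have h3 : v (x' + 2 * x + W.a₂) ≤ 1 := by
          refine v.map_add_le (v.map_add_le hx' ?_) ha2
          rw [map_mul, h2, one_mul]; exact hx
        calc v (x' - x) * v (x' + 2 * x + W.a₂) ≤ v (x' - x) * 1 := by gcongr
          _ < 1 := by rw [mul_one]; exact hxx
      have hkey : (y' + y) * (y' - y) = (x' - x) * g := by
        rw [hg]; linear_combination hE' - hE
      have hyne : y' - y ≠ 0 := by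
        intro h0
        rw [h0, mul_zero] at hkey
        have : g = 0 := by
          rcases mul_eq_zero.mp hkey.symm with h | h
          · exact absurd h hxne
          · exact h
        rw [this, map_zero] at hvg
        exact zero_ne_one hvg
      have : (y' + y) / (x' - x) = g / (y' - y) := by
        field_simp
        linear_combination hkey
      rw [this]
      exact one_lt_div v hvg hyne hyy


/-! ### NS: nonsingular reduction of the points with unit `x`-coordinate -/

section NS

open Fermat.Agent.Unram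

variable {A : ValuationSubring L} {W : WeierstrassCurve L} {α β : L}

/-- In a linearly ordered group with zero, `z ^ 2 = 1 → z = 1`, for valuations. -/
lemma val_eq_one_of_sq {z : L} (hz : v z ^ 2 = 1) : v z = 1 := by
  rcases lt_trichotomy (v z) 1 with h | h | h
  · exfalso
    have : v z ^ 2 < 1 := pow_lt_one₀ zero_le h two_ne_zero
    exact this.ne hz
  · exact h
  · exfalso
    have : 1 < v z ^ 2 := one_lt_pow₀ h two_ne_zero
    exact this.ne' hz

lemma val_le_one_of_sq {z : L} (hz : v z ^ 2 ≤ 1) : v z ≤ 1 := by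
  by_contra hlt
  push Not at hlt
  have : 1 < v z ^ 2 := one_lt_pow₀ hlt two_ne_zero
  exact (not_lt.mpr hz) this

/-- the factorisation `y² = x (x + α) (x + β)` -/
lemma Ctx_eq_factored (h : Ctx A W α β) {x y : L} (hxy : W.toAffine.Equation x y) :
    y ^ 2 = x * (x + α) * (x + β) := by
  have := (h.short.equation_iff x y).mp hxy
  rw [this, h.ha, h.hb]; ring

/-- the derivative `f'(x) = 3x² + 2a₂x + a₄` in terms of the roots -/
lemma Ctx_deriv_eq (h : Ctx A W α β) (x : L) :
    3 * x ^ 2 + 2 * W.a₂ * x + W.a₄ = (x + α) * (x + β) + x * (x + β) + x * (x + α) := by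
  rw [h.ha, h.hb]; ring

/-- integrality of `y` for an integral `x`. -/
lemma Ctx_val_y_le (h : Ctx A W α β) {x y : L} (hxy : W.toAffine.Equation x y)
    (hx : A.valuation x ≤ 1) : A.valuation y ≤ 1 := by
  apply val_le_one_of_sq A.valuation
  rw [← map_pow, Ctx_eq_factored h hxy, map_mul, map_mul]
  have h1 : A.valuation (x + α) ≤ 1 := A.valuation.map_add_le hx h.hα.le
  have h2 : A.valuation (x + β) ≤ 1 := A.valuation.map_add_le hx h.hβ
  calc A.valuation x * A.valuation (x + α) * A.valuation (x + β) ≤ 1 * 1 * 1 := by gcongr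
    _ = 1 := by simp

/-- **NS**: a point with `v x = 1` reduces to a nonsingular point. -/
theorem ns_of_val_eq_one (h : Ctx A W α β) {x y : L} (hxy : W.toAffine.Equation x y)
    (hx : A.valuation x = 1) :
    A.valuation y = 1 ∨ A.valuation (3 * x ^ 2 + 2 * W.a₂ * x + W.a₄) = 1 := by
  have hfac := Ctx_eq_factored h hxy
  have h1 : A.valuation (x + α) ≤ 1 := A.valuation.map_add_le hx.le h.hα.le
  have h2 : A.valuation (x + β) ≤ 1 := A.valuation.map_add_le hx.le h.hβ
  have hβα : A.valuation (β - α) = 1 := by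
    rw [← neg_sub, Valuation.map_neg]; exact h.hαβ
  have h2x : A.valuation (2 * x) = 1 := by rw [map_mul, h.two, hx, one_mul]
  rcases h1.lt_or_eq with hα1 | hα1
  · -- `x ≡ -α`
    right
    have hxβ : A.valuation (x + β) = 1 := by
      have : x + β = (β - α) + (x + α) := by ring
      rw [this, Valuation.map_add_eq_of_lt_left, hβα]
      rw [hβα]; exact hα1
    rw [Ctx_deriv_eq h]
    have e : (x + α) * (x + β) + x * (x + β) + x * (x + α)
        = x * (x + β) + (x + α) * ((x + β) + x) := by ring
    rw [e, Valuation.map_add_eq_of_lt_left, map_mul, hx, hxβ, one_mul]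
    rw [map_mul, map_mul, hx, hxβ, one_mul]
    have : A.valuation ((x + β) + x) ≤ 1 := A.valuation.map_add_le h2 hx.le
    calc A.valuation (x + α) * A.valuation ((x + β) + x) ≤ A.valuation (x + α) * 1 := by gcongr
      _ < 1 := by rw [mul_one]; exact hα1
  · rcases h2.lt_or_eq with hβ1 | hβ1
    · -- `x ≡ -β`
      right
      have hxα : A.valuation (x + α) = 1 := hα1
      rw [Ctx_deriv_eq h]
      have e : (x + α) * (x + β) + x * (x + β) + x * (x + α)
          = x * (x + α) + (x + β) * ((x + α) + x) := by ring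
      rw [e, Valuation.map_add_eq_of_lt_left, map_mul, hx, hxα, one_mul]
      rw [map_mul, map_mul, hx, hxα, one_mul]
      have : A.valuation ((x + α) + x) ≤ 1 := A.valuation.map_add_le h1 hx.le
      calc A.valuation (x + β) * A.valuation ((x + α) + x) ≤ A.valuation (x + β) * 1 := by gcongr
        _ < 1 := by rw [mul_one]; exact hβ1
    · left
      apply val_eq_one_of_sq A.valuation
      rw [← map_pow, hfac, map_mul, map_mul, hx, hα1, hβ1]
      simp

/-- **NS'** (good reduction): if `v β = 1` every integral point reduces to a nonsingular point. -/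
theorem ns_of_good (h : Ctx A W α β) (hβ : A.valuation β = 1) {x y : L}
    (hxy : W.toAffine.Equation x y) (hx : A.valuation x ≤ 1) :
    A.valuation y = 1 ∨ A.valuation (3 * x ^ 2 + 2 * W.a₂ * x + W.a₄) = 1 := by
  rcases hx.lt_or_eq with hx1 | hx1
  · right
    have hb : A.valuation W.a₄ = 1 := by rw [h.val_b, hβ]
    have h3 : A.valuation (3 : L) ≤ 1 := by
      have : (3 : L) = 2 + 1 := by norm_num
      rw [this]
      exact A.valuation.map_add_le h.two.le (by rw [map_one])
    have e : 3 * x ^ 2 + 2 * W.a₂ * x + W.a₄ = W.a₄ + x * (3 * x + 2 * W.a₂) := by ring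
    rw [e, Valuation.map_add_eq_of_lt_left, hb]
    rw [hb, map_mul]
    have : A.valuation (3 * x + 2 * W.a₂) ≤ 1 := by
      refine A.valuation.map_add_le ?_ ?_
      · rw [map_mul]
        calc A.valuation 3 * A.valuation x ≤ 1 * 1 := by gcongr
          _ = 1 := one_mul 1
      · rw [map_mul, h.two, one_mul]; exact h.val_a_le
    calc A.valuation x * A.valuation (3 * x + 2 * W.a₂) ≤ A.valuation x * 1 := by gcongr
      _ < 1 := by rw [mul_one]; exact hx1
  · exact ns_of_val_eq_one h hxy hx1

end NS

/-! ### DC: `σ • Q - Q ∈ E₁` for inertia-like `σ` -/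

section DC

open Fermat.Agent.Unram

variable {K : Type*} [Field K] [Algebra K L] (W' : WeierstrassCurve K)
  {A : ValuationSubring L} {α β : L}

/-- **DC**: `Q` an integral affine point with nonsingular reduction, `σ` acting trivially on the residue field:
`σ • Q - Q` lies in the kernel of reduction. -/
theorem inE1_smul_sub (h : Ctx A (W'⁄L) α β) (σ : L ≃ₐ[K] L)
    (hσ : ∀ z : L, A.valuation z ≤ 1 → A.valuation (σ z - z) < 1)
    (Q : (W'⁄L).toAffine.Point) (hx : A.valuation (xc Q) ≤ 1)
    (hns : A.valuation (yc Q) = 1 ∨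
      A.valuation (3 * xc Q ^ 2 + 2 * (W'⁄L).a₂ * xc Q + (W'⁄L).a₄) = 1) :
    InE1 A (σ • Q - Q) := by
  cases Q with
  | zero =>
    left
    change σ • (0 : (W'⁄L).toAffine.Point) - 0 = 0
    rw [smul_zero, sub_zero]
  | some x y hQ =>
    simp only [xc_some, yc_some] at hx hns
    obtain ⟨hQ', hsm⟩ := smul_some W' σ hQ
    rw [hsm]
    have hy : A.valuation y ≤ 1 := Ctx_val_y_le h hQ.1 hx
    rcases sub_some_some A.valuation h.short.a₁ h.short.a₃ h.val_a_le h.two hQ hQ' hx
      (hσ x hx) (hσ y hy) hns with h0 | ⟨x₃, y₃, h₃, he, hv⟩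
    · left; exact h0
    · right
      rw [he, xc_some]
      exact hv

/-- DC for the points with unit `x`-coordinate. -/
theorem inE1_smul_sub_of_val_eq_one (h : Ctx A (W'⁄L) α β) (σ : L ≃ₐ[K] L)
    (hσ : ∀ z : L, A.valuation z ≤ 1 → A.valuation (σ z - z) < 1)
    (Q : (W'⁄L).toAffine.Point) (hx : A.valuation (xc Q) = 1) :
    InE1 A (σ • Q - Q) := by
  refine inE1_smul_sub W' h σ hσ Q hx.le ?_
  cases Q with
  | zero =>
    exfalso
    change A.valuation (xc (0 : (W'⁄L).toAffine.Point)) = 1 at hx
    rw [xc_zero, map_zero] at hx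
    exact zero_ne_one hx
  | some x y hQ =>
    simp only [xc_some, yc_some] at hx ⊢
    exact ns_of_val_eq_one h hQ.1 hx

/-- DC in the good reduction case `v β = 1`: all points with integral `x`-coordinate. -/
theorem inE1_smul_sub_of_good (h : Ctx A (W'⁄L) α β) (hβ : A.valuation β = 1) (σ : L ≃ₐ[K] L)
    (hσ : ∀ z : L, A.valuation z ≤ 1 → A.valuation (σ z - z) < 1)
    (Q : (W'⁄L).toAffine.Point) (hx : A.valuation (xc Q) ≤ 1) :
    InE1 A (σ • Q - Q) := by
  cases Q with
  | zero =>
    left
    change σ • (0 : (W'⁄L).toAffine.Point) - 0 = 0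
    rw [smul_zero, sub_zero]
  | some x y hQ =>
    refine inE1_smul_sub W' h σ hσ _ hx ?_
    simp only [xc_some, yc_some] at hx ⊢
    exact ns_of_good h hβ hQ.1 hx

end DC

end DirectComp
end Fermat.Agent.Unram
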