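/-
S05 blueprint, package (P0): the auxiliary point `P₀ = (X₀, X₀ θ₀)` with `X₀` in the base field.

Field-level part (generic valuation `v` on a field `L`).
-/
import Mathlib
import Fermat.Agent.Unram.Setup

set_option autoImplicit false

namespace Fermat.Agent.Unram.PZero

open WeierstrassCurve

section Val

variable {L : Type*} [Field L] {Γ₀ : Type*} [LinearOrderedCommGroupWithZero Γ₀]
  (v : Valuation L Γ₀)

/-- unit plus small is a unit -/
theorem val_add_small {u e : L} (hu : v u = 1) (he : v e < 1) : v (u + e) = 1 := by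
  rw [← hu]
  exact Valuation.map_add_eq_of_lt_left v (by rw [hu]; exact he)

theorem val_small_add {e₁ e₂ : L} (h₁ : v e₁ < 1) (h₂ : v e₂ < 1) : v (e₁ + e₂) < 1 :=
  lt_of_le_of_lt (v.map_add _ _) (max_lt h₁ h₂)

theorem val_small_sub {e₁ e₂ : L} (h₁ : v e₁ < 1) (h₂ : v e₂ < 1) : v (e₁ - e₂) < 1 :=
  lt_of_le_of_lt (v.map_sub _ _) (max_lt h₁ h₂)

theorem val_int_mul_small {a e : L} (ha : v a ≤ 1) (he : v e < 1) : v (a * e) < 1 := by
  rw [map_mul]
  calc v a * v e ≤ 1 * v e := mul_le_mul_left ha _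
    _ = v e := one_mul _
    _ < 1 := he

theorem val_small_mul_int {a e : L} (he : v e < 1) (ha : v a ≤ 1) : v (e * a) < 1 := by
  rw [mul_comm]; exact val_int_mul_small v ha he

theorem val_eq_one_of_sq {θ : L} (h : v (θ ^ 2) = 1) : v θ = 1 := by
  rw [map_pow] at h
  rcases pow_eq_one_iff.mp h with h | h
  · exact h
  · omega

theorem val_lt_one_or_of_mul {a b : L} (h : v (a * b) < 1) : v a < 1 ∨ v b < 1 := by
  rw [map_mul] at h
  by_contra hcon
  push Not at hcon
  exact absurd h (not_lt.mpr (one_le_mul_of_one_le_of_one_le hcon.1 hcon.2))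

variable {α β x X₀ : L}

theorem ne_zero_of_val_lt (hβx : v β < v x) : x ≠ 0 := by
  intro h
  rw [h, map_zero] at hβx
  exact not_lt_zero hβx

/-- `u₀ - α` is small, where `u₀ = (X₀ + α)(1 + β / X₀)`. -/
theorem val_u_sub_small (hα : v α = 1) (hx1 : v x < 1) (hβx : v β < v x) :
    v ((x + α) * (1 + β / x) - α) < 1 := by
  have hx0 : x ≠ 0 := ne_zero_of_val_lt v hβx
  have hvx0 : v x ≠ 0 := (Valuation.ne_zero_iff v).mpr hx0
  have e : (x + α) * (1 + β / x) - α = (x + β) + α * (β / x) := by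
    field_simp
    ring
  rw [e]
  have hβ1 : v β < 1 := hβx.trans hx1
  have h3 : v (β / x) < 1 := by
    rw [map_div₀]
    exact (div_lt_one₀ (zero_lt_iff.mpr hvx0)).mpr hβx
  exact val_small_add v (val_small_add v hx1 hβ1) (val_int_mul_small v hα.le h3)

theorem val_u_eq_one (hα : v α = 1) (hx1 : v x < 1) (hβx : v β < v x) :
    v ((x + α) * (1 + β / x)) = 1 := by
  have := val_add_small v hα (val_u_sub_small v hα hx1 hβx)
  rwa [add_sub_cancel] at this

theorem val_sq_close {θ θ₀ : L} (hα : v α = 1) (hx1 : v x < 1) (hβx : v β < v x)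
    (hX₀ : v X₀ = v x)
    (hθ : θ ^ 2 = (x + α) * (1 + β / x)) (hθ₀ : θ₀ ^ 2 = (X₀ + α) * (1 + β / X₀)) :
    v (θ - θ₀) < 1 ∨ v (θ + θ₀) < 1 := by
  apply val_lt_one_or_of_mul
  have e : (θ - θ₀) * (θ + θ₀) =
      ((x + α) * (1 + β / x) - α) - ((X₀ + α) * (1 + β / X₀) - α) := by
    rw [← hθ, ← hθ₀]; ring
  rw [e]
  exact val_small_sub v (val_u_sub_small v hα hx1 hβx)
    (val_u_sub_small v hα (hX₀ ▸ hx1) (hX₀ ▸ hβx))

/-- The key estimate of (P0): the `x`-coordinate of `P - P₀` is not small. -/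
theorem one_le_val_addX {θ θ₀ : L} (h2 : v 2 = 1) (hα : v α = 1) (hx1 : v x < 1)
    (hβx : v β < v x) (hX₀ : v X₀ = v x)
    (hθ : θ ^ 2 = (x + α) * (1 + β / x)) (hθ₀ : θ₀ ^ 2 = (X₀ + α) * (1 + β / X₀))
    (hclose : v (θ - θ₀) < 1) (hne : x ≠ X₀) :
    1 ≤ v (((x * θ + X₀ * θ₀) / (x - X₀)) ^ 2 - (α + β) - x - X₀) := by
  have hx0 : x ≠ 0 := ne_zero_of_val_lt v hβx
  have hX₀1 : v X₀ < 1 := hX₀ ▸ hx1
  have hβX₀ : v β < v X₀ := hX₀ ▸ hβx
  have hX0 : X₀ ≠ 0 := ne_zero_of_val_lt v hβX₀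
  have hβ1 : v β < 1 := hβx.trans hx1
  have hθ₀1 : v θ₀ = 1 := val_eq_one_of_sq v (by rw [hθ₀]; exact val_u_eq_one v hα hX₀1 hβX₀)
  have hθ1 : v θ = 1 := val_eq_one_of_sq v (by rw [hθ]; exact val_u_eq_one v hα hx1 hβx)
  have hδ : v (θ₀ ^ 2 - α) < 1 := by rw [hθ₀]; exact val_u_sub_small v hα hX₀1 hβX₀
  set w : L := x / X₀ with hw
  have hvw : v w = 1 := by
    rw [hw, map_div₀, hX₀]
    exact div_self ((Valuation.ne_zero_iff v).mpr hx0)
  have hw1 : w - 1 ≠ 0 := by
    intro h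
    apply hne
    have : w = 1 := sub_eq_zero.mp h
    rw [hw, div_eq_one_iff_eq hX0] at this
    exact this
  have hxX : x - X₀ ≠ 0 := sub_ne_zero.mpr hne
  have hlam : (x * θ + X₀ * θ₀) / (x - X₀) = (w * θ + θ₀) / (w - 1) := by
    rw [hw, div_eq_div_iff hxX]
    · field_simp
    · rw [hw] at hw1; exact hw1
  rw [hlam]
  have hw1le : v (w - 1) ≤ 1 := by
    refine le_trans (v.map_sub _ _) (max_le hvw.le ?_)
    rw [map_one]
  have hrest : v (β + x + X₀) < 1 := val_small_add v (val_small_add v hβ1 hx1) hX₀1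
  rcases lt_or_eq_of_le hw1le with hlt | heq
  · -- `w ≡ 1`: the slope is large
    have hnum : v (w * θ + θ₀) = 1 := by
      have e : w * θ + θ₀ = 2 * θ₀ + ((w - 1) * θ + (θ - θ₀)) := by ring
      rw [e]
      refine val_add_small v (by rw [map_mul, h2, hθ₀1, one_mul]) ?_
      exact val_small_add v (val_small_mul_int v hlt hθ1.le) hclose
    have hvw1 : v (w - 1) ≠ 0 := (Valuation.ne_zero_iff v).mpr hw1
    have hlam1 : 1 < v ((w * θ + θ₀) / (w - 1)) := by
      rw [map_div₀, hnum]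
      exact (one_lt_div₀ (zero_lt_iff.mpr hvw1)).mpr hlt
    have hlam2 : 1 < v (((w * θ + θ₀) / (w - 1)) ^ 2) := by
      rw [map_pow]
      exact one_lt_pow₀ hlam1 two_ne_zero
    have hr : v (-(α + (β + x + X₀))) ≤ 1 := by
      rw [Valuation.map_neg]
      exact le_trans (v.map_add _ _) (max_le hα.le hrest.le)
    have e : ((w * θ + θ₀) / (w - 1)) ^ 2 - (α + β) - x - X₀ =
        ((w * θ + θ₀) / (w - 1)) ^ 2 + -(α + (β + x + X₀)) := by ring
    rw [e, Valuation.map_add_eq_of_lt_left v (lt_of_le_of_lt hr hlam2)]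
    exact hlam2.le
  · -- `w ≢ 1`: the `x`-coordinate is a unit
    have hkey : (w - 1) ^ 2 * (((w * θ + θ₀) / (w - 1)) ^ 2 - α) =
        4 * α * w + ((w + 1) ^ 2 * (θ₀ ^ 2 - α) + 2 * (w + 1) * w * θ₀ * (θ - θ₀)
          + w ^ 2 * (θ - θ₀) ^ 2) := by
      field_simp
      ring
    have hw1' : v (w + 1) ≤ 1 := by
      refine le_trans (v.map_add _ _) (max_le hvw.le ?_)
      rw [map_one]
    have h4 : v (4 * α * w) = 1 := by
      have : (4 : L) = 2 * 2 := by norm_num
      rw [this, map_mul, map_mul, map_mul, h2, hα, hvw]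
      simp
    have hsmall : v ((w + 1) ^ 2 * (θ₀ ^ 2 - α) + 2 * (w + 1) * w * θ₀ * (θ - θ₀)
          + w ^ 2 * (θ - θ₀) ^ 2) < 1 := by
      refine val_small_add v (val_small_add v ?_ ?_) ?_
      · refine val_int_mul_small v ?_ hδ
        rw [map_pow]; exact pow_le_one₀ zero_le hw1'
      · refine val_int_mul_small v ?_ hclose
        rw [map_mul, map_mul, map_mul, h2, hvw, hθ₀1]
        simpa using hw1'
      · refine val_int_mul_small v ?_ ?_
        · rw [map_pow, hvw]; simp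
        · rw [pow_two]; exact val_int_mul_small v hclose.le hclose
    have hprod : v ((w - 1) ^ 2 * (((w * θ + θ₀) / (w - 1)) ^ 2 - α)) = 1 := by
      rw [hkey]; exact val_add_small v h4 hsmall
    have hunit : v (((w * θ + θ₀) / (w - 1)) ^ 2 - α) = 1 := by
      rw [map_mul, map_pow, heq] at hprod
      simpa using hprod
    have e : ((w * θ + θ₀) / (w - 1)) ^ 2 - (α + β) - x - X₀ =
        (((w * θ + θ₀) / (w - 1)) ^ 2 - α) + -(β + x + X₀) := by ring
    rw [e, val_add_small v hunit (by rw [Valuation.map_neg]; exact hrest)]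

end Val

end Fermat.Agent.Unram.PZero

namespace Fermat.Agent.Unram

open WeierstrassCurve WeierstrassCurve.Affine WeierstrassCurve.Affine.Point

section point

variable {L : Type*} [Field L] [DecidableEq L] {A : ValuationSubring L}
  {W : WeierstrassCurve L} {α β : L}

/-- (P0), field-free of Galois theory: for an affine point `P = (x, y)` in the annulus
`v b < v x < 1` and any `X₀` with `v X₀ = v x` there is a point `P₀ = (X₀, X₀ θ₀)` with
`θ₀ ^ 2 = (X₀ + α)(1 + β / X₀)`, `v θ₀ = 1`, such that `P = P₀` or `x (P - P₀)` is not small. -/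
theorem exists_pZero_aux (h : Ctx A W α β) (hsq : ∀ u : L, ∃ θ : L, θ ^ 2 = u)
    {P : W.toAffine.Point} (hx1 : A.valuation (xc P) < 1)
    (hxb : A.valuation W.a₄ < A.valuation (xc P))
    {X₀ : L} (hX₀ : A.valuation X₀ = A.valuation (xc P)) :
    ∃ P₀ : W.toAffine.Point, P₀ ≠ 0 ∧ xc P₀ = X₀ ∧
      (yc P₀ / X₀) ^ 2 = (X₀ + α) * (1 + β / X₀) ∧ A.valuation (yc P₀ / X₀) = 1 ∧
      (P = P₀ ∨ 1 ≤ A.valuation (xc (P - P₀))) := by
  have hW := h.short
  rw [h.val_b] at hxb
  cases P with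
  | zero =>
    exfalso
    change A.valuation β < A.valuation (xc (0 : W.toAffine.Point)) at hxb
    rw [xc_zero, _root_.map_zero] at hxb
    exact not_lt_zero hxb
  | some x y hxy =>
    rw [xc_some] at hx1 hxb hX₀
    have hx0 : x ≠ 0 := PZero.ne_zero_of_val_lt _ hxb
    have hX₀1 : A.valuation X₀ < 1 := hX₀ ▸ hx1
    have hβX₀ : A.valuation β < A.valuation X₀ := hX₀ ▸ hxb
    have hX0 : X₀ ≠ 0 := PZero.ne_zero_of_val_lt _ hβX₀
    -- `θ = y / x`
    have hθ : (y / x) ^ 2 = (x + α) * (1 + β / x) := by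
      have := (hW.equation_iff x y).mp hxy.1
      rw [h.ha, h.hb] at this
      rw [div_pow, this]
      field_simp
      ring
    obtain ⟨θ₁, hθ₁⟩ := hsq ((X₀ + α) * (1 + β / X₀))
    -- choose the sign
    obtain ⟨θ₀, hθ₀, hclose⟩ : ∃ θ₀ : L, θ₀ ^ 2 = (X₀ + α) * (1 + β / X₀) ∧
        A.valuation (y / x - θ₀) < 1 := by
      rcases PZero.val_sq_close _ h.hα hx1 hxb hX₀ hθ hθ₁ with hc | hc
      · exact ⟨θ₁, hθ₁, hc⟩
      · exact ⟨-θ₁, by rw [neg_sq, hθ₁], by rwa [sub_neg_eq_add]⟩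
    have hθ₀1 : A.valuation θ₀ = 1 :=
      PZero.val_eq_one_of_sq _ (by rw [hθ₀]; exact PZero.val_u_eq_one _ h.hα hX₀1 hβX₀)
    -- the point `P₀`
    have heq₀ : W.toAffine.Equation X₀ (X₀ * θ₀) := by
      rw [hW.equation_iff, h.ha, h.hb, mul_pow, hθ₀]
      field_simp
      ring
    have hns₀ := h.nonsingular_of_equation heq₀
    refine ⟨Point.some X₀ (X₀ * θ₀) hns₀, Point.some_ne_zero _, xc_some _, ?_, ?_, ?_⟩
    · rw [yc_some, mul_div_cancel_left₀ _ hX0, hθ₀]
    · rw [yc_some, mul_div_cancel_left₀ _ hX0, hθ₀1]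
    · by_cases hne : x = X₀
      · left
        subst hne
        have hyy : y ^ 2 = (x * θ₀) ^ 2 := by
          rw [(hW.equation_iff x y).mp hxy.1, (hW.equation_iff x (x * θ₀)).mp heq₀]
        have hy : y = x * θ₀ := by
          rcases sq_eq_sq_iff_eq_or_eq_neg.mp hyy with hy | hy
          · exact hy
          · exfalso
            rw [hy, neg_div, mul_div_cancel_left₀ _ hx0] at hclose
            have e : -θ₀ - θ₀ = -(2 * θ₀) := by ring
            rw [e, Valuation.map_neg, map_mul, h.two, hθ₀1, one_mul] at hclose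
            exact lt_irrefl _ hclose
        subst hy
        rfl
      · right
        obtain ⟨hneg, hnegeq⟩ := hW.neg_some hns₀
        rw [sub_eq_add_neg, hnegeq, Point.add_of_X_ne hne, xc_some, hW.addX,
          hW.slope_of_X_ne _ _ hne, h.ha]
        have := PZero.one_le_val_addX A.valuation h.two h.hα hx1 hxb hX₀ hθ hθ₀ hclose hne
        rw [mul_div_cancel₀ _ hx0] at this
        rwa [sub_neg_eq_add]

end point

section galois

variable {K : Type*} [Field K] {L : Type*} [Field L] [DecidableEq L] [Algebra K L]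
  (W' : WeierstrassCurve K) {A : ValuationSubring L}

omit [DecidableEq L] in
/-- A square root `θ` of a `σ`-fixed element, `θ` a unit, is fixed by `σ` if `σ` acts trivially on
the residue field (residue characteristic `≠ 2`). -/
theorem PZero.sqrt_fixed (σ : L ≃ₐ[K] L)
    (hσ : ∀ z : L, A.valuation z ≤ 1 → A.valuation (σ z - z) < 1)
    (h2 : A.valuation (2 : L) = 1) {θ : L} (hθ : A.valuation θ = 1)
    (hfix : σ (θ ^ 2) = θ ^ 2) : σ θ = θ := by
  rw [map_pow] at hfix
  rcases sq_eq_sq_iff_eq_or_eq_neg.mp hfix with h | h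
  · exact h
  · exfalso
    have := hσ θ hθ.le
    rw [h] at this
    have e : -θ - θ = -(2 * θ) := by ring
    rw [e, Valuation.map_neg, map_mul, h2, hθ, one_mul] at this
    exact lt_irrefl _ this

/-- (P0): for an affine point `P` of `W'⁄L` in the annulus `v b < v x < 1` and any `X₀ : K` with
`v X₀ = v (x P)` there is a point `P₀` of `W'⁄L`, fixed by every `σ : L ≃ₐ[K] L` acting trivially
on the residue field, such that `P = P₀` or `x (P - P₀)` is not small. -/
theorem exists_pZero {α β : K}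
    (h : Ctx A (W'⁄L) (algebraMap K L α) (algebraMap K L β))
    (hsq : ∀ u : L, ∃ θ : L, θ ^ 2 = u)
    {P : (W'⁄L).toAffine.Point} (hx1 : A.valuation (xc P) < 1)
    (hxb : A.valuation (W'⁄L).a₄ < A.valuation (xc P))
    (X₀ : K) (hX₀ : A.valuation (algebraMap K L X₀) = A.valuation (xc P)) :
    ∃ P₀ : (W'⁄L).toAffine.Point,
      (∀ σ : L ≃ₐ[K] L, (∀ z : L, A.valuation z ≤ 1 → A.valuation (σ z - z) < 1) →
        σ • P₀ = P₀) ∧
      (P = P₀ ∨ 1 ≤ A.valuation (xc (P - P₀))) := by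
  obtain ⟨P₀, hP₀0, hxP₀, hsqP₀, hvP₀, hmain⟩ := exists_pZero_aux h hsq hx1 hxb hX₀
  refine ⟨P₀, fun σ hσ => ?_, hmain⟩
  have hX0 : algebraMap K L X₀ ≠ 0 := by
    intro h0
    rw [h0, _root_.map_zero] at hX₀
    rw [← hX₀] at hxb
    exact not_lt_zero hxb
  have hfix : σ ((yc P₀ / algebraMap K L X₀) ^ 2) = (yc P₀ / algebraMap K L X₀) ^ 2 := by
    rw [hsqP₀]
    simp only [map_mul, map_add, map_div₀, map_one, AlgEquiv.commutes]
  have hθ := PZero.sqrt_fixed σ hσ h.two hvP₀ hfix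
  refine point_ext ((smul_eq_zero_iff W' σ P₀).not.mpr hP₀0) hP₀0 ?_ ?_
  · rw [xc_smul, hxP₀, AlgEquiv.commutes]
  · rw [yc_smul]
    have e : yc P₀ = algebraMap K L X₀ * (yc P₀ / algebraMap K L X₀) := by
      rw [mul_div_cancel₀]
      · exact hX0
    rw [e, map_mul, hθ, AlgEquiv.commutes, ← e]

/-- (P0) for an algebraically closed `L`. -/
theorem exists_pZero_of_isAlgClosed [IsAlgClosed L] {α β : K}
    (h : Ctx A (W'⁄L) (algebraMap K L α) (algebraMap K L β))
    {P : (W'⁄L).toAffine.Point} (hx1 : A.valuation (xc P) < 1)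
    (hxb : A.valuation (W'⁄L).a₄ < A.valuation (xc P))
    (X₀ : K) (hX₀ : A.valuation (algebraMap K L X₀) = A.valuation (xc P)) :
    ∃ P₀ : (W'⁄L).toAffine.Point,
      (∀ σ : L ≃ₐ[K] L, (∀ z : L, A.valuation z ≤ 1 → A.valuation (σ z - z) < 1) →
        σ • P₀ = P₀) ∧
      (P = P₀ ∨ 1 ≤ A.valuation (xc (P - P₀))) :=
  exists_pZero W' h (fun u => IsAlgClosed.exists_pow_nat_eq u two_pos) hx1 hxb X₀ hX₀

end galois

end Fermat.Agent.Unram
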