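import Mathlib

/-!
# S05, package W2: the "walk" induction in an ordered group

Abstract form of step (W2) of the blueprint.  In a linearly ordered commutative group with zero
`Γ₀`, let `β < 1` and let `c 1, …, c (p - 1)` (`p` an odd prime) be values in the annulus
`β < c k < 1` such that `c (p - k) = c k`, `c 2 ∈ {c 1 ^ 2, β ^ 2 / c 1 ^ 2}` and for
`2 ≤ k ≤ p - 2` the unordered pair `{c (k + 1), c (k - 1)}` is
`{(c k / c 1)^{±1}, c k * c 1 or β ^ 2 / (c k * c 1)}`.  Then `c 1 ^ p ∈ β ^ (2 ℤ)`.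

The proof works in the quotient of the value group by `⟨β ^ 2⟩`, where the invariant is
`c k ~ c 1 ^ k` for the equivalence relation `x ~ y ↔ x = y ∨ x = y⁻¹`.
-/

set_option autoImplicit false

namespace Fermat.Agent.Unram.WalkInd

section Core

variable {Q : Type*} [CommGroup Q]

/-- Equality up to inversion. -/
def Sim (x y : Q) : Prop := x = y ∨ x = y⁻¹

theorem Sim.refl (x : Q) : Sim x x := Or.inl rfl

theorem Sim.symm {x y : Q} (h : Sim x y) : Sim y x := by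
  rcases h with h | h
  · exact Or.inl h.symm
  · exact Or.inr (by rw [h, inv_inv])

theorem Sim.trans {x y z : Q} (h : Sim x y) (h' : Sim y z) : Sim x z := by
  rcases h with rfl | rfl
  · exact h'
  · rcases h' with rfl | rfl
    · exact Or.inr rfl
    · exact Or.inl (inv_inv _)

theorem Sim.inv_left {x y : Q} (h : Sim x y) : Sim x⁻¹ y := by
  rcases h with rfl | rfl
  · exact Or.inr rfl
  · exact Or.inl (inv_inv _)

theorem Sim.inv_right {x y : Q} (h : Sim x y) : Sim x y⁻¹ := h.symm.inv_left.symm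

theorem sim_of_eq_or {x y z : Q} (hz : z = y⁻¹) (h : x = y ∨ x = z) : Sim x y := by
  rcases h with h | h
  · exact Or.inl h
  · exact Or.inr (h.trans hz)

/-- The core induction: `u k ~ a ^ k`. -/
theorem sim_pow (a : Q) (u : ℕ → Q) (n : ℕ) (h1 : u 1 = a)
    (h2 : u 2 = a ^ 2 ∨ u 2 = (a ^ 2)⁻¹)
    (hstep : ∀ k, 2 ≤ k → k + 1 ≤ n → ∃ X Y : Q, (X = u k / a ∨ X = a / u k) ∧
      (Y = u k * a ∨ Y = (u k * a)⁻¹) ∧
      ((u (k + 1) = X ∧ u (k - 1) = Y) ∨ (u (k + 1) = Y ∧ u (k - 1) = X))) :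
    ∀ k, 1 ≤ k → k ≤ n → Sim (u k) (a ^ k) := by
  have key : ∀ k, 1 ≤ k → k + 1 ≤ n → Sim (u k) (a ^ k) ∧ Sim (u (k + 1)) (a ^ (k + 1)) := by
    intro k hk
    induction k, hk using Nat.le_induction with
    | base =>
      intro _
      exact ⟨Or.inl (by rw [h1, pow_one]), h2⟩
    | succ k hk ih =>
      intro hkn
      obtain ⟨ihk, ihk1⟩ := ih (by omega)
      refine ⟨ihk1, ?_⟩
      obtain ⟨X, Y, hX, hY, hXY⟩ := hstep (k + 1) (by omega) hkn
      rw [Nat.add_sub_cancel] at hXY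
      -- `X ~ u (k+1) / a`, `Y ~ u (k+1) * a`
      have hX' : Sim X (u (k + 1) / a) := sim_of_eq_or (by rw [inv_div]) hX
      have hY' : Sim Y (u (k + 1) * a) := hY
      -- one of `X, Y` is `~ a ^ k`, the other `~ a ^ (k + 2)`
      have hcase : (Sim X (a ^ k) ∧ Sim Y (a ^ (k + 2))) ∨ (Sim X (a ^ (k + 2)) ∧ Sim Y (a ^ k)) := by
        rcases ihk1 with h | h
        · left
          refine ⟨hX'.trans (Or.inl ?_), hY'.trans (Or.inl ?_)⟩
          · rw [h, pow_succ, mul_div_cancel_right]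
          · rw [h, ← pow_succ]
        · right
          refine ⟨hX'.trans (Or.inr ?_), hY'.trans (Or.inr ?_)⟩
          · rw [h, pow_succ a (k + 1), mul_inv, div_eq_mul_inv]
          · rw [h, pow_succ a k, mul_inv, mul_assoc, inv_mul_cancel, mul_one]
      rcases hcase with ⟨hXk, hYk⟩ | ⟨hXk, hYk⟩
      · rcases hXY with ⟨e1, e2⟩ | ⟨e1, e2⟩
        · -- bad assignment: `u (k+2) = X ~ a^k`, `u k = Y ~ a^(k+2)`
          rw [e1]
          rw [e2] at ihk
          exact hXk.trans (ihk.symm.trans hYk)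
        · rw [e1]; exact hYk
      · rcases hXY with ⟨e1, e2⟩ | ⟨e1, e2⟩
        · rw [e1]; exact hXk
        · rw [e1]
          rw [e2] at ihk
          exact hYk.trans (ihk.symm.trans hXk)
  intro k hk hkn
  rcases Nat.lt_or_ge k n with hlt | hge
  · exact (key k hk (by omega)).1
  · have hkn' : k = n := le_antisymm hkn hge
    subst hkn'
    rcases Nat.lt_or_ge 1 k with h1k | h1k
    · have := (key (k - 1) (by omega) (by omega)).2
      rwa [Nat.sub_add_cancel (by omega)] at this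
    · have hk1 : k = 1 := by omega
      subst hk1
      exact Or.inl (by rw [h1, pow_one])

/-- Conclusion of the core induction for an odd `p = 2 h + 1`. -/
theorem eq_one_or_pow_eq_one (a : Q) (u : ℕ → Q) (h : ℕ) (hh : 1 ≤ h) (h1 : u 1 = a)
    (h2 : u 2 = a ^ 2 ∨ u 2 = (a ^ 2)⁻¹)
    (hstep : ∀ k, 2 ≤ k → k + 2 ≤ 2 * h + 1 → ∃ X Y : Q, (X = u k / a ∨ X = a / u k) ∧
      (Y = u k * a ∨ Y = (u k * a)⁻¹) ∧
      ((u (k + 1) = X ∧ u (k - 1) = Y) ∨ (u (k + 1) = Y ∧ u (k - 1) = X)))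
    (hsym : u (h + 1) = u h) : a = 1 ∨ a ^ (2 * h + 1) = 1 := by
  have hs := sim_pow a u (2 * h) h1 h2 (fun k hk hkn => hstep k hk (by omega))
  have s1 : Sim (u h) (a ^ h) := hs h hh (by omega)
  have s2 : Sim (u (h + 1)) (a ^ (h + 1)) := hs (h + 1) (by omega) (by omega)
  rw [hsym] at s2
  rcases s1.symm.trans s2 with e | e
  · left
    rw [pow_succ] at e
    exact (mul_eq_left.mp e.symm)
  · right
    rw [eq_inv_iff_mul_eq_one] at e
    rw [← e, ← pow_add]
    congr 1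
    omega

end Core

section Valued

variable {Γ₀ : Type*} [LinearOrderedCommGroupWithZero Γ₀]

/-- No element of the open annulus `β < x < 1` is a power of `β ^ 2`. -/
theorem ne_zpow_of_mem_annulus {β x : Γ₀} (hβ0 : β ≠ 0) (hβ1 : β < 1) (hx : β < x) (hx1 : x < 1)
    (j : ℤ) : x ≠ (β ^ 2) ^ j := by
  have hβpos : 0 < β := zero_lt_iff.mpr hβ0
  have h2pos : 0 < β ^ 2 := pow_pos hβpos 2
  have h2le : β ^ 2 ≤ 1 := pow_le_one₀ hβpos.le hβ1.le
  intro h
  rcases le_or_gt j 0 with hj | hj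
  · have := one_le_zpow_of_nonpos₀ h2pos h2le hj
    rw [← h] at this
    exact absurd hx1 (not_lt.mpr this)
  · lift j to ℕ using hj.le
    have hj' : 1 ≤ j := by exact_mod_cast hj
    rw [zpow_natCast, ← pow_mul] at h
    have h1 : β ^ (2 * j) ≤ β ^ 2 := pow_le_pow_of_le_one hβpos.le hβ1.le (by omega)
    have h2 : β ^ 2 < β := pow_lt_self_of_lt_one₀ hβpos hβ1 (by norm_num)
    rw [← h] at h1
    exact absurd (lt_of_le_of_lt h1 h2) (not_lt.mpr hx.le)

/-- **The walk induction.** -/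
theorem walk_pow_eq {β : Γ₀} (hβ0 : β ≠ 0) (hβ1 : β < 1) {p : ℕ} (hp : p.Prime) (hp2 : p ≠ 2)
    (c : ℕ → Γ₀)
    (hann : ∀ k, 1 ≤ k → k < p → β < c k ∧ c k < 1)
    (hsym : ∀ k, 1 ≤ k → k < p → c (p - k) = c k)
    (hdbl : c 2 = c 1 ^ 2 ∨ c 2 = β ^ 2 / c 1 ^ 2)
    (hstep : ∀ k, 2 ≤ k → k + 2 ≤ p → ∃ X Y : Γ₀, (X = c k / c 1 ∨ X = c 1 / c k) ∧
      (Y = c k * c 1 ∨ Y = β ^ 2 / (c k * c 1)) ∧
      ((c (k + 1) = X ∧ c (k - 1) = Y) ∨ (c (k + 1) = Y ∧ c (k - 1) = X))) :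
    ∃ j : ℤ, c 1 ^ p = β ^ (2 * j) := by
  classical
  have hβpos : 0 < β := zero_lt_iff.mpr hβ0
  -- `p = 2 h + 1`
  obtain ⟨h, hh⟩ : ∃ h, p = 2 * h + 1 := by
    rcases hp.eq_two_or_odd with h2 | hodd
    · exact absurd h2 hp2
    · exact ⟨p / 2, by omega⟩
  have hh1 : 1 ≤ h := by
    have := hp.two_le
    omega
  -- the units
  have hc0 : ∀ k, 1 ≤ k → k < p → c k ≠ 0 := fun k hk hkp =>
    (lt_trans hβpos (hann k hk hkp).1).ne'
  let cU : ℕ → Γ₀ˣ := fun k => if hk : c k = 0 then 1 else Units.mk0 (c k) hk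
  have hcU : ∀ k, 1 ≤ k → k < p → ((cU k : Γ₀ˣ) : Γ₀) = c k := by
    intro k hk hkp
    simp only [cU, dif_neg (hc0 k hk hkp), Units.val_mk0]
  let βU : Γ₀ˣ := Units.mk0 β hβ0
  let H : Subgroup Γ₀ˣ := Subgroup.zpowers (βU ^ 2)
  let π : Γ₀ˣ →* Γ₀ˣ ⧸ H := QuotientGroup.mk' H
  have hπβ : π (βU ^ 2) = 1 := by
    rw [QuotientGroup.mk'_apply, QuotientGroup.eq_one_iff]
    exact Subgroup.mem_zpowers _
  have h1p : 1 < p := hp.one_lt
  have key := eq_one_or_pow_eq_one (π (cU 1)) (fun k => π (cU k)) h hh1 rfl ?_ ?_ ?_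
  · rcases key with e | e
    · -- `c 1 ∈ ⟨β ^ 2⟩`: impossible
      exfalso
      rw [QuotientGroup.mk'_apply, QuotientGroup.eq_one_iff] at e
      obtain ⟨j, hj⟩ := Subgroup.mem_zpowers_iff.mp e
      have := congrArg (fun x : Γ₀ˣ => (x : Γ₀)) hj
      simp only [Units.val_zpow_eq_zpow_val, Units.val_pow_eq_pow_val, βU, Units.val_mk0,
        hcU 1 le_rfl h1p] at this
      exact ne_zpow_of_mem_annulus hβ0 hβ1 (hann 1 le_rfl h1p).1 (hann 1 le_rfl h1p).2 j this.symm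
    · rw [← map_pow, QuotientGroup.mk'_apply, QuotientGroup.eq_one_iff] at e
      obtain ⟨j, hj⟩ := Subgroup.mem_zpowers_iff.mp e
      refine ⟨j, ?_⟩
      have := congrArg (fun x : Γ₀ˣ => (x : Γ₀)) hj
      simp only [Units.val_zpow_eq_zpow_val, Units.val_pow_eq_pow_val, βU, Units.val_mk0,
        hcU 1 le_rfl h1p] at this
      rw [hh, ← this, ← zpow_natCast, ← zpow_mul]
      norm_num
  · -- doubling
    have h2p : 2 < p := by omega
    rcases hdbl with e | e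
    · left
      rw [← map_pow]
      congr 1
      apply Units.ext
      rw [Units.val_pow_eq_pow_val, hcU 2 (by norm_num) h2p, hcU 1 le_rfl h1p, e]
    · right
      have : cU 2 = βU ^ 2 * (cU 1 ^ 2)⁻¹ := by
        apply Units.ext
        rw [Units.val_mul, Units.val_pow_eq_pow_val, Units.val_inv_eq_inv_val,
          Units.val_pow_eq_pow_val, hcU 2 (by norm_num) h2p, hcU 1 le_rfl h1p, e,
          div_eq_mul_inv]
        rfl
      rw [this, map_mul, hπβ, one_mul, map_inv, map_pow]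
  · -- the step
    intro k hk hkp
    rw [← hh] at hkp
    obtain ⟨X, Y, hX, hY, hXY⟩ := hstep k hk hkp
    have hk1 : ((cU (k + 1) : Γ₀ˣ) : Γ₀) = c (k + 1) := hcU (k + 1) (by omega) (by omega)
    have hk0 : ((cU k : Γ₀ˣ) : Γ₀) = c k := hcU k (by omega) (by omega)
    have hkm : ((cU (k - 1) : Γ₀ˣ) : Γ₀) = c (k - 1) := hcU (k - 1) (by omega) (by omega)
    have h11 : ((cU 1 : Γ₀ˣ) : Γ₀) = c 1 := hcU 1 le_rfl h1p
    -- lifts of `X` and `Y`
    obtain ⟨XU, hXU, hXU'⟩ : ∃ XU : Γ₀ˣ, (XU : Γ₀) = X ∧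
        (π XU = π (cU k) / π (cU 1) ∨ π XU = π (cU 1) / π (cU k)) := by
      rcases hX with e | e
      · exact ⟨cU k / cU 1, by rw [Units.val_div_eq_div_val, hk0, h11, e],
          Or.inl (map_div π _ _)⟩
      · exact ⟨cU 1 / cU k, by rw [Units.val_div_eq_div_val, hk0, h11, e],
          Or.inr (map_div π _ _)⟩
    obtain ⟨YU, hYU, hYU'⟩ : ∃ YU : Γ₀ˣ, (YU : Γ₀) = Y ∧
        (π YU = π (cU k) * π (cU 1) ∨ π YU = (π (cU k) * π (cU 1))⁻¹) := by
      rcases hY with e | e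
      · exact ⟨cU k * cU 1, by rw [Units.val_mul, hk0, h11, e], Or.inl (map_mul π _ _)⟩
      · refine ⟨βU ^ 2 / (cU k * cU 1), ?_, Or.inr ?_⟩
        · rw [Units.val_div_eq_div_val, Units.val_mul, Units.val_pow_eq_pow_val, hk0, h11, e]
          rfl
        · rw [map_div, hπβ, one_div, map_mul]
    refine ⟨π XU, π YU, hXU', hYU', ?_⟩
    rcases hXY with ⟨e1, e2⟩ | ⟨e1, e2⟩
    · left
      refine ⟨congrArg π (Units.ext ?_), congrArg π (Units.ext ?_)⟩
      · rw [hk1, hXU, e1]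
      · rw [hkm, hYU, e2]
    · right
      refine ⟨congrArg π (Units.ext ?_), congrArg π (Units.ext ?_)⟩
      · rw [hk1, hYU, e1]
      · rw [hkm, hXU, e2]
  · -- symmetry
    congr 1
    apply Units.ext
    rw [hcU (h + 1) (by omega) (by omega), hcU h hh1 (by omega)]
    have := hsym h hh1 (by omega)
    rwa [show p - h = h + 1 by omega] at this

end Valued

end Fermat.Agent.Unram.WalkInd
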