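import Mathlib
import Fermat.Agent.Unram.Setup
import Fermat.Agent.Unram.Annulus

/-!
# S05, package W1: the local step of the "walk" (valuation bookkeeping)

Pure valuation algebra on the x-only identities of `Y² = X³ + a X² + b X`:
if `R, S, R + S, R - S` all have `x`-coordinates in the annulus `v b < v x < 1`, then the pair
`{v x(R+S), v x(R-S)}` is determined by `v x(R)`, `v x(S)`; same for doubling.
-/

set_option autoImplicit false

namespace Fermat.Agent.Unram

section ValuationAlgebra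

variable {L Γ₀ : Type*} [Field L] [LinearOrderedCommGroupWithZero Γ₀] (v : Valuation L Γ₀)

/-- in a linearly ordered group with zero: squares are injective. -/
lemma walk_sq_eq_sq_imp {x y : Γ₀} (h : x ^ 2 = y ^ 2) : x = y :=
  (pow_left_inj₀ zero_le zero_le two_ne_zero).mp h

/-- the asymmetric core of the walk step: `v xR < v xS`. -/
theorem walkStep_val_aux {a b xR xS xp xm : L} (ha : v a = 1) (h2 : v 2 = 1)
    (hR : v b < v xR) (hS : v b < v xS) (hS1 : v xS < 1)
    (hp : v b < v xp) (hm : v b < v xm)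
    (hlt : v xR < v xS)
    (hprod : xp * xm * (xR - xS) ^ 2 = (xR * xS - b) ^ 2)
    (hsum : (xp + xm) * (xR - xS) ^ 2 = 2 * ((xR * xS + b) * (xR + xS) + 2 * a * xR * xS)) :
    v xR * v xS ≠ v b ∧
    (v b < v xR * v xS →
      (v xp = v xR / v xS ∧ v xm = v xR * v xS) ∨ (v xm = v xR / v xS ∧ v xp = v xR * v xS)) ∧
    (v xR * v xS < v b →
      (v xp = v xR / v xS ∧ v xm = v b ^ 2 / (v xR * v xS)) ∨
        (v xm = v xR / v xS ∧ v xp = v b ^ 2 / (v xR * v xS))) := by
  -- positivity
  have hr0 : 0 < v xR := lt_of_le_of_lt zero_le hR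
  have hc0 : 0 < v xS := lt_of_le_of_lt zero_le hS
  have hu0 : 0 < v xp := lt_of_le_of_lt zero_le hp
  have hw0 : 0 < v xm := lt_of_le_of_lt zero_le hm
  have hrc0 : 0 < v xR * v xS := mul_pos hr0 hc0
  -- valuation of the difference and of the numerator of the sum
  have hδ : v (xR - xS) = v xS := Valuation.map_sub_eq_of_lt_right v hlt
  have hadd : v (xR + xS) = v xS := Valuation.map_add_eq_of_lt_right v hlt
  have hT2 : v (2 * a * xR * xS) = v xR * v xS := by
    rw [map_mul, map_mul, map_mul, h2, ha, one_mul, one_mul]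
  have hT1 : v ((xR * xS + b) * (xR + xS)) < v xR * v xS := by
    rw [map_mul, hadd]
    have h1 : v (xR * xS + b) ≤ max (v xR * v xS) (v b) := by
      have := v.map_add (xR * xS) b
      rwa [map_mul] at this
    rcases le_total (v b) (v xR * v xS) with h | h
    · rw [max_eq_left h] at h1
      calc v (xR * xS + b) * v xS ≤ (v xR * v xS) * v xS := mul_le_mul_left h1 _
        _ < (v xR * v xS) * 1 := mul_lt_mul_of_pos_left hS1 hrc0
        _ = v xR * v xS := mul_one _
    · rw [max_eq_right h] at h1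
      calc v (xR * xS + b) * v xS ≤ v b * v xS := mul_le_mul_left h1 _
        _ < v xR * v xS := mul_lt_mul_of_pos_right hR hc0
  have hN : v (2 * ((xR * xS + b) * (xR + xS) + 2 * a * xR * xS)) = v xR * v xS := by
    rw [map_mul, h2, one_mul, Valuation.map_add_eq_of_lt_right v (by rw [hT2]; exact hT1), hT2]
  have hsumv : v (xp + xm) * v xS ^ 2 = v xR * v xS := by
    have := congrArg v hsum
    rwa [map_mul, map_pow, hδ, hN] at this
  have hsumv' : v (xp + xm) = v xR / v xS := by
    rw [eq_div_iff hc0.ne']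
    have : v (xp + xm) * v xS * v xS = v xR * v xS := by rw [mul_assoc, ← sq]; exact hsumv
    exact mul_right_cancel₀ hc0.ne' this
  have hprodv : v xp * v xm * v xS ^ 2 = v (xR * xS - b) ^ 2 := by
    have := congrArg v hprod
    rwa [map_mul, map_mul, map_pow, map_pow, hδ] at this
  have hle_max : v xR / v xS ≤ max (v xp) (v xm) := by
    rw [← hsumv']; exact v.map_add xp xm
  refine ⟨?_, ?_, ?_⟩
  · -- `r c ≠ β`
    intro hEq
    have h1 : v (xR * xS - b) ≤ v b := by
      have := v.map_sub (xR * xS) b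
      rwa [map_mul, hEq, max_self] at this
    have h2' : v xp * v xm * v xS ^ 2 ≤ v b ^ 2 := by
      rw [hprodv]; exact pow_le_pow_left₀ zero_le h1 2
    -- `u w > (r / c) β`
    have h3 : v xR / v xS * v b < v xp * v xm := by
      rcases le_total (v xp) (v xm) with h | h
      · rw [max_eq_right h] at hle_max
        calc v xR / v xS * v b ≤ v xm * v b := mul_le_mul_left hle_max _
          _ < v xm * v xp := mul_lt_mul_of_pos_left hp hw0
          _ = v xp * v xm := mul_comm _ _
      · rw [max_eq_left h] at hle_max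
        calc v xR / v xS * v b ≤ v xp * v b := mul_le_mul_left hle_max _
          _ < v xp * v xm := mul_lt_mul_of_pos_left hm hu0
    have h4 : v xR / v xS * v b * v xS ^ 2 < v b ^ 2 :=
      lt_of_lt_of_le (mul_lt_mul_of_pos_right h3 (pow_pos hc0 2)) h2'
    have h5 : v xR / v xS * v b * v xS ^ 2 = v b ^ 2 := by
      rw [← hEq]
      field_simp
    exact absurd h5 h4.ne
  · -- `β < r c`
    intro hgt
    have h1 : v (xR * xS - b) = v xR * v xS := by
      rw [Valuation.map_sub_eq_of_lt_left v (by rw [map_mul]; exact hgt), map_mul]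
    rw [h1] at hprodv
    have huw : v xp * v xm = v xR ^ 2 := by
      have : v xp * v xm * v xS ^ 2 = v xR ^ 2 * v xS ^ 2 := by rw [hprodv, mul_pow]
      exact mul_right_cancel₀ (pow_pos hc0 2).ne' this
    rcases lt_trichotomy (v xp) (v xm) with h | h | h
    · right
      have hmax : v (xp + xm) = v xm := Valuation.map_add_eq_of_lt_right v h
      rw [hsumv'] at hmax
      refine ⟨hmax.symm, ?_⟩
      have : v xp * v xm = v xR * v xS * v xm := by
        rw [huw, ← hmax]; field_simp
      exact mul_right_cancel₀ hw0.ne' this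
    · exfalso
      rw [h, ← sq] at huw
      have hwr : v xm = v xR := walk_sq_eq_sq_imp huw
      rw [h, max_self, hwr] at hle_max
      have : v xR / v xS * v xS ≤ v xR * v xS := mul_le_mul_left hle_max _
      rw [div_mul_cancel₀ _ hc0.ne'] at this
      have h6 : v xR * v xS < v xR * 1 := mul_lt_mul_of_pos_left hS1 hr0
      rw [mul_one] at h6
      exact absurd this (not_le.mpr h6)
    · left
      have hmax : v (xp + xm) = v xp := Valuation.map_add_eq_of_lt_left v h
      rw [hsumv'] at hmax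
      refine ⟨hmax.symm, ?_⟩
      have : v xp * v xm = v xp * (v xR * v xS) := by
        rw [huw, ← hmax]; field_simp
      exact mul_left_cancel₀ hu0.ne' this
  · -- `r c < β`
    intro hlt'
    have hb0 : 0 < v b := lt_of_le_of_lt zero_le hlt'
    have h1 : v (xR * xS - b) = v b := by
      rw [Valuation.map_sub_eq_of_lt_right v (by rw [map_mul]; exact hlt')]
    rw [h1] at hprodv
    rcases lt_trichotomy (v xp) (v xm) with h | h | h
    · right
      have hmax : v (xp + xm) = v xm := Valuation.map_add_eq_of_lt_right v h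
      rw [hsumv'] at hmax
      refine ⟨hmax.symm, ?_⟩
      rw [eq_div_iff hrc0.ne']
      have : v xp * (v xR * v xS) * (v xS * v xm) = v b ^ 2 * (v xS * v xm) := by
        rw [← hprodv, ← hmax]; field_simp
      exact mul_right_cancel₀ (mul_pos hc0 hw0).ne' this
    · exfalso
      rw [h, ← sq, ← mul_pow] at hprodv
      have hwr : v xm * v xS = v b := walk_sq_eq_sq_imp hprodv
      rw [h, max_self] at hle_max
      have : v xR / v xS * v xS ≤ v xm * v xS := mul_le_mul_left hle_max _
      rw [div_mul_cancel₀ _ hc0.ne', hwr] at this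
      exact absurd this (not_le.mpr hR)
    · left
      have hmax : v (xp + xm) = v xp := Valuation.map_add_eq_of_lt_left v h
      rw [hsumv'] at hmax
      refine ⟨hmax.symm, ?_⟩
      rw [eq_div_iff hrc0.ne']
      have : v xm * (v xR * v xS) * (v xS * v xp) = v b ^ 2 * (v xS * v xp) := by
        rw [← hprodv, ← hmax]; field_simp
      exact mul_right_cancel₀ (mul_pos hc0 hu0).ne' this

/-- in the situation of the walk step the two valuations are different. -/
theorem walkStep_val_ne {a b xR xS xp xm : L} (ha : v a = 1) (h2 : v 2 = 1)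
    (hR : v b < v xR) (hR1 : v xR < 1) (hS : v b < v xS)
    (hp1 : v xp < 1) (hm1 : v xm < 1) (hne : xR ≠ xS)
    (hsum : (xp + xm) * (xR - xS) ^ 2 = 2 * ((xR * xS + b) * (xR + xS) + 2 * a * xR * xS)) :
    v xR ≠ v xS := by
  intro hEq
  have hr0 : 0 < v xR := lt_of_le_of_lt zero_le hR
  have hrc0 : 0 < v xR * v xS := by rw [← hEq]; exact mul_pos hr0 hr0
  have hδ0 : 0 < v (xR - xS) := by
    rw [Valuation.pos_iff]; exact sub_ne_zero.mpr hne
  have hδ : v (xR - xS) ≤ v xR := by
    have := v.map_sub xR xS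
    rwa [← hEq, max_self] at this
  have hadd : v (xR + xS) ≤ v xR := by
    have := v.map_add xR xS
    rwa [← hEq, max_self] at this
  have hT2 : v (2 * a * xR * xS) = v xR * v xS := by
    rw [map_mul, map_mul, map_mul, h2, ha, one_mul, one_mul]
  have hT1 : v ((xR * xS + b) * (xR + xS)) < v xR * v xS := by
    rw [map_mul]
    have h1 : v (xR * xS + b) ≤ max (v xR * v xS) (v b) := by
      have := v.map_add (xR * xS) b
      rwa [map_mul] at this
    rcases le_total (v b) (v xR * v xS) with h | h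
    · rw [max_eq_left h] at h1
      calc v (xR * xS + b) * v (xR + xS) ≤ (v xR * v xS) * v xR := mul_le_mul' h1 hadd
        _ < (v xR * v xS) * 1 := mul_lt_mul_of_pos_left hR1 hrc0
        _ = v xR * v xS := mul_one _
    · rw [max_eq_right h] at h1
      calc v (xR * xS + b) * v (xR + xS) ≤ v b * v xR := mul_le_mul' h1 hadd
        _ < v xS * v xR := mul_lt_mul_of_pos_right hS hr0
        _ = v xR * v xS := mul_comm _ _
  have hN : v (2 * ((xR * xS + b) * (xR + xS) + 2 * a * xR * xS)) = v xR * v xS := by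
    rw [map_mul, h2, one_mul, Valuation.map_add_eq_of_lt_right v (by rw [hT2]; exact hT1), hT2]
  have hsumv : v (xp + xm) * v (xR - xS) ^ 2 = v xR * v xS := by
    have := congrArg v hsum
    rwa [map_mul, map_pow, hN] at this
  have hlt1 : v (xp + xm) < 1 := lt_of_le_of_lt (v.map_add xp xm) (max_lt hp1 hm1)
  have h3 : v (xp + xm) * v (xR - xS) ^ 2 < v xR * v xS := by
    calc v (xp + xm) * v (xR - xS) ^ 2 < 1 * v (xR - xS) ^ 2 :=
          mul_lt_mul_of_pos_right hlt1 (pow_pos hδ0 2)
      _ = v (xR - xS) ^ 2 := one_mul _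
      _ ≤ v xR ^ 2 := pow_le_pow_left₀ zero_le hδ 2
      _ = v xR * v xS := by rw [sq, ← hEq]
  exact absurd hsumv h3.ne

/-- **the walk step** (valuation form): if `x(R), x(S), x(R+S), x(R-S)` all lie in the annulus
`v b < v x < 1` then `v x(R) ≠ v x(S)`, `v x(R) v x(S) ≠ v b` and the unordered pair
`{v x(R+S), v x(R-S)}` is `{min / max, v x(R) v x(S)}` resp. `{min / max, (v b)² / (v x(R) v x(S))}`. -/
theorem walkStep_val {a b xR xS xp xm : L} (ha : v a = 1) (h2 : v 2 = 1)
    (hR : v b < v xR) (hR1 : v xR < 1) (hS : v b < v xS) (hS1 : v xS < 1)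
    (hp : v b < v xp) (hp1 : v xp < 1) (hm : v b < v xm) (hm1 : v xm < 1) (hne : xR ≠ xS)
    (hprod : xp * xm * (xR - xS) ^ 2 = (xR * xS - b) ^ 2)
    (hsum : (xp + xm) * (xR - xS) ^ 2 = 2 * ((xR * xS + b) * (xR + xS) + 2 * a * xR * xS)) :
    v xR ≠ v xS ∧ v xR * v xS ≠ v b ∧
    (v b < v xR * v xS →
      (v xp = min (v xR) (v xS) / max (v xR) (v xS) ∧ v xm = v xR * v xS) ∨
        (v xm = min (v xR) (v xS) / max (v xR) (v xS) ∧ v xp = v xR * v xS)) ∧
    (v xR * v xS < v b →
      (v xp = min (v xR) (v xS) / max (v xR) (v xS) ∧ v xm = v b ^ 2 / (v xR * v xS)) ∨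
        (v xm = min (v xR) (v xS) / max (v xR) (v xS) ∧ v xp = v b ^ 2 / (v xR * v xS))) := by
  have hne' := walkStep_val_ne v ha h2 hR hR1 hS hp1 hm1 hne hsum
  refine ⟨hne', ?_⟩
  rcases lt_or_gt_of_ne hne' with hlt | hgt
  · have := walkStep_val_aux v ha h2 hR hS hS1 hp hm hlt hprod hsum
    rwa [min_eq_left hlt.le, max_eq_right hlt.le]
  · have hprod' : xp * xm * (xS - xR) ^ 2 = (xS * xR - b) ^ 2 := by
      have : (xS - xR) ^ 2 = (xR - xS) ^ 2 := by ring
      rw [this, hprod]; ring
    have hsum' : (xp + xm) * (xS - xR) ^ 2 =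
        2 * ((xS * xR + b) * (xS + xR) + 2 * a * xS * xR) := by
      have : (xS - xR) ^ 2 = (xR - xS) ^ 2 := by ring
      rw [this, hsum]; ring
    have := walkStep_val_aux v ha h2 hS hR hR1 hp hm hgt hprod' hsum'
    rwa [min_eq_right hgt.le, max_eq_left hgt.le, mul_comm (v xR) (v xS)]

/-- **the doubling step** (valuation form). -/
theorem walkDouble_val {a b x y x2 : L} (ha : v a = 1) (h2 : v 2 = 1)
    (hx : v b < v x) (hx1 : v x < 1) (h2x : v b < v x2)
    (heq : y ^ 2 = x ^ 3 + a * x ^ 2 + b * x) (hdup : x2 * (4 * y ^ 2) = (x ^ 2 - b) ^ 2) :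
    v x ^ 2 ≠ v b ∧ (v b < v x ^ 2 → v x2 = v x ^ 2) ∧
      (v x ^ 2 < v b → v x2 = v b ^ 2 / v x ^ 2) := by
  have hx0 : 0 < v x := lt_of_le_of_lt zero_le hx
  have h4 : v (4 : L) = 1 := by
    have : (4 : L) = 2 * 2 := by norm_num
    rw [this, map_mul, h2, one_mul]
  -- `v (y²) = (v x)²`
  have hy2 : v (y ^ 2) = v x ^ 2 := by
    have e : x ^ 3 + a * x ^ 2 + b * x = x * (a * x + (x ^ 2 + b)) := by ring
    rw [heq, e, map_mul]
    have h1 : v (a * x) = v x := by rw [map_mul, ha, one_mul]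
    have h2' : v (x ^ 2 + b) < v x := by
      refine lt_of_le_of_lt (v.map_add _ _) (max_lt ?_ hx)
      rw [map_pow, sq]
      calc v x * v x < v x * 1 := mul_lt_mul_of_pos_left hx1 hx0
        _ = v x := mul_one _
    rw [Valuation.map_add_eq_of_lt_left v (by rw [h1]; exact h2'), h1, sq]
  have hdupv : v x2 * v x ^ 2 = v (x ^ 2 - b) ^ 2 := by
    have := congrArg v hdup
    rwa [map_mul, map_mul, h4, one_mul, hy2, map_pow] at this
  refine ⟨?_, ?_, ?_⟩
  · intro hEq
    have h1 : v (x ^ 2 - b) ≤ v b := by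
      have := v.map_sub (x ^ 2) b
      rwa [map_pow, hEq, max_self] at this
    have h3 : v x2 * v x ^ 2 ≤ v b ^ 2 := by
      rw [hdupv]; exact pow_le_pow_left₀ zero_le h1 2
    have h5 : v b * v x ^ 2 < v x2 * v x ^ 2 := mul_lt_mul_of_pos_right h2x (pow_pos hx0 2)
    have h6 : v b ^ 2 < v x2 * v x ^ 2 := by
      calc v b ^ 2 = v b * v x ^ 2 := by rw [hEq, sq]
        _ < v x2 * v x ^ 2 := h5
    exact absurd h3 (not_le.mpr h6)
  · intro hgt
    have h1 : v (x ^ 2 - b) = v x ^ 2 := by
      rw [Valuation.map_sub_eq_of_lt_left v (by rw [map_pow]; exact hgt), map_pow]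
    rw [h1, sq (v x ^ 2)] at hdupv
    exact mul_right_cancel₀ (pow_pos hx0 2).ne' hdupv
  · intro hlt
    have h1 : v (x ^ 2 - b) = v b := by
      rw [Valuation.map_sub_eq_of_lt_right v (by rw [map_pow]; exact hlt)]
    rw [h1] at hdupv
    rw [eq_div_iff (pow_pos hx0 2).ne']
    exact hdupv

end ValuationAlgebra

/-! ### The `x`-only identities on points of a short curve -/

section XOnly

open WeierstrassCurve WeierstrassCurve.Affine WeierstrassCurve.Affine.Point

variable {L : Type*} [Field L] [DecidableEq L] {W : WeierstrassCurve L}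

omit [DecidableEq L] in
/-- the equation of the curve in terms of `xc`, `yc`. -/
lemma walk_equation (hW : IsShort W) {R : W.toAffine.Point} (hR : R ≠ 0) :
    yc R ^ 2 = xc R ^ 3 + W.a₂ * xc R ^ 2 + W.a₄ * xc R := by
  cases R with
  | zero => exact absurd rfl hR
  | some x y h => exact (hW.equation_iff x y).mp h.left

lemma walk_xc_add (hW : IsShort W) {R S : W.toAffine.Point} (hR : R ≠ 0) (hS : S ≠ 0)
    (hne : xc R ≠ xc S) :
    R + S ≠ 0 ∧ xc (R + S) = ((yc R - yc S) / (xc R - xc S)) ^ 2 - W.a₂ - xc R - xc S := by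
  cases R with
  | zero => exact absurd rfl hR
  | some x₁ y₁ h₁ =>
    cases S with
    | zero => exact absurd rfl hS
    | some x₂ y₂ h₂ =>
      simp only [xc_some, yc_some] at hne ⊢
      rw [Point.add_of_X_ne hne]
      refine ⟨Point.some_ne_zero _, ?_⟩
      rw [xc_some, hW.addX, hW.slope_of_X_ne _ _ hne]

lemma walk_xc_sub (hW : IsShort W) {R S : W.toAffine.Point} (hR : R ≠ 0) (hS : S ≠ 0)
    (hne : xc R ≠ xc S) :
    R - S ≠ 0 ∧ xc (R - S) = ((yc R + yc S) / (xc R - xc S)) ^ 2 - W.a₂ - xc R - xc S := by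
  have hS' : -S ≠ 0 := neg_ne_zero.mpr hS
  have hne' : xc R ≠ xc (-S) := by rwa [xc_neg]
  have := walk_xc_add hW hR hS' hne'
  rw [sub_eq_add_neg]
  rw [xc_neg, hW.yc_neg, sub_neg_eq_add] at this
  exact this

/-- **Prod**: `x(R+S) x(R-S) (x_R - x_S)² = (x_R x_S - b)²`. -/
theorem walk_prod (hW : IsShort W) {R S : W.toAffine.Point} (hR : R ≠ 0) (hS : S ≠ 0)
    (hne : xc R ≠ xc S) :
    xc (R + S) * xc (R - S) * (xc R - xc S) ^ 2 = (xc R * xc S - W.a₄) ^ 2 := by
  have hd : xc R - xc S ≠ 0 := sub_ne_zero.mpr hne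
  have e₁ := walk_equation hW hR
  have e₂ := walk_equation hW hS
  have hp : xc (R + S) * (xc R - xc S) ^ 2 =
      (yc R - yc S) ^ 2 - (W.a₂ + xc R + xc S) * (xc R - xc S) ^ 2 := by
    rw [(walk_xc_add hW hR hS hne).2]; field_simp; ring
  have hm : xc (R - S) * (xc R - xc S) ^ 2 =
      (yc R + yc S) ^ 2 - (W.a₂ + xc R + xc S) * (xc R - xc S) ^ 2 := by
    rw [(walk_xc_sub hW hR hS hne).2]; field_simp; ring
  have key : (xc (R + S) * (xc R - xc S) ^ 2) * (xc (R - S) * (xc R - xc S) ^ 2) =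
      (xc R * xc S - W.a₄) ^ 2 * (xc R - xc S) ^ 2 := by
    rw [hp, hm]
    linear_combination (yc R ^ 2 + (xc R ^ 3 + W.a₂ * xc R ^ 2 + W.a₄ * xc R) - 2 * yc S ^ 2
        - 2 * (W.a₂ + xc R + xc S) * (xc R - xc S) ^ 2) * e₁
      + (yc S ^ 2 + (xc S ^ 3 + W.a₂ * xc S ^ 2 + W.a₄ * xc S)
        - 2 * (xc R ^ 3 + W.a₂ * xc R ^ 2 + W.a₄ * xc R)
        - 2 * (W.a₂ + xc R + xc S) * (xc R - xc S) ^ 2) * e₂
  have hd2 : (xc R - xc S) ^ 2 ≠ 0 := pow_ne_zero 2 hd
  apply mul_right_cancel₀ hd2
  rw [← key]; ring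

/-- **Sum**: `(x(R+S) + x(R-S)) (x_R - x_S)² = 2 ((x_R x_S + b)(x_R + x_S) + 2 a x_R x_S)`. -/
theorem walk_sum (hW : IsShort W) {R S : W.toAffine.Point} (hR : R ≠ 0) (hS : S ≠ 0)
    (hne : xc R ≠ xc S) :
    (xc (R + S) + xc (R - S)) * (xc R - xc S) ^ 2 =
      2 * ((xc R * xc S + W.a₄) * (xc R + xc S) + 2 * W.a₂ * xc R * xc S) := by
  have hd : xc R - xc S ≠ 0 := sub_ne_zero.mpr hne
  have e₁ := walk_equation hW hR
  have e₂ := walk_equation hW hS
  have hp : xc (R + S) * (xc R - xc S) ^ 2 =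
      (yc R - yc S) ^ 2 - (W.a₂ + xc R + xc S) * (xc R - xc S) ^ 2 := by
    rw [(walk_xc_add hW hR hS hne).2]; field_simp; ring
  have hm : xc (R - S) * (xc R - xc S) ^ 2 =
      (yc R + yc S) ^ 2 - (W.a₂ + xc R + xc S) * (xc R - xc S) ^ 2 := by
    rw [(walk_xc_sub hW hR hS hne).2]; field_simp; ring
  rw [add_mul, hp, hm]
  linear_combination 2 * e₁ + 2 * e₂

/-- **Dup**: `x(2R) (4 y_R²) = (x_R² - b)²` for `y_R ≠ 0`. -/
theorem walk_dup (hW : IsShort W) (h2 : (2 : L) ≠ 0) {R : W.toAffine.Point} (hR : R ≠ 0)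
    (hy : yc R ≠ 0) :
    (2 : ℕ) • R ≠ 0 ∧ xc ((2 : ℕ) • R) * (4 * yc R ^ 2) = (xc R ^ 2 - W.a₄) ^ 2 := by
  have e := walk_equation hW hR
  cases R with
  | zero => exact absurd rfl hR
  | some x y h =>
    simp only [xc_some, yc_some] at hy e ⊢
    have hyne : y ≠ W.toAffine.negY x y := by
      rw [hW.negY]
      intro h'
      have : (2 : L) * y = 0 := by linear_combination h'
      rcases mul_eq_zero.mp this with h0 | h0
      · exact h2 h0
      · exact hy h0
    rw [two_nsmul, Point.add_self_of_Y_ne hyne]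
    refine ⟨Point.some_ne_zero _, ?_⟩
    rw [xc_some, hW.addX, hW.slope_of_Y_ne rfl (by rw [← hW.negY x y]; exact hyne)]
    have h2y : (2 : L) * y ≠ 0 := mul_ne_zero h2 hy
    have hsl : ((3 * x ^ 2 + 2 * W.a₂ * x + W.a₄) / (2 * y)) ^ 2 * (4 * y ^ 2) =
        (3 * x ^ 2 + 2 * W.a₂ * x + W.a₄) ^ 2 := by
      field_simp
      ring
    linear_combination hsl + (-4 * (W.a₂ + 2 * x)) * e

end XOnly

/-! ### The walk step on points -/

section Points

open WeierstrassCurve WeierstrassCurve.Affine WeierstrassCurve.Affine.Point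

variable {L : Type*} [Field L] [DecidableEq L] {W : WeierstrassCurve L}
  {A : ValuationSubring L} {α β : L}

/-- the annulus `v b < v x < 1` (affine points only). -/
def InAnnulus (A : ValuationSubring L) (W : WeierstrassCurve L) (P : W.toAffine.Point) : Prop :=
  P ≠ 0 ∧ A.valuation W.a₄ < A.valuation (xc P) ∧ A.valuation (xc P) < 1

lemma InAnnulus.neg {P : W.toAffine.Point} (h : InAnnulus A W P) : InAnnulus A W (-P) :=
  ⟨neg_ne_zero.mpr h.1, by rw [xc_neg]; exact h.2.1, by rw [xc_neg]; exact h.2.2⟩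

lemma inAnnulus_neg_iff {P : W.toAffine.Point} : InAnnulus A W (-P) ↔ InAnnulus A W P :=
  ⟨fun h => by simpa using h.neg, fun h => h.neg⟩

/-- **the walk step.** -/
theorem walkStep (h : Ctx A W α β) (hβ : A.valuation β < 1) {R S : W.toAffine.Point}
    (hR : InAnnulus A W R) (hS : InAnnulus A W S) (hadd : InAnnulus A W (R + S))
    (hsub : InAnnulus A W (R - S)) (hne : xc R ≠ xc S) :
    A.valuation (xc R) ≠ A.valuation (xc S) ∧
    A.valuation (xc R) * A.valuation (xc S) ≠ A.valuation W.a₄ ∧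
    (A.valuation W.a₄ < A.valuation (xc R) * A.valuation (xc S) →
      (A.valuation (xc (R + S)) =
          min (A.valuation (xc R)) (A.valuation (xc S)) /
            max (A.valuation (xc R)) (A.valuation (xc S)) ∧
        A.valuation (xc (R - S)) = A.valuation (xc R) * A.valuation (xc S)) ∨
      (A.valuation (xc (R - S)) =
          min (A.valuation (xc R)) (A.valuation (xc S)) /
            max (A.valuation (xc R)) (A.valuation (xc S)) ∧
        A.valuation (xc (R + S)) = A.valuation (xc R) * A.valuation (xc S))) ∧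
    (A.valuation (xc R) * A.valuation (xc S) < A.valuation W.a₄ →
      (A.valuation (xc (R + S)) =
          min (A.valuation (xc R)) (A.valuation (xc S)) /
            max (A.valuation (xc R)) (A.valuation (xc S)) ∧
        A.valuation (xc (R - S)) =
          A.valuation W.a₄ ^ 2 / (A.valuation (xc R) * A.valuation (xc S))) ∨
      (A.valuation (xc (R - S)) =
          min (A.valuation (xc R)) (A.valuation (xc S)) /
            max (A.valuation (xc R)) (A.valuation (xc S)) ∧
        A.valuation (xc (R + S)) =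
          A.valuation W.a₄ ^ 2 / (A.valuation (xc R) * A.valuation (xc S)))) :=
  walkStep_val A.valuation (h.val_a hβ) h.two hR.2.1 hR.2.2 hS.2.1 hS.2.2 hadd.2.1 hadd.2.2
    hsub.2.1 hsub.2.2 hne (walk_prod h.short hR.1 hS.1 hne) (walk_sum h.short hR.1 hS.1 hne)

/-- the walk step in the weak form used by the induction (W2). -/
theorem walkStep_weak (h : Ctx A W α β) (hβ : A.valuation β < 1) {R S : W.toAffine.Point}
    (hR : InAnnulus A W R) (hS : InAnnulus A W S) (hadd : InAnnulus A W (R + S))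
    (hsub : InAnnulus A W (R - S)) (hne : xc R ≠ xc S) :
    ∃ X Y : A.ValueGroup,
      (X = A.valuation (xc R) / A.valuation (xc S) ∨
        X = A.valuation (xc S) / A.valuation (xc R)) ∧
      (Y = A.valuation (xc R) * A.valuation (xc S) ∨
        Y = A.valuation W.a₄ ^ 2 / (A.valuation (xc R) * A.valuation (xc S))) ∧
      ((A.valuation (xc (R + S)) = X ∧ A.valuation (xc (R - S)) = Y) ∨
        (A.valuation (xc (R + S)) = Y ∧ A.valuation (xc (R - S)) = X)) := by
  obtain ⟨h1, h2, h3, h4⟩ := walkStep h hβ hR hS hadd hsub hne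
  have hX : min (A.valuation (xc R)) (A.valuation (xc S)) /
        max (A.valuation (xc R)) (A.valuation (xc S)) =
        A.valuation (xc R) / A.valuation (xc S) ∨
      min (A.valuation (xc R)) (A.valuation (xc S)) /
        max (A.valuation (xc R)) (A.valuation (xc S)) =
        A.valuation (xc S) / A.valuation (xc R) := by
    rcases le_total (A.valuation (xc R)) (A.valuation (xc S)) with hle | hle
    · left; rw [min_eq_left hle, max_eq_right hle]
    · right; rw [min_eq_right hle, max_eq_left hle]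
  rcases lt_or_gt_of_ne h2 with hlt | hgt
  · rcases h4 hlt with ⟨e1, e2⟩ | ⟨e1, e2⟩
    · exact ⟨_, _, hX, Or.inr rfl, Or.inl ⟨e1, e2⟩⟩
    · exact ⟨_, _, hX, Or.inr rfl, Or.inr ⟨e2, e1⟩⟩
  · rcases h3 hgt with ⟨e1, e2⟩ | ⟨e1, e2⟩
    · exact ⟨_, _, hX, Or.inl rfl, Or.inl ⟨e1, e2⟩⟩
    · exact ⟨_, _, hX, Or.inl rfl, Or.inr ⟨e2, e1⟩⟩

omit [DecidableEq L] in
/-- in the annulus `y ≠ 0`. -/
lemma InAnnulus.yc_ne_zero (h : Ctx A W α β) (hβ : A.valuation β < 1) {P : W.toAffine.Point}
    (hP : InAnnulus A W P) : yc P ≠ 0 := by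
  intro hy
  have e := walk_equation h.short hP.1
  rw [hy] at e
  -- `0 = x (x² + a x + b)`, `v (x² + a x + b) = v x ≠ 0`
  have hx0 : 0 < A.valuation (xc P) := lt_of_le_of_lt zero_le hP.2.1
  have hx : xc P ≠ 0 := (Valuation.pos_iff _).mp hx0
  have e' : xc P * (W.a₂ * xc P + (xc P ^ 2 + W.a₄)) = 0 := by
    linear_combination -e
  rcases mul_eq_zero.mp e' with h0 | h0
  · exact hx h0
  · have h1 : A.valuation (W.a₂ * xc P) = A.valuation (xc P) := by
      rw [map_mul, h.val_a hβ, one_mul]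
    have h2 : A.valuation (xc P ^ 2 + W.a₄) < A.valuation (xc P) := by
      refine lt_of_le_of_lt (A.valuation.map_add _ _) (max_lt ?_ hP.2.1)
      rw [map_pow, sq]
      calc A.valuation (xc P) * A.valuation (xc P) < A.valuation (xc P) * 1 :=
            mul_lt_mul_of_pos_left hP.2.2 hx0
        _ = A.valuation (xc P) := mul_one _
    have h3 := Valuation.map_add_eq_of_lt_left A.valuation (x := W.a₂ * xc P)
      (y := xc P ^ 2 + W.a₄) (by rw [h1]; exact h2)
    rw [h0, _root_.map_zero, h1] at h3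
    exact hx0.ne h3

/-- **the doubling step.** -/
theorem walkDouble (h : Ctx A W α β) (hβ : A.valuation β < 1) {P : W.toAffine.Point}
    (hP : InAnnulus A W P) (h2P : InAnnulus A W ((2 : ℕ) • P)) :
    A.valuation (xc P) ^ 2 ≠ A.valuation W.a₄ ∧
    (A.valuation W.a₄ < A.valuation (xc P) ^ 2 →
      A.valuation (xc ((2 : ℕ) • P)) = A.valuation (xc P) ^ 2) ∧
    (A.valuation (xc P) ^ 2 < A.valuation W.a₄ →
      A.valuation (xc ((2 : ℕ) • P)) = A.valuation W.a₄ ^ 2 / A.valuation (xc P) ^ 2) := by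
  have h2 : (2 : L) ≠ 0 := fun h0 => by
    have := h.two
    rw [h0, _root_.map_zero] at this
    exact zero_ne_one this
  exact walkDouble_val A.valuation (h.val_a hβ) h.two hP.2.1 hP.2.2 h2P.2.1
    (walk_equation h.short hP.1) (walk_dup h.short h2 hP.1 (hP.yc_ne_zero h hβ)).2

/-- the doubling step in the weak form used by the induction (W2). -/
theorem walkDouble_weak (h : Ctx A W α β) (hβ : A.valuation β < 1) {P : W.toAffine.Point}
    (hP : InAnnulus A W P) (h2P : InAnnulus A W ((2 : ℕ) • P)) :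
    A.valuation (xc ((2 : ℕ) • P)) = A.valuation (xc P) ^ 2 ∨
      A.valuation (xc ((2 : ℕ) • P)) = A.valuation W.a₄ ^ 2 / A.valuation (xc P) ^ 2 := by
  obtain ⟨h1, h2, h3⟩ := walkDouble h hβ hP h2P
  rcases lt_or_gt_of_ne h1 with hlt | hgt
  · exact Or.inr (h3 hlt)
  · exact Or.inl (h2 hgt)

omit [DecidableEq L] in
lemma inAnn_iff_inAnnulus {P : W.toAffine.Point} : InAnn A P ↔ InAnnulus A W P := Iff.rfl

/-- the walk step in exactly the shape consumed by `walk_of_steps` (`WalkMain`). -/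
theorem walkStep_pt (h : Ctx A W α β) (hβ : A.valuation β < 1) :
    ∀ R S : W.toAffine.Point, InAnn A R → InAnn A S → InAnn A (R + S) →
      InAnn A (R - S) → xc R ≠ xc S →
      ∃ X Y : A.ValueGroup,
        (X = A.valuation (xc R) / A.valuation (xc S) ∨
          X = A.valuation (xc S) / A.valuation (xc R)) ∧
        (Y = A.valuation (xc R) * A.valuation (xc S) ∨
          Y = A.valuation W.a₄ ^ 2 / (A.valuation (xc R) * A.valuation (xc S))) ∧
        ((A.valuation (xc (R + S)) = X ∧ A.valuation (xc (R - S)) = Y) ∨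
          (A.valuation (xc (R + S)) = Y ∧ A.valuation (xc (R - S)) = X)) :=
  fun _ _ hR hS hadd hsub hne => walkStep_weak h hβ hR hS hadd hsub hne

/-- the doubling step in exactly the shape consumed by `walk_of_steps` (`WalkMain`). -/
theorem walkDouble_pt (h : Ctx A W α β) (hβ : A.valuation β < 1) :
    ∀ P : W.toAffine.Point, InAnn A P → InAnn A (2 • P) →
      A.valuation (xc (2 • P)) = A.valuation (xc P) ^ 2 ∨
        A.valuation (xc (2 • P)) = A.valuation W.a₄ ^ 2 / A.valuation (xc P) ^ 2 :=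
  fun _ hP h2P => walkDouble_weak h hβ hP h2P

end Points

end Fermat.Agent.Unram
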