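import Mathlib
import Fermat.Agent.Unram.Setup
import Fermat.Agent.Unram.Annulus
import Fermat.Agent.Unram.WalkInd
import Fermat.Agent.Unram.WalkStep

/-!
# S05, package W2: the walk on the points `k • P`

Point-level form of step (W) of the blueprint: if `P` is a point with `p • P = 0` (`p` an odd prime)
on a curve `Y² = X³ + aX² + bX` with `v b < 1`, and all `k • P` (`1 ≤ k < p`) lie in the annulus
`v b < v x < 1`, then `(v x_P) ^ p ∈ (v b) ^ (2 ℤ)`.

`walk_of_steps` takes the local step and the doubling step (package W1) as hypotheses.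
-/

set_option autoImplicit false

namespace Fermat.Agent.Unram

open WeierstrassCurve WeierstrassCurve.Affine WeierstrassCurve.Affine.Point

section

variable {L : Type*} [Field L] [DecidableEq L] {W : WeierstrassCurve L}

/-- **The walk**, with the local steps as hypotheses. -/
theorem walk_of_steps (A : ValuationSubring L)
    (hb0 : W.a₄ ≠ 0) (hb1 : A.valuation W.a₄ < 1)
    (hstepPt : ∀ R S : W.toAffine.Point, InAnn A R → InAnn A S → InAnn A (R + S) →
      InAnn A (R - S) → xc R ≠ xc S →
      ∃ X Y : A.ValueGroup,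
        (X = A.valuation (xc R) / A.valuation (xc S) ∨
          X = A.valuation (xc S) / A.valuation (xc R)) ∧
        (Y = A.valuation (xc R) * A.valuation (xc S) ∨
          Y = A.valuation W.a₄ ^ 2 / (A.valuation (xc R) * A.valuation (xc S))) ∧
        ((A.valuation (xc (R + S)) = X ∧ A.valuation (xc (R - S)) = Y) ∨
          (A.valuation (xc (R + S)) = Y ∧ A.valuation (xc (R - S)) = X)))
    (hdblPt : ∀ P : W.toAffine.Point, InAnn A P → InAnn A (2 • P) →
      A.valuation (xc (2 • P)) = A.valuation (xc P) ^ 2 ∨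
        A.valuation (xc (2 • P)) = A.valuation W.a₄ ^ 2 / A.valuation (xc P) ^ 2)
    {p : ℕ} (hp : p.Prime) (hp2 : p ≠ 2) {P : W.toAffine.Point} (hpP : p • P = 0)
    (hann : ∀ k, 1 ≤ k → k < p → InAnn A (k • P)) :
    ∃ j : ℤ, A.valuation (xc P) ^ p = A.valuation W.a₄ ^ (2 * j) := by
  have hβ0 : A.valuation W.a₄ ≠ 0 := (Valuation.ne_zero_iff _).mpr hb0
  have h1p : 1 < p := hp.one_lt
  have h2p : 2 < p := lt_of_le_of_ne hp.two_le (Ne.symm hp2)
  have key := WalkInd.walk_pow_eq hβ0 hb1 hp hp2 (fun k => A.valuation (xc (k • P)))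
    (fun k hk hkp => (hann k hk hkp).2) ?_ ?_ ?_
  · simpa only [one_smul] using key
  · -- symmetry
    intro k hk hkp
    have h : (p - k) • P = -(k • P) := by
      rw [eq_neg_iff_add_eq_zero, ← add_smul, Nat.sub_add_cancel hkp.le, hpP]
    show A.valuation (xc ((p - k) • P)) = A.valuation (xc (k • P))
    rw [h, xc_neg]
  · -- doubling
    have := hdblPt P (by simpa only [one_smul] using hann 1 le_rfl h1p) (hann 2 (by norm_num) h2p)
    simpa only [one_smul] using this
  · -- the step
    intro k hk hkp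
    have hR := hann k (by omega) (by omega)
    have hS : InAnn A P := by simpa only [one_smul] using hann 1 le_rfl h1p
    have hplus : k • P + P = (k + 1) • P := (succ_nsmul P k).symm
    have hminus : k • P - P = (k - 1) • P := by
      rw [sub_eq_iff_eq_add, ← succ_nsmul, Nat.sub_add_cancel (by omega)]
    have hRS : InAnn A (k • P + P) := by rw [hplus]; exact hann (k + 1) (by omega) (by omega)
    have hRS' : InAnn A (k • P - P) := by rw [hminus]; exact hann (k - 1) (by omega) (by omega)
    have hne : xc (k • P) ≠ xc P := by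
      intro hx
      rcases eq_or_eq_neg_of_xc_eq hR.1 hS.1 hx with e | e
      · apply hRS'.1
        rw [e, sub_self]
      · apply hRS.1
        rw [e, neg_add_cancel]
    obtain ⟨X, Y, hX, hY, hXY⟩ := hstepPt (k • P) P hR hS hRS hRS' hne
    rw [hplus, hminus] at hXY
    refine ⟨X, Y, ?_, ?_, hXY⟩
    · simpa only [one_smul] using hX
    · simpa only [one_smul] using hY

/-- A point whose `x`-coordinate has valuation `> v b` is affine. -/
theorem ne_zero_of_val_lt (A : ValuationSubring L) {P : W.toAffine.Point}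
    (h : A.valuation W.a₄ < A.valuation (xc P)) : P ≠ 0 := by
  rintro rfl
  rw [xc_zero, _root_.map_zero] at h
  exact not_lt.mpr zero_le h

theorem inAnn_iff (A : ValuationSubring L) (P : W.toAffine.Point) :
    InAnn A P ↔ A.valuation W.a₄ < A.valuation (xc P) ∧ A.valuation (xc P) < 1 :=
  ⟨fun h => h.2, fun h => ⟨ne_zero_of_val_lt A h.1, h⟩⟩

/-- **(W)**: if `p • P = 0` (`p` an odd prime) and all `k • P`, `1 ≤ k < p`, lie in the annulus
`v b < v x < 1`, then `(v x_P) ^ p ∈ (v b) ^ (2 ℤ)`. -/
theorem walk {A : ValuationSubring L} {α β : L} (h : Ctx A W α β) (hβ : A.valuation β < 1)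
    {p : ℕ} (hp : p.Prime) (hp2 : p ≠ 2) {P : W.toAffine.Point} (hpP : p • P = 0)
    (hann : ∀ k, 1 ≤ k → k < p →
      A.valuation W.a₄ < A.valuation (xc (k • P)) ∧ A.valuation (xc (k • P)) < 1) :
    ∃ j : ℤ, A.valuation (xc P) ^ p = A.valuation W.a₄ ^ (2 * j) :=
  walk_of_steps A h.b_ne_zero (by rw [h.val_b]; exact hβ)
    (fun _ _ hR hS hadd hsub hne => walkStep_weak h hβ hR hS hadd hsub hne)
    (fun _ hP h2P => walkDouble_weak h hβ hP h2P) hp hp2 hpP
    (fun k hk hkp => (inAnn_iff A _).mpr (hann k hk hkp))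

end

end Fermat.Agent.Unram
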