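/-
S05, package END: the core theorem. For the curve `W : Y² = X(X+α)(X+β)` over `ℚ` (`α β : ℤ`, `q ∤ α`,
`q ∤ α - β`, `v_q(β) = p m`), a valuation subring `A` of an algebraically closed algebraic extension `L` of `ℚ`
lying over the odd prime `q ≠ p`, and `σ` in the inertia group of `A`: `σ` fixes every point of `W[p](L)`.
-/
import Fermat.Agent.Unram.Setup
import Fermat.Agent.Unram.Inertia
import Fermat.Agent.Unram.XOnly
import Fermat.Agent.Unram.DirectComp
import Fermat.Agent.Unram.FormalMain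
import Fermat.Agent.Unram.WalkMain
import Fermat.Agent.Unram.PZero

set_option autoImplicit false

namespace Fermat.Agent.Unram

open WeierstrassCurve WeierstrassCurve.Affine WeierstrassCurve.Affine.Point

section core

variable {L : Type*} [Field L] [DecidableEq L] [Algebra ℚ L]

/-- If `σ` fixes a nonzero multiple of a point of prime order, it fixes the point. -/
lemma smul_eq_of_smul_multiple_eq (W' : WeierstrassCurve ℚ) {p : ℕ} (hp : p.Prime)
    (σ : L ≃ₐ[ℚ] L) (x : (W'⁄L).toAffine.Point) (hx : (p : ℤ) • x = 0) (n : ℤ) (hn : n • x ≠ 0)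
    (hσ : σ • (n • x) = n • x) : σ • x = x := by
  have hpn : ¬ (p : ℤ) ∣ n := by
    rintro ⟨k, rfl⟩
    apply hn
    rw [mul_comm, mul_smul, hx, smul_zero]
  have hcop : IsCoprime (p : ℤ) n :=
    (Nat.prime_iff_prime_int.mp hp).coprime_iff_not_dvd.mpr hpn
  obtain ⟨u, w, huw⟩ := hcop
  have hx' : x = w • (n • x) := by
    have : ((u * p + w * n : ℤ)) • x = x := by rw [huw, one_smul]
    rw [add_smul, mul_smul, hx, smul_zero, zero_add, mul_smul] at this
    exact this.symm
  rw [hx', gal_smul_zsmul, hσ]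

omit [Algebra ℚ L] in
/-- A point with `2 • P ≠ 0` is affine with `y ≠ 0`. -/
lemma ne_zero_and_yc_ne_zero_of_two_zsmul_ne_zero {W : WeierstrassCurve L} (hW : IsShort W)
    {P : W.toAffine.Point} (h : (2 : ℤ) • P ≠ 0) : P ≠ 0 ∧ yc P ≠ 0 := by
  have hP : P ≠ 0 := by
    rintro rfl
    exact h (smul_zero _)
  refine ⟨hP, fun hy => h ?_⟩
  have hneg : -P = P := by
    refine point_ext (_root_.neg_ne_zero.mpr hP) hP (xc_neg P) ?_
    rw [hW.yc_neg, hy, _root_.neg_zero]
  rw [two_smul]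
  nth_rewrite 1 [← hneg]
  exact neg_add_cancel P

/-- END, with the arithmetic inputs already converted into valuation statements. -/
theorem core_of_ctx [IsAlgClosed L] (A : ValuationSubring L) (a b : ℚ) {α β : ℚ}
    (hC : Ctx A ((shortW a b)⁄L) (algebraMap ℚ L α) (algebraMap ℚ L β))
    {p q : ℕ} (hp : p.Prime) (hp2 : p ≠ 2) (m : ℕ)
    (hvp : A.valuation (p : L) = 1)
    (hvb : A.valuation ((shortW a b)⁄L).a₄ = A.valuation (q : L) ^ (p * m))
    (σ : L ≃ₐ[ℚ] L)
    (H_val : ∀ z : L, A.valuation (σ z) = A.valuation z)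
    (H_in : ∀ z : L, A.valuation z ≤ 1 → A.valuation (σ z - z) < 1)
    (x : ((shortW a b)⁄L).toAffine.Point) (hx : (p : ℤ) • x = 0) : σ • x = x := by
  classical
  by_cases hx0 : x = 0
  · rw [hx0, gal_smul_zero]
  have hp0 : p ≠ 0 := hp.ne_zero
  -- torsion-freeness of `E₁` in the form we need
  have tors : ∀ D : ((shortW a b)⁄L).toAffine.Point, InE1 A D → (p : ℤ) • D = 0 → D = 0 := by
    intro D hD hpD
    refine FormalMain.eq_zero_of_inE1_of_nsmul_eq_zero hC hD hvp ?_
    rw [← natCast_zsmul]; exact hpD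
  -- a fixed nonzero multiple suffices
  have key : ∀ n : ℤ, n • x ≠ 0 → σ • (n • x) = n • x → σ • x = x := fun n hn h =>
    smul_eq_of_smul_multiple_eq (shortW a b) hp σ x hx n hn h
  -- Case A: a multiple with `v x ≥ 1`
  have caseA : ∀ n : ℤ, n • x ≠ 0 → 1 ≤ A.valuation (xc (n • x)) → σ • x = x := by
    intro n hn h1
    have hpn : (p : ℤ) • (n • x) = 0 := by rw [smul_comm, hx, smul_zero]
    have h1' : A.valuation (xc (n • x)) = 1 := by
      refine le_antisymm (not_lt.mp fun hlt => hn ?_) h1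
      exact tors _ (Or.inr hlt) hpn
    have hD := DirectComp.inE1_smul_sub_of_val_eq_one (shortW a b) hC σ H_in (n • x) h1'
    have hD0 : σ • (n • x) - n • x = 0 := by
      refine tors _ hD ?_
      rw [smul_sub, ← gal_smul_zsmul, hpn, gal_smul_zero, sub_zero]
    exact key n hn (sub_eq_zero.mp hD0)
  -- Case B: a multiple with `v x ≤ v b`, `v x < 1`
  have caseB : ∀ n : ℤ, n • x ≠ 0 →
      A.valuation (xc (n • x)) ≤ A.valuation ((shortW a b)⁄L).a₄ →
      A.valuation (xc (n • x)) < 1 → σ • x = x := by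
    intro n hn hb h1
    have h2n : (2 : ℤ) • (n • x) ≠ 0 := by
      intro h2
      -- `2 • y = 0` and `p • y = 0` with `p` odd force `y = 0`
      have hpn : (p : ℤ) • (n • x) = 0 := by rw [smul_comm, hx, smul_zero]
      obtain ⟨k, hk⟩ := hp.odd_of_ne_two hp2
      apply hn
      have : ((p : ℤ) - 2 * k) • (n • x) = 0 := by
        rw [sub_smul, hpn, mul_comm, mul_smul, h2, smul_zero, sub_zero]
      have h1 : ((p : ℤ) - 2 * k) = 1 := by rw [hk]; push_cast; ring
      rwa [h1, one_smul] at this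
    obtain ⟨hP0, hy0⟩ := ne_zero_and_yc_ne_zero_of_two_zsmul_ne_zero hC.short h2n
    have := hC.one_le_val_xc_two_nsmul hP0 hy0 hb h1
    rw [← natCast_zsmul, Nat.cast_ofNat, ← mul_smul] at this
    rw [← mul_smul] at h2n
    exact caseA _ h2n this
  by_cases hA : ∃ n : ℤ, n • x ≠ 0 ∧ 1 ≤ A.valuation (xc (n • x))
  · obtain ⟨n, hn, h1⟩ := hA
    exact caseA n hn h1
  by_cases hB : ∃ n : ℤ, n • x ≠ 0 ∧
      A.valuation (xc (n • x)) ≤ A.valuation ((shortW a b)⁄L).a₄ ∧ A.valuation (xc (n • x)) < 1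
  · obtain ⟨n, hn, hb, h1⟩ := hB
    exact caseB n hn hb h1
  -- Case C: all nonzero multiples in the annulus
  push Not at hA hB
  have hann : ∀ n : ℤ, n • x ≠ 0 →
      A.valuation ((shortW a b)⁄L).a₄ < A.valuation (xc (n • x)) ∧ A.valuation (xc (n • x)) < 1 := by
    intro n hn
    have h1 := hA n hn
    exact ⟨not_le.mp fun hle => absurd (hB n hn hle) (not_le.mpr h1), h1⟩
  have hmult : ∀ k : ℕ, 1 ≤ k → k < p → (k : ℤ) • x ≠ 0 := by
    intro k hk1 hkp hk0
    have hpk : ¬ (p : ℤ) ∣ (k : ℤ) := by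
      intro hdvd
      have := Nat.le_of_dvd (by omega) (Int.natCast_dvd_natCast.mp hdvd)
      omega
    have hcop : IsCoprime (p : ℤ) (k : ℤ) :=
      (Nat.prime_iff_prime_int.mp hp).coprime_iff_not_dvd.mpr hpk
    obtain ⟨u, w, huw⟩ := hcop
    apply hx0
    have : ((u * p + w * k : ℤ)) • x = x := by rw [huw, one_smul]
    rw [add_smul, mul_smul, hx, smul_zero, zero_add, mul_smul, hk0, smul_zero] at this
    exact this.symm
  have hx1 : (1 : ℤ) • x ≠ 0 := by rwa [one_smul]
  have hannx := hann 1 hx1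
  rw [one_smul] at hannx
  -- multiplicative reduction
  have hβ1 : A.valuation (algebraMap ℚ L β) < 1 := by
    rw [← hC.val_b]
    exact hannx.1.trans hannx.2
  have hpx : p • x = 0 := by rw [← natCast_zsmul]; exact hx
  obtain ⟨j, hj⟩ := walk hC hβ1 hp hp2 hpx (fun k hk1 hkp => by
    have := hann k (hmult k hk1 hkp)
    rwa [natCast_zsmul] at this)
  -- `v (xc x) = (v q)^(2 j m)`
  have hval : A.valuation (xc x) = A.valuation (q : L) ^ (2 * j * m) := by
    have hpow : A.valuation (xc x) ^ p = (A.valuation (q : L) ^ (2 * j * m)) ^ p := by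
      rw [hj, hvb, ← zpow_natCast (A.valuation (q : L)) (p * m), ← zpow_mul, ← zpow_natCast _ p,
        ← zpow_mul]
      congr 1
      push_cast
      ring
    exact (pow_left_inj hp0).mp hpow
  -- the auxiliary point
  have hX0 : A.valuation (algebraMap ℚ L ((q : ℚ) ^ (2 * j * m))) = A.valuation (xc x) := by
    rw [hval, map_zpow₀, map_natCast, map_zpow₀]
  obtain ⟨P₀, hσP₀, hP₀⟩ :=
    exists_pZero_of_isAlgClosed (shortW a b) hC hannx.2 hannx.1 _ hX0
  have hσP₀ := hσP₀ σ H_in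
  rcases hP₀ with rfl | hQ
  · exact hσP₀
  -- `D = σ x - x = σ Q - Q` with `Q = x - P₀`
  have hD : σ • x - x = σ • (x - P₀) - (x - P₀) := by
    rw [gal_smul_sub, hσP₀]; abel
  have hDE1 : InE1 A (σ • x - x) := by
    rw [hD]
    rcases hQ.lt_or_eq with hlt | heq
    · refine FormalMain.inE1_sub hC (Or.inr ?_) (Or.inr hlt)
      rw [xc_smul, H_val]; exact hlt
    · exact DirectComp.inE1_smul_sub_of_val_eq_one (shortW a b) hC σ H_in _ heq.symm
  have hD0 : σ • x - x = 0 := by
    refine tors _ hDE1 ?_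
    rw [smul_sub, ← gal_smul_zsmul, hx, gal_smul_zero, sub_zero]
  exact sub_eq_zero.mp hD0

/-- **Core theorem of S05**: inertia at an odd prime `q ≠ p` acts trivially on the `p`-torsion of
`Y² = X(X+α)(X+β)` when `q ∤ α`, `q ∤ α - β` and `p ∣ v_q(β)`. -/
theorem core [IsAlgClosed L] [Algebra.IsAlgebraic ℚ L] (A : ValuationSubring L) {q p : ℕ}
    (hq : q.Prime) (hq2 : q ≠ 2) (hqA : A.LiesOverPrime q) (hp : p.Prime) (hp2 : p ≠ 2)
    (hpq : p ≠ q) (α β : ℤ) (hα : ¬ (q : ℤ) ∣ α) (hαβ : ¬ (q : ℤ) ∣ α - β) (hβ0 : β ≠ 0) (m : ℕ)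
    (hβ : padicValInt q β = p * m) (σ : L ≃ₐ[ℚ] L) (hσ : σ ∈ A.inertiaSubgroupIn ℚ)
    (x : ((shortW (α + β : ℚ) (α * β : ℚ))⁄L).toAffine.Point) (hx : (p : ℤ) • x = 0) :
    σ • x = x := by
  have : CharZero L := algebraRat.charZero L
  have hcast : ∀ n : ℤ, algebraMap ℚ L (n : ℚ) = (n : L) := fun n => map_intCast _ n
  have h2 : A.valuation (2 : L) = 1 := by
    have h := valuation_natCast_eq_one_of_not_dvd A hq hqA (n := 2) (fun hdvd => hq2
      ((Nat.prime_dvd_prime_iff_eq hq Nat.prime_two).mp hdvd))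
    simpa using h
  have hC : Ctx A ((shortW (α + β : ℚ) (α * β : ℚ))⁄L) (algebraMap ℚ L (α : ℚ))
      (algebraMap ℚ L (β : ℚ)) := by
    refine ⟨isShort_shortW_baseChange _ _, ?_, ?_, h2, ?_, ?_, ?_, ?_⟩
    · rw [shortW_baseChange_a₂, map_add]
    · rw [shortW_baseChange_a₄, map_mul]
    · rw [hcast]; exact valuation_intCast_eq_one_of_not_dvd A hq hqA hα
    · rw [hcast]; exact valuation_intCast_le_one A β
    · rw [hcast]; exact Int.cast_ne_zero.mpr hβ0
    · rw [← map_sub, ← Int.cast_sub, hcast]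
      exact valuation_intCast_eq_one_of_not_dvd A hq hqA hαβ
  have hvp : A.valuation (p : L) = 1 :=
    valuation_natCast_eq_one_of_not_dvd A hq hqA (fun hdvd => hpq
      ((Nat.prime_dvd_prime_iff_eq hq hp).mp hdvd).symm)
  have hvb : A.valuation ((shortW (α + β : ℚ) (α * β : ℚ))⁄L).a₄ = A.valuation (q : L) ^ (p * m) := by
    rw [hC.val_b, hcast, valuation_intCast A hq hqA hβ0, hβ]
  exact core_of_ctx A _ _ hC hp hp2 m hvp hvb σ
    (valuation_apply_eq A (mem_decompositionSubgroup_of_mem_inertiaSubgroupIn A hσ))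
    (fun z hz => valuation_apply_sub_lt_one A hσ hz) x hx

end core

end Fermat.Agent.Unram
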