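import Mathlib
import Fermat.Agent.Unram.Setup

/-!
# S05 / (F): the kernel of reduction `E₁` of a short Weierstrass curve (valuation estimates)

`W : Y² = X³ + aX² + bX` over a field `L` with a valuation `v`, `a`, `b` integral.
`E₁ = {O} ∪ {(x, y) | v x > 1}`; for `P ∈ E₁` put `t(P) = x / y` (`t(O) = 0`).

* `FormalVal.estimates`: the valuation estimates of the Silverman–Tate argument;
* `FormalVal.key`: for `P₁ P₂ ∈ E₁` with `v t(P_i) ≤ ρ < 1`: `P₁ + P₂ ∈ E₁`, `v t(P₁+P₂) ≤ ρ` and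
  `v (t(P₁+P₂) - t(P₁) - t(P₂)) ≤ ρ³`;
* `FormalVal.E1`: `E₁` is a subgroup;
* `FormalVal.eq_zero_of_nsmul_eq_zero`: `E₁` has no `n`-torsion for `v n = 1`.
-/

set_option autoImplicit false
set_option linter.unusedSectionVars false

namespace Fermat.Agent.Unram.FormalVal

open WeierstrassCurve WeierstrassCurve.Affine WeierstrassCurve.Affine.Point

variable {L : Type*} [Field L] {Γ₀ : Type*} [LinearOrderedCommGroupWithZero Γ₀] (v : Valuation L Γ₀)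

theorem val_mul_le {x y : L} {g h : Γ₀} (hx : v x ≤ g) (hy : v y ≤ h) : v (x * y) ≤ g * h := by
  rw [map_mul]; exact mul_le_mul' hx hy

theorem val_pow_le {x : L} {g : Γ₀} (hx : v x ≤ g) (n : ℕ) : v (x ^ n) ≤ g ^ n := by
  rw [map_pow]; exact pow_le_pow_left' hx n

theorem val_two_le : v (2 : L) ≤ 1 := by
  rw [← one_add_one_eq_two]
  exact v.map_add_le (le_of_eq v.map_one) (le_of_eq v.map_one)

/-- **The valuation estimates of the Silverman–Tate argument.** -/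
theorem estimates {a b t₁ t₂ s₁ s₂ : L} {ρ : Γ₀} (ha : v a ≤ 1) (hb : v b ≤ 1) (hρ : ρ < 1)
    (ht₁ : v t₁ ≤ ρ) (ht₂ : v t₂ ≤ ρ) (hs₁ : v s₁ ≤ ρ ^ 3) (hs₂ : v s₂ ≤ ρ ^ 3)
    {Num D κ μ E : L}
    (hNum : Num = t₂ ^ 2 + t₁ * t₂ + t₁ ^ 2 + a * (t₁ + t₂) * s₂ + b * s₂ ^ 2)
    (hD : D = 1 - a * t₁ ^ 2 - b * t₁ * (s₁ + s₂))
    (hκ : κ = Num / D) (hμ : μ = s₁ - κ * t₁) (hE : E = 1 + a * κ + b * κ ^ 2) :
    v D = 1 ∧ v E = 1 ∧ v κ ≤ ρ ^ 2 ∧ v μ ≤ ρ ^ 3 ∧ v (μ * (a + 2 * b * κ) / E) ≤ ρ ^ 3 := by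
  have hρ1 : ρ ≤ 1 := hρ.le
  have hρ2 : ρ ^ 2 < 1 := pow_lt_one' hρ two_ne_zero
  have h32 : ρ ^ 3 ≤ ρ ^ 2 := pow_le_pow_right_of_le_one' hρ1 (by norm_num)
  have h31 : ρ ^ 3 ≤ ρ := by
    calc ρ ^ 3 ≤ ρ ^ 1 := pow_le_pow_right_of_le_one' hρ1 (by norm_num)
      _ = ρ := pow_one ρ
  have h21 : ρ ^ 2 ≤ ρ := by
    calc ρ ^ 2 ≤ ρ ^ 1 := pow_le_pow_right_of_le_one' hρ1 (by norm_num)
      _ = ρ := pow_one ρ
  -- `D` is a unit
  have hD1 : v D = 1 := by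
    have h1 : v (a * t₁ ^ 2) ≤ ρ ^ 2 := by
      calc v (a * t₁ ^ 2) ≤ 1 * ρ ^ 2 := val_mul_le v ha (val_pow_le v ht₁ 2)
        _ = ρ ^ 2 := one_mul _
    have h2 : v (b * t₁ * (s₁ + s₂)) ≤ ρ ^ 2 := by
      have : v (s₁ + s₂) ≤ ρ := v.map_add_le (hs₁.trans h31) (hs₂.trans h31)
      calc v (b * t₁ * (s₁ + s₂)) ≤ 1 * ρ * ρ := val_mul_le v (val_mul_le v hb ht₁) this
        _ = ρ ^ 2 := by rw [one_mul, pow_two]
    have h3 : v (a * t₁ ^ 2 + b * t₁ * (s₁ + s₂)) < 1 :=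
      lt_of_le_of_lt (v.map_add_le h1 h2) hρ2
    have : D = 1 - (a * t₁ ^ 2 + b * t₁ * (s₁ + s₂)) := by rw [hD]; ring
    rw [this]
    exact v.map_one_sub_of_lt h3
  -- `Num`
  have hNum2 : v Num ≤ ρ ^ 2 := by
    rw [hNum]
    refine v.map_add_le (v.map_add_le (v.map_add_le (v.map_add_le ?_ ?_) ?_) ?_) ?_
    · exact val_pow_le v ht₂ 2
    · calc v (t₁ * t₂) ≤ ρ * ρ := val_mul_le v ht₁ ht₂
        _ = ρ ^ 2 := (pow_two ρ).symm
    · exact val_pow_le v ht₁ 2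
    · have : v (t₁ + t₂) ≤ ρ := v.map_add_le ht₁ ht₂
      calc v (a * (t₁ + t₂) * s₂) ≤ 1 * ρ * ρ := val_mul_le v (val_mul_le v ha this) (hs₂.trans h31)
        _ = ρ ^ 2 := by rw [one_mul, pow_two]
    · calc v (b * s₂ ^ 2) ≤ 1 * ρ ^ 2 := val_mul_le v hb (val_pow_le v (hs₂.trans h31) 2)
        _ = ρ ^ 2 := one_mul _
  have hκ2 : v κ ≤ ρ ^ 2 := by
    rw [hκ, map_div₀, hD1, div_one]; exact hNum2
  have hμ3 : v μ ≤ ρ ^ 3 := by
    rw [hμ]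
    refine v.map_sub_le hs₁ ?_
    calc v (κ * t₁) ≤ ρ ^ 2 * ρ := val_mul_le v hκ2 ht₁
      _ = ρ ^ 3 := by rw [← pow_succ]
  have hE1 : v E = 1 := by
    have h1 : v (a * κ) ≤ ρ ^ 2 := by
      calc v (a * κ) ≤ 1 * ρ ^ 2 := val_mul_le v ha hκ2
        _ = ρ ^ 2 := one_mul _
    have h2 : v (b * κ ^ 2) ≤ ρ ^ 2 := by
      have : v (κ ^ 2) ≤ ρ ^ 2 := by
        calc v (κ ^ 2) ≤ (ρ ^ 2) ^ 2 := val_pow_le v hκ2 2
          _ ≤ (ρ ^ 2) ^ 1 := pow_le_pow_right_of_le_one' hρ2.le (by norm_num)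
          _ = ρ ^ 2 := pow_one _
      calc v (b * κ ^ 2) ≤ 1 * ρ ^ 2 := val_mul_le v hb this
        _ = ρ ^ 2 := one_mul _
    have h3 : v (a * κ + b * κ ^ 2) < 1 := lt_of_le_of_lt (v.map_add_le h1 h2) hρ2
    have : E = 1 + (a * κ + b * κ ^ 2) := by rw [hE]; ring
    rw [this]
    exact v.map_one_add_of_lt h3
  refine ⟨hD1, hE1, hκ2, hμ3, ?_⟩
  rw [map_div₀, hE1, div_one]
  have h4 : v (a + 2 * b * κ) ≤ 1 := by
    refine v.map_add_le ha ?_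
    calc v (2 * b * κ) ≤ 1 * 1 * 1 :=
          val_mul_le v (val_mul_le v (val_two_le v) hb) (hκ2.trans hρ2.le)
      _ = 1 := by simp
  calc v (μ * (a + 2 * b * κ)) ≤ ρ ^ 3 * 1 := val_mul_le v hμ3 h4
    _ = ρ ^ 3 := mul_one _


section Local

variable {a b x y : L}

/-- on `y² = x³ + a x² + b x` with `a`, `b` integral: `v x > 1` forces `v(y)² = v(x)³` -/
theorem val_y_sq (ha : v a ≤ 1) (hb : v b ≤ 1) (heq : y ^ 2 = x ^ 3 + a * x ^ 2 + b * x)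
    (hx : 1 < v x) : v y ^ 2 = v x ^ 3 := by
  have hx0 : (0 : Γ₀) < v x := lt_trans zero_lt_one hx
  have h1 : v (a * x ^ 2) < v (x ^ 3) := by
    rw [map_mul, map_pow, map_pow]
    calc v a * v x ^ 2 ≤ 1 * v x ^ 2 := mul_le_mul' ha le_rfl
      _ = v x ^ 2 := one_mul _
      _ < v x ^ 3 := pow_lt_pow_right₀ hx (by norm_num)
  have h2 : v (b * x) < v (x ^ 3) := by
    rw [map_mul, map_pow]
    calc v b * v x ≤ 1 * v x := mul_le_mul' hb le_rfl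
      _ = v x ^ 1 := by rw [one_mul, pow_one]
      _ < v x ^ 3 := pow_lt_pow_right₀ hx (by norm_num)
  have h3 : v (a * x ^ 2 + b * x) < v (x ^ 3) := v.map_add_lt h1 h2
  rw [← map_pow, heq, add_assoc, v.map_add_eq_of_lt_left h3, map_pow]

theorem one_lt_val_y (ha : v a ≤ 1) (hb : v b ≤ 1) (heq : y ^ 2 = x ^ 3 + a * x ^ 2 + b * x)
    (hx : 1 < v x) : 1 < v y := by
  by_contra h
  rw [not_lt] at h
  have h1 : v y ^ 2 ≤ 1 := pow_le_one' h 2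
  rw [val_y_sq v ha hb heq hx] at h1
  exact absurd (one_lt_pow₀ hx (by norm_num : 3 ≠ 0)) (not_lt.mpr h1)

theorem y_ne_zero (ha : v a ≤ 1) (hb : v b ≤ 1) (heq : y ^ 2 = x ^ 3 + a * x ^ 2 + b * x)
    (hx : 1 < v x) : y ≠ 0 := by
  intro h0
  have := one_lt_val_y v ha hb heq hx
  rw [h0, _root_.map_zero] at this
  exact absurd this (not_lt.mpr zero_le_one)

/-- `v(t)² v(x) = 1` for `t = x / y` -/
theorem val_t_sq_mul (ha : v a ≤ 1) (hb : v b ≤ 1) (heq : y ^ 2 = x ^ 3 + a * x ^ 2 + b * x)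
    (hx : 1 < v x) : v (x / y) ^ 2 * v x = 1 := by
  have hy0 : v y ≠ 0 := by
    rw [Ne, map_eq_zero]; exact y_ne_zero v ha hb heq hx
  rw [map_div₀, div_pow, val_y_sq v ha hb heq hx]
  have hx0 : v x ≠ 0 := (lt_trans zero_lt_one hx).ne'
  field_simp

theorem val_t_lt_one (ha : v a ≤ 1) (hb : v b ≤ 1) (heq : y ^ 2 = x ^ 3 + a * x ^ 2 + b * x)
    (hx : 1 < v x) : v (x / y) < 1 := by
  by_contra h
  rw [not_lt] at h
  have h1 : 1 ≤ v (x / y) ^ 2 := one_le_pow₀ h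
  have h2 := val_t_sq_mul v ha hb heq hx
  have : 1 < v (x / y) ^ 2 * v x := by
    calc 1 < v x := hx
      _ = 1 * v x := (one_mul _).symm
      _ ≤ v (x / y) ^ 2 * v x := mul_le_mul' h1 le_rfl
  rw [h2] at this
  exact lt_irrefl _ this

/-- `v(1/y) = v(t)³` -/
theorem val_s_eq (ha : v a ≤ 1) (hb : v b ≤ 1) (heq : y ^ 2 = x ^ 3 + a * x ^ 2 + b * x)
    (hx : 1 < v x) : v (1 / y) = v (x / y) ^ 3 := by
  have hy0 : v y ≠ 0 := by
    rw [Ne, map_eq_zero]; exact y_ne_zero v ha hb heq hx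
  have hx0 : v x ≠ 0 := (lt_trans zero_lt_one hx).ne'
  have h := val_y_sq v ha hb heq hx
  rw [map_div₀, map_div₀, map_one, div_pow, ← h]
  field_simp

/-- conversely: an affine point with `v (1 / y) < 1` has `v x > 1` -/
theorem one_lt_val_x_of_val_y (ha : v a ≤ 1) (hb : v b ≤ 1)
    (heq : y ^ 2 = x ^ 3 + a * x ^ 2 + b * x) (hy : 1 < v y) : 1 < v x := by
  by_contra h
  rw [not_lt] at h
  have h1 : v (y ^ 2) ≤ 1 := by
    rw [heq]
    refine v.map_add_le (v.map_add_le ?_ ?_) ?_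
    · rw [map_pow]; exact pow_le_one' h 3
    · rw [map_mul, map_pow]
      calc v a * v x ^ 2 ≤ 1 * 1 := mul_le_mul' ha (pow_le_one' h 2)
        _ = 1 := one_mul _
    · rw [map_mul]
      calc v b * v x ≤ 1 * 1 := mul_le_mul' hb h
        _ = 1 := one_mul _
  rw [map_pow] at h1
  exact absurd (one_lt_pow₀ hy (by norm_num : 2 ≠ 0)) (not_lt.mpr h1)

end Local


/-! ### Points -/

section Points

variable [DecidableEq L] {W : WeierstrassCurve L}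

/-- the local parameter `t = x / y` of a point (`0` at the point at infinity) -/
noncomputable def tc (P : W.toAffine.Point) : L := xc P / yc P

@[simp] theorem tc_zero : tc (0 : W.toAffine.Point) = 0 := by simp [tc]

theorem tc_some {x y : L} (h : W.toAffine.Nonsingular x y) : tc (Point.some x y h) = x / y := rfl

/-- membership in `E₁` for a general valuation -/
def InE1v (P : W.toAffine.Point) : Prop := P = 0 ∨ 1 < v (xc P)

theorem inE1_iff (A : ValuationSubring L) (P : W.toAffine.Point) :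
    InE1 A P ↔ InE1v A.valuation P := Iff.rfl

/-- **The algebraic input** (F-alg): the sum of two affine points in the coordinates
`t = x / y`, `s = 1 / y`. -/
def AlgInput (W : WeierstrassCurve L) : Prop :=
  ∀ {x₁ y₁ x₂ y₂ : L}, W.toAffine.Equation x₁ y₁ → W.toAffine.Equation x₂ y₂ → y₁ ≠ 0 → y₂ ≠ 0 →
    ¬ (x₁ = x₂ ∧ y₁ = W.toAffine.negY x₂ y₂) →
    ∀ {Num D κ μ E : L},
      Num = (x₂ / y₂) ^ 2 + (x₁ / y₁) * (x₂ / y₂) + (x₁ / y₁) ^ 2 +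
        W.a₂ * ((x₁ / y₁) + (x₂ / y₂)) * (1 / y₂) + W.a₄ * (1 / y₂) ^ 2 →
      D = 1 - W.a₂ * (x₁ / y₁) ^ 2 - W.a₄ * (x₁ / y₁) * (1 / y₁ + 1 / y₂) →
      κ = Num / D → μ = 1 / y₁ - κ * (x₁ / y₁) → E = 1 + W.a₂ * κ + W.a₄ * κ ^ 2 →
      D ≠ 0 → E ≠ 0 →
      W.toAffine.addY x₁ x₂ y₁ (W.toAffine.slope x₁ x₂ y₁ y₂) ≠ 0 ∧
      W.toAffine.addX x₁ x₂ (W.toAffine.slope x₁ x₂ y₁ y₂) /
          W.toAffine.addY x₁ x₂ y₁ (W.toAffine.slope x₁ x₂ y₁ y₂) - x₁ / y₁ - x₂ / y₂ =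
        μ * (W.a₂ + 2 * W.a₄ * κ) / E ∧
      1 / W.toAffine.addY x₁ x₂ y₁ (W.toAffine.slope x₁ x₂ y₁ y₂) =
        κ * (W.toAffine.addX x₁ x₂ (W.toAffine.slope x₁ x₂ y₁ y₂) /
          W.toAffine.addY x₁ x₂ y₁ (W.toAffine.slope x₁ x₂ y₁ y₂)) - μ

variable {v}

/-- **KEY** (Silverman–Tate): addition in `E₁` in terms of the parameter `t`. -/
theorem key (hW : IsShort W) (halg : AlgInput W) (ha : v W.a₂ ≤ 1) (hb : v W.a₄ ≤ 1)
    {P₁ P₂ : W.toAffine.Point} (h₁ : InE1v v P₁) (h₂ : InE1v v P₂) {ρ : Γ₀} (hρ : ρ < 1)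
    (ht₁ : v (tc P₁) ≤ ρ) (ht₂ : v (tc P₂) ≤ ρ) :
    InE1v v (P₁ + P₂) ∧ v (tc (P₁ + P₂)) ≤ ρ ∧ v (tc (P₁ + P₂) - tc P₁ - tc P₂) ≤ ρ ^ 3 := by
  cases P₁ with
  | zero =>
    have h0 : (Point.zero : W.toAffine.Point) = 0 := rfl
    rw [h0, zero_add]
    refine ⟨h₂, ht₂, ?_⟩
    simp
  | some x₁ y₁ hns₁ =>
  cases P₂ with
  | zero =>
    have h0 : (Point.zero : W.toAffine.Point) = 0 := rfl
    rw [h0, add_zero]
    refine ⟨h₁, ht₁, ?_⟩
    simp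
  | some x₂ y₂ hns₂ =>
  have hx₁ : 1 < v x₁ := by
    rcases h₁ with h | h
    · exact absurd h (by simp)
    · exact h
  have hx₂ : 1 < v x₂ := by
    rcases h₂ with h | h
    · exact absurd h (by simp)
    · exact h
  have heq₁ := (hW.equation_iff x₁ y₁).mp hns₁.1
  have heq₂ := (hW.equation_iff x₂ y₂).mp hns₂.1
  have hy₁ : y₁ ≠ 0 := y_ne_zero v ha hb heq₁ hx₁
  have hy₂ : y₂ ≠ 0 := y_ne_zero v ha hb heq₂ hx₂
  rw [tc_some] at ht₁ ht₂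
  by_cases hxy : x₁ = x₂ ∧ y₁ = W.toAffine.negY x₂ y₂
  · rw [Point.add_of_Y_eq hxy.1 hxy.2]
    refine ⟨Or.inl rfl, by simp, ?_⟩
    rw [tc_zero, tc_some, tc_some, hxy.1, hxy.2, hW.negY]
    have : (0 : L) - x₂ / -y₂ - x₂ / y₂ = 0 := by
      rw [div_neg]; ring
    rw [this, _root_.map_zero]
    exact zero_le
  · rw [Point.add_some hxy]
    have hs₁ : v (1 / y₁) ≤ ρ ^ 3 := by
      rw [val_s_eq v ha hb heq₁ hx₁]; exact pow_le_pow_left' ht₁ 3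
    have hs₂ : v (1 / y₂) ≤ ρ ^ 3 := by
      rw [val_s_eq v ha hb heq₂ hx₂]; exact pow_le_pow_left' ht₂ 3
    obtain ⟨hD1, hE1, hκ2, hμ3, hfin⟩ := estimates v ha hb hρ ht₁ ht₂ hs₁ hs₂ rfl rfl rfl rfl rfl
    have hD0 : (1 - W.a₂ * (x₁ / y₁) ^ 2 - W.a₄ * (x₁ / y₁) * (1 / y₁ + 1 / y₂)) ≠ 0 := by
      intro h0
      rw [h0, _root_.map_zero] at hD1
      exact zero_ne_one hD1
    obtain ⟨hA1, hA2, hA3⟩ := halg hns₁.1 hns₂.1 hy₁ hy₂ hxy rfl rfl rfl rfl rfl hD0 (by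
      intro h0
      rw [h0, _root_.map_zero] at hE1
      exact zero_ne_one hE1)
    set x₃ := W.toAffine.addX x₁ x₂ (W.toAffine.slope x₁ x₂ y₁ y₂) with hx₃
    set y₃ := W.toAffine.addY x₁ x₂ y₁ (W.toAffine.slope x₁ x₂ y₁ y₂) with hy₃
    have hρ3 : ρ ^ 3 < 1 := pow_lt_one' hρ (by norm_num)
    have h31 : ρ ^ 3 ≤ ρ := by
      calc ρ ^ 3 ≤ ρ ^ 1 := pow_le_pow_right_of_le_one' hρ.le (by norm_num)
        _ = ρ := pow_one ρ
    -- the difference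
    have hdiff : v (x₃ / y₃ - x₁ / y₁ - x₂ / y₂) ≤ ρ ^ 3 := by
      rw [hA2]; exact hfin
    have ht₃ : v (x₃ / y₃) ≤ ρ := by
      have : x₃ / y₃ = (x₃ / y₃ - x₁ / y₁ - x₂ / y₂) + x₁ / y₁ + x₂ / y₂ := by ring
      rw [this]
      exact v.map_add_le (v.map_add_le (hdiff.trans h31) ht₁) ht₂
    have hs₃ : v (1 / y₃) ≤ ρ ^ 3 := by
      rw [hA3]
      refine v.map_sub_le ?_ hμ3
      calc v (_ * (x₃ / y₃)) ≤ ρ ^ 2 * ρ := val_mul_le v hκ2 ht₃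
        _ = ρ ^ 3 := by rw [← pow_succ]
    have hvy₃ : 1 < v y₃ := by
      have hy0 : v y₃ ≠ 0 := by rwa [Ne, map_eq_zero]
      have h1 : v (1 / y₃) < 1 := lt_of_le_of_lt hs₃ hρ3
      rw [map_div₀, map_one, div_lt_one₀ (zero_lt_iff.mpr hy0)] at h1
      exact h1
    have hns₃ := Affine.nonsingular_add hns₁ hns₂ hxy
    have heq₃ := (hW.equation_iff x₃ y₃).mp hns₃.1
    refine ⟨Or.inr ?_, ?_, ?_⟩
    · rw [xc_some]
      exact one_lt_val_x_of_val_y v ha hb heq₃ hvy₃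
    · rw [tc_some]; exact ht₃
    · rw [tc_some, tc_some, tc_some]; exact hdiff

/-- the parameter of a point of `E₁` is topologically nilpotent -/
theorem val_tc_lt_one (hW : IsShort W) (ha : v W.a₂ ≤ 1) (hb : v W.a₄ ≤ 1)
    {P : W.toAffine.Point} (h : InE1v v P) : v (tc P) < 1 := by
  cases P with
  | zero =>
    have h0 : (Point.zero : W.toAffine.Point) = 0 := rfl
    rw [h0, tc_zero, _root_.map_zero]
    exact zero_lt_one
  | some x y hns =>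
    have hx : 1 < v x := by
      rcases h with h | h
      · exact absurd h (by simp)
      · exact h
    rw [tc_some]
    exact val_t_lt_one v ha hb ((hW.equation_iff x y).mp hns.1) hx

/-- the parameter of a nonzero point of `E₁` is nonzero -/
theorem tc_ne_zero (hW : IsShort W) (ha : v W.a₂ ≤ 1) (hb : v W.a₄ ≤ 1)
    {P : W.toAffine.Point} (h : InE1v v P) (hP : P ≠ 0) : tc P ≠ 0 := by
  cases P with
  | zero => exact absurd rfl hP
  | some x y hns =>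
    have hx : 1 < v x := by
      rcases h with h | h
      · exact absurd h (by simp)
      · exact h
    rw [tc_some]
    have hy : y ≠ 0 := y_ne_zero v ha hb ((hW.equation_iff x y).mp hns.1) hx
    have hx0 : x ≠ 0 := by
      intro h0
      rw [h0, _root_.map_zero] at hx
      exact absurd hx (not_lt.mpr zero_le_one)
    exact div_ne_zero hx0 hy

/-- **(F-sub)** `E₁` is closed under addition. -/
theorem inE1v_add (hW : IsShort W) (halg : AlgInput W) (ha : v W.a₂ ≤ 1) (hb : v W.a₄ ≤ 1)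
    {P₁ P₂ : W.toAffine.Point} (h₁ : InE1v v P₁) (h₂ : InE1v v P₂) : InE1v v (P₁ + P₂) :=
  (key hW halg ha hb h₁ h₂
    (max_lt (val_tc_lt_one hW ha hb h₁) (val_tc_lt_one hW ha hb h₂))
    (le_max_left _ _) (le_max_right _ _)).1

omit [DecidableEq L] in
theorem inE1v_neg {P : W.toAffine.Point} (h : InE1v v P) : InE1v v (-P) := by
  rcases h with h | h
  · left; rw [h]; exact Point.neg_zero
  · right; rwa [xc_neg]

variable (v) in
/-- **(F-sub)** the kernel of reduction as a subgroup -/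
def E1 (hW : IsShort W) (halg : AlgInput W) (ha : v W.a₂ ≤ 1) (hb : v W.a₄ ≤ 1) :
    AddSubgroup W.toAffine.Point where
  carrier := {P | InE1v v P}
  add_mem' := fun h₁ h₂ => inE1v_add hW halg ha hb h₁ h₂
  zero_mem' := Or.inl rfl
  neg_mem' := fun h => inE1v_neg h

theorem mem_E1_iff (hW : IsShort W) (halg : AlgInput W) (ha : v W.a₂ ≤ 1) (hb : v W.a₄ ≤ 1)
    (P : W.toAffine.Point) : P ∈ E1 v hW halg ha hb ↔ InE1v v P := Iff.rfl

/-- multiples of a point of `E₁`: `t (k P) ≡ k t(P)` modulo `ρ³`, `ρ = v t(P)` -/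
theorem nsmul_estimate (hW : IsShort W) (halg : AlgInput W) (ha : v W.a₂ ≤ 1) (hb : v W.a₄ ≤ 1)
    {P : W.toAffine.Point} (h : InE1v v P) (k : ℕ) :
    InE1v v (k • P) ∧ v (tc (k • P)) ≤ v (tc P) ∧
      v (tc (k • P) - (k : L) * tc P) ≤ v (tc P) ^ 3 := by
  induction k with
  | zero =>
    rw [zero_smul]
    refine ⟨Or.inl rfl, by simp, by simp⟩
  | succ k ih =>
    obtain ⟨ih1, ih2, ih3⟩ := ih
    rw [succ_nsmul]
    obtain ⟨h1, h2, h3⟩ := key hW halg ha hb ih1 h (val_tc_lt_one hW ha hb h) ih2 le_rfl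
    refine ⟨h1, h2, ?_⟩
    have : tc (k • P + P) - ((k + 1 : ℕ) : L) * tc P =
        (tc (k • P + P) - tc (k • P) - tc P) + (tc (k • P) - (k : L) * tc P) := by
      push_cast; ring
    rw [this]
    exact v.map_add_le h3 ih3

/-- **(F-tors)** `E₁` has no `n`-torsion when `n` is a unit. -/
theorem eq_zero_of_nsmul_eq_zero (hW : IsShort W) (halg : AlgInput W) (ha : v W.a₂ ≤ 1)
    (hb : v W.a₄ ≤ 1) {P : W.toAffine.Point} (h : InE1v v P) {n : ℕ} (hvn : v (n : L) = 1)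
    (hnP : n • P = 0) : P = 0 := by
  by_contra hP
  have ht0 : tc P ≠ 0 := tc_ne_zero hW ha hb h hP
  have hρ0 : 0 < v (tc P) := by
    rw [zero_lt_iff, Ne, map_eq_zero]; exact ht0
  have hρ1 : v (tc P) < 1 := val_tc_lt_one hW ha hb h
  obtain ⟨-, -, h3⟩ := nsmul_estimate hW halg ha hb h n
  rw [hnP, tc_zero, zero_sub, Valuation.map_neg, map_mul, hvn, one_mul] at h3
  exact absurd (pow_lt_self_of_lt_one₀ hρ0 hρ1 (by norm_num)) (not_lt.mpr h3)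

end Points

/-! ### Specialisation to a valuation subring (names of `Unram/Setup.lean`) -/

section Subring

variable [DecidableEq L] {W : WeierstrassCurve L} (A : ValuationSubring L)

/-- **KEY** for `A.valuation`. -/
theorem key' (hW : IsShort W) (halg : AlgInput W) (ha : A.valuation W.a₂ ≤ 1)
    (hb : A.valuation W.a₄ ≤ 1) {P₁ P₂ : W.toAffine.Point} (h₁ : InE1 A P₁) (h₂ : InE1 A P₂)
    {ρ : A.ValueGroup} (hρ : ρ < 1) (ht₁ : A.valuation (tc P₁) ≤ ρ)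
    (ht₂ : A.valuation (tc P₂) ≤ ρ) :
    InE1 A (P₁ + P₂) ∧ A.valuation (tc (P₁ + P₂)) ≤ ρ ∧
      A.valuation (tc (P₁ + P₂) - tc P₁ - tc P₂) ≤ ρ ^ 3 :=
  key hW halg ha hb h₁ h₂ hρ ht₁ ht₂

/-- **(F-sub)** -/
theorem inE1_add (hW : IsShort W) (halg : AlgInput W) (ha : A.valuation W.a₂ ≤ 1)
    (hb : A.valuation W.a₄ ≤ 1) {P₁ P₂ : W.toAffine.Point} (h₁ : InE1 A P₁) (h₂ : InE1 A P₂) :
    InE1 A (P₁ + P₂) :=
  inE1v_add hW halg ha hb h₁ h₂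

theorem inE1_neg {P : W.toAffine.Point} (h : InE1 A P) : InE1 A (-P) := inE1v_neg h

theorem inE1_sub (hW : IsShort W) (halg : AlgInput W) (ha : A.valuation W.a₂ ≤ 1)
    (hb : A.valuation W.a₄ ≤ 1) {P₁ P₂ : W.toAffine.Point} (h₁ : InE1 A P₁) (h₂ : InE1 A P₂) :
    InE1 A (P₁ - P₂) := by
  rw [sub_eq_add_neg]
  exact inE1_add A hW halg ha hb h₁ (inE1_neg A h₂)

/-- **(F-tors)** for `A.valuation`. -/
theorem eq_zero_of_inE1_of_nsmul_eq_zero (hW : IsShort W) (halg : AlgInput W)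
    (ha : A.valuation W.a₂ ≤ 1) (hb : A.valuation W.a₄ ≤ 1) {P : W.toAffine.Point}
    (h : InE1 A P) {n : ℕ} (hvn : A.valuation (n : L) = 1) (hnP : n • P = 0) : P = 0 :=
  eq_zero_of_nsmul_eq_zero hW halg ha hb h hvn hnP

end Subring

end Fermat.Agent.Unram.FormalVal
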