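/-
S05 package M1: the map on points induced by an admissible change of variables
`(x, y) ↦ (u²x + r, u³y + u²sx + t)`: it is an injective group homomorphism
`(C • W).Point →+ W.Point`, compatible with the Galois action on base changed curves.
-/
import Mathlib
import Fermat.Agent.Unram.Setup

set_option autoImplicit false

namespace Fermat.Agent.Unram.VarChange

open WeierstrassCurve WeierstrassCurve.Affine

section generic

variable {F : Type*} [Field F] (W : WeierstrassCurve F) (C : VariableChange F)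

/-- The `x`-coordinate of the image point: `u²x + r`. -/
def mx (x : F) : F := (C.u : F) ^ 2 * x + C.r

/-- The `y`-coordinate of the image point: `u³y + u²sx + t`. -/
def my (x y : F) : F := (C.u : F) ^ 3 * y + (C.u : F) ^ 2 * C.s * x + C.t

lemma u_ne_zero : (C.u : F) ≠ 0 := C.u.ne_zero

lemma mx_injective : Function.Injective (mx C) := by
  intro x x' h
  have hu := u_ne_zero C
  simp only [mx] at h
  have h2 : (C.u : F) ^ 2 * x = (C.u : F) ^ 2 * x' := by linear_combination h
  exact mul_left_cancel₀ (pow_ne_zero 2 hu) h2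

lemma my_injective (x : F) : Function.Injective (my C x) := by
  intro y y' h
  have hu := u_ne_zero C
  simp only [my] at h
  have h2 : (C.u : F) ^ 3 * y = (C.u : F) ^ 3 * y' := by linear_combination h
  exact mul_left_cancel₀ (pow_ne_zero 3 hu) h2

/-- The Weierstrass polynomial transforms by the factor `u⁶`. -/
lemma equation_iff (x y : F) :
    (C • W).toAffine.Equation x y ↔ W.toAffine.Equation (mx C x) (my C x y) := by
  have hu := u_ne_zero C
  rw [Affine.equation_iff', Affine.equation_iff']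
  simp only [variableChange_a₁, variableChange_a₂, variableChange_a₃, variableChange_a₄,
    variableChange_a₆, Units.val_inv_eq_inv_val, mx, my]
  set u : F := (C.u : F) with hu_def
  have key : (my C x y) ^ 2 + W.a₁ * (mx C x) * (my C x y) + W.a₃ * (my C x y)
      - ((mx C x) ^ 3 + W.a₂ * (mx C x) ^ 2 + W.a₄ * (mx C x) + W.a₆)
      = u ^ 6 * (y ^ 2 + u⁻¹ * (W.a₁ + 2 * C.s) * x * y
        + u⁻¹ ^ 3 * (W.a₃ + C.r * W.a₁ + 2 * C.t) * y
        - (x ^ 3 + u⁻¹ ^ 2 * (W.a₂ - C.s * W.a₁ + 3 * C.r - C.s ^ 2) * x ^ 2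
          + u⁻¹ ^ 4 * (W.a₄ - C.s * W.a₃ + 2 * C.r * W.a₂ - (C.t + C.r * C.s) * W.a₁
            + 3 * C.r ^ 2 - 2 * C.s * C.t) * x
          + u⁻¹ ^ 6 * (W.a₆ + C.r * W.a₄ + C.r ^ 2 * W.a₂ + C.r ^ 3 - C.t * W.a₃ - C.t ^ 2
            - C.r * C.t * W.a₁))) := by
    simp only [mx, my, ← hu_def]
    field_simp
    ring
  simp only [mx, my, ← hu_def] at key
  rw [key, mul_eq_zero]
  constructor
  · intro h
    exact Or.inr h
  · rintro (h | h)
    · exact absurd h (pow_ne_zero 6 hu)
    · exact h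

lemma nonsingular_iff (x y : F) :
    (C • W).toAffine.Nonsingular x y ↔ W.toAffine.Nonsingular (mx C x) (my C x y) := by
  have hu := u_ne_zero C
  rw [Affine.nonsingular_iff', Affine.nonsingular_iff', equation_iff]
  refine and_congr_right fun _ => ?_
  simp only [variableChange_a₁, variableChange_a₂, variableChange_a₃, variableChange_a₄,
    Units.val_inv_eq_inv_val]
  set u : F := (C.u : F) with hu_def
  -- partial derivatives
  have hY : 2 * my C x y + W.a₁ * mx C x + W.a₃
      = u ^ 3 * (2 * y + u⁻¹ * (W.a₁ + 2 * C.s) * x + u⁻¹ ^ 3 * (W.a₃ + C.r * W.a₁ + 2 * C.t)) := by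
    simp only [mx, my, ← hu_def]
    field_simp
    ring
  have hX : W.a₁ * my C x y - (3 * mx C x ^ 2 + 2 * W.a₂ * mx C x + W.a₄)
      = u ^ 4 * (u⁻¹ * (W.a₁ + 2 * C.s) * y
          - (3 * x ^ 2 + 2 * (u⁻¹ ^ 2 * (W.a₂ - C.s * W.a₁ + 3 * C.r - C.s ^ 2)) * x
            + u⁻¹ ^ 4 * (W.a₄ - C.s * W.a₃ + 2 * C.r * W.a₂ - (C.t + C.r * C.s) * W.a₁
              + 3 * C.r ^ 2 - 2 * C.s * C.t)))
        - C.s * (2 * my C x y + W.a₁ * mx C x + W.a₃) := by
    simp only [mx, my, ← hu_def]
    field_simp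
    ring
  rw [hX, hY]
  set PX := u⁻¹ * (W.a₁ + 2 * C.s) * y
          - (3 * x ^ 2 + 2 * (u⁻¹ ^ 2 * (W.a₂ - C.s * W.a₁ + 3 * C.r - C.s ^ 2)) * x
            + u⁻¹ ^ 4 * (W.a₄ - C.s * W.a₃ + 2 * C.r * W.a₂ - (C.t + C.r * C.s) * W.a₁
              + 3 * C.r ^ 2 - 2 * C.s * C.t)) with hPX
  set PY := 2 * y + u⁻¹ * (W.a₁ + 2 * C.s) * x + u⁻¹ ^ 3 * (W.a₃ + C.r * W.a₁ + 2 * C.t) with hPY
  constructor
  · rintro (h | h)
    · by_cases hPY0 : PY = 0
      · left
        rw [hPY0, mul_zero, mul_zero, sub_zero]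
        exact mul_ne_zero (pow_ne_zero 4 hu) h
      · right
        exact mul_ne_zero (pow_ne_zero 3 hu) hPY0
    · right
      exact mul_ne_zero (pow_ne_zero 3 hu) h
  · rintro (h | h)
    · by_cases hPY0 : PY = 0
      · left
        rw [hPY0, mul_zero, mul_zero, sub_zero] at h
        exact right_ne_zero_of_mul h
      · right
        exact hPY0
    · right
      exact right_ne_zero_of_mul h

lemma negY_eq (x y : F) :
    W.toAffine.negY (mx C x) (my C x y) = my C x ((C • W).toAffine.negY x y) := by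
  have hu := u_ne_zero C
  simp only [Affine.negY, variableChange_a₁, variableChange_a₃, Units.val_inv_eq_inv_val, mx, my]
  field_simp
  ring

lemma addX_eq (x₁ x₂ ℓ : F) :
    W.toAffine.addX (mx C x₁) (mx C x₂) ((C.u : F) * ℓ + C.s)
      = mx C ((C • W).toAffine.addX x₁ x₂ ℓ) := by
  have hu := u_ne_zero C
  simp only [Affine.addX, variableChange_a₁, variableChange_a₂, Units.val_inv_eq_inv_val, mx]
  field_simp
  ring

lemma negAddY_eq (x₁ x₂ y₁ ℓ : F) :
    W.toAffine.negAddY (mx C x₁) (mx C x₂) (my C x₁ y₁) ((C.u : F) * ℓ + C.s)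
      = my C ((C • W).toAffine.addX x₁ x₂ ℓ) ((C • W).toAffine.negAddY x₁ x₂ y₁ ℓ) := by
  have hu := u_ne_zero C
  simp only [Affine.negAddY, Affine.addX, variableChange_a₁, variableChange_a₂,
    Units.val_inv_eq_inv_val, mx, my]
  field_simp
  ring

lemma addY_eq (x₁ x₂ y₁ ℓ : F) :
    W.toAffine.addY (mx C x₁) (mx C x₂) (my C x₁ y₁) ((C.u : F) * ℓ + C.s)
      = my C ((C • W).toAffine.addX x₁ x₂ ℓ) ((C • W).toAffine.addY x₁ x₂ y₁ ℓ) := by
  rw [Affine.addY, Affine.addY, negAddY_eq, addX_eq, negY_eq]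

variable [DecidableEq F]

lemma slope_eq {x₁ x₂ y₁ y₂ : F} (h₁ : (C • W).toAffine.Equation x₁ y₁)
    (h₂ : (C • W).toAffine.Equation x₂ y₂)
    (hxy : ¬(x₁ = x₂ ∧ y₁ = (C • W).toAffine.negY x₂ y₂)) :
    W.toAffine.slope (mx C x₁) (mx C x₂) (my C x₁ y₁) (my C x₂ y₂)
      = (C.u : F) * (C • W).toAffine.slope x₁ x₂ y₁ y₂ + C.s := by
  have hu := u_ne_zero C
  by_cases hx : x₁ = x₂
  · have hy : y₁ ≠ (C • W).toAffine.negY x₂ y₂ := fun h => hxy ⟨hx, h⟩
    have hyy : y₁ = y₂ := Affine.Y_eq_of_Y_ne h₁ h₂ hx hy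
    subst hx hyy
    have hy' : my C x₁ y₁ ≠ W.toAffine.negY (mx C x₁) (my C x₁ y₁) := by
      rw [negY_eq]
      exact fun h => hy (my_injective C x₁ h)
    rw [Affine.slope_of_Y_ne rfl hy', Affine.slope_of_Y_ne rfl hy]
    have hd : y₁ - (C • W).toAffine.negY x₁ y₁ ≠ 0 := sub_ne_zero.mpr hy
    have hd' : my C x₁ y₁ - W.toAffine.negY (mx C x₁) (my C x₁ y₁) ≠ 0 := sub_ne_zero.mpr hy'
    have hdd : my C x₁ y₁ - W.toAffine.negY (mx C x₁) (my C x₁ y₁)
        = (C.u : F) ^ 3 * (y₁ - (C • W).toAffine.negY x₁ y₁) := by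
      rw [negY_eq]
      simp only [my]
      ring
    have hN : 3 * mx C x₁ ^ 2 + 2 * W.toAffine.a₂ * mx C x₁ + W.toAffine.a₄
          - W.toAffine.a₁ * my C x₁ y₁
        = (C.u : F) ^ 4 * (3 * x₁ ^ 2 + 2 * (C • W).toAffine.a₂ * x₁ + (C • W).toAffine.a₄
            - (C • W).toAffine.a₁ * y₁)
          + C.s * ((C.u : F) ^ 3 * (y₁ - (C • W).toAffine.negY x₁ y₁)) := by
      simp only [Affine.negY, variableChange_a₁, variableChange_a₂, variableChange_a₃,
        variableChange_a₄, Units.val_inv_eq_inv_val, mx, my]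
      field_simp
      ring
    rw [hdd, hN]
    field_simp
  · have hx' : mx C x₁ ≠ mx C x₂ := fun h => hx (mx_injective C h)
    rw [Affine.slope_of_X_ne hx', Affine.slope_of_X_ne hx]
    have hd : x₁ - x₂ ≠ 0 := sub_ne_zero.mpr hx
    have hd' : mx C x₁ - mx C x₂ ≠ 0 := sub_ne_zero.mpr hx'
    rw [div_eq_iff hd']
    have hdd : mx C x₁ - mx C x₂ = (C.u : F) ^ 2 * (x₁ - x₂) := by
      simp only [mx]
      ring
    rw [hdd, add_mul, mul_assoc, ← mul_assoc _ ((C.u : F) ^ 2), mul_comm _ ((C.u : F) ^ 2),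
      mul_assoc ((C.u : F) ^ 2), div_mul_cancel₀ _ hd]
    simp only [my]
    ring

end generic

section pointHom

variable {F : Type*} [Field F] {W₁ W₂ : WeierstrassCurve F} {C : VariableChange F}

/-- The map on points `(x, y) ↦ (u²x + r, u³y + u²sx + t)` from `W₁ = C • W₂` to `W₂`. -/
def pointFun (h : W₁ = C • W₂) : W₁.toAffine.Point → W₂.toAffine.Point
  | .zero => .zero
  | .some x y hns => .some (mx C x) (my C x y) ((nonsingular_iff W₂ C x y).mp (h ▸ hns))

@[simp] lemma pointFun_zero (h : W₁ = C • W₂) : pointFun h (0 : W₁.toAffine.Point) = 0 := rfl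

lemma pointFun_some (h : W₁ = C • W₂) {x y : F} (hns : W₁.toAffine.Nonsingular x y) :
    pointFun h (Point.some x y hns)
      = Point.some (mx C x) (my C x y) ((nonsingular_iff W₂ C x y).mp (h ▸ hns)) := rfl

lemma pointFun_injective (h : W₁ = C • W₂) : Function.Injective (pointFun h) := by
  rintro (_ | ⟨x, y, hns⟩) (_ | ⟨x', y', hns'⟩) hPQ
  · rfl
  · exact absurd hPQ (by simp [pointFun])
  · exact absurd hPQ (by simp [pointFun])
  · simp only [pointFun, Point.some.injEq] at hPQ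
    obtain ⟨hx, hy⟩ := hPQ
    have hx' : x = x' := mx_injective C hx
    subst hx'
    have hy' : y = y' := my_injective C x hy
    subst hy'
    rfl

lemma pointFun_eq_zero_iff (h : W₁ = C • W₂) (P : W₁.toAffine.Point) :
    pointFun h P = 0 ↔ P = 0 := by
  constructor
  · intro hP
    exact pointFun_injective h (hP.trans (pointFun_zero h).symm)
  · rintro rfl
    rfl

lemma xc_pointFun (h : W₁ = C • W₂) {P : W₁.toAffine.Point} (hP : P ≠ 0) :
    xc (pointFun h P) = (C.u : F) ^ 2 * xc P + C.r := by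
  cases P with
  | zero => exact absurd rfl hP
  | some x y hns => rfl

lemma yc_pointFun (h : W₁ = C • W₂) {P : W₁.toAffine.Point} (hP : P ≠ 0) :
    yc (pointFun h P) = (C.u : F) ^ 3 * yc P + (C.u : F) ^ 2 * C.s * xc P + C.t := by
  cases P with
  | zero => exact absurd rfl hP
  | some x y hns => rfl

variable [DecidableEq F]

lemma pointFun_add (h : W₁ = C • W₂) (P Q : W₁.toAffine.Point) :
    pointFun h (P + Q) = pointFun h P + pointFun h Q := by
  subst h
  rcases P with _ | ⟨x₁, y₁, h₁⟩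
  · rw [show (Point.zero : (C • W₂).toAffine.Point) = 0 from rfl, zero_add, pointFun_zero, zero_add]
  rcases Q with _ | ⟨x₂, y₂, h₂⟩
  · rw [show (Point.zero : (C • W₂).toAffine.Point) = 0 from rfl, add_zero, pointFun_zero, add_zero]
  by_cases hxy : x₁ = x₂ ∧ y₁ = (C • W₂).toAffine.negY x₂ y₂
  · rw [Point.add_of_Y_eq hxy.1 hxy.2, pointFun_zero, pointFun_some, pointFun_some,
      Point.add_of_Y_eq (by rw [hxy.1]) (by rw [hxy.2, negY_eq, hxy.1])]
  · have hxy' : ¬(mx C x₁ = mx C x₂ ∧ my C x₁ y₁ = W₂.toAffine.negY (mx C x₂) (my C x₂ y₂)) := by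
      rintro ⟨hx, hy⟩
      have hx' : x₁ = x₂ := mx_injective C hx
      subst hx'
      rw [negY_eq] at hy
      exact hxy ⟨rfl, my_injective C x₁ hy⟩
    rw [Point.add_some hxy, pointFun_some, pointFun_some, pointFun_some, Point.add_some hxy']
    have hs := slope_eq W₂ C h₁.1 h₂.1 hxy
    simp only [Point.some.injEq]
    constructor
    · rw [hs, addX_eq]
    · rw [hs, addY_eq]

/-- **The group homomorphism on points induced by a change of variables.** -/
noncomputable def pointHom (h : W₁ = C • W₂) : W₁.toAffine.Point →+ W₂.toAffine.Point where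
  toFun := pointFun h
  map_zero' := rfl
  map_add' := pointFun_add h

@[simp] lemma pointHom_apply (h : W₁ = C • W₂) (P : W₁.toAffine.Point) :
    pointHom h P = pointFun h P := rfl

lemma pointHom_some (h : W₁ = C • W₂) {x y : F} (hns : W₁.toAffine.Nonsingular x y) :
    pointHom h (Point.some x y hns)
      = Point.some (mx C x) (my C x y) ((nonsingular_iff W₂ C x y).mp (h ▸ hns)) := rfl

lemma pointHom_injective (h : W₁ = C • W₂) : Function.Injective (pointHom h) :=
  pointFun_injective h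

lemma xc_pointHom (h : W₁ = C • W₂) {P : W₁.toAffine.Point} (hP : P ≠ 0) :
    xc (pointHom h P) = (C.u : F) ^ 2 * xc P + C.r := xc_pointFun h hP

lemma yc_pointHom (h : W₁ = C • W₂) {P : W₁.toAffine.Point} (hP : P ≠ 0) :
    yc (pointHom h P) = (C.u : F) ^ 3 * yc P + (C.u : F) ^ 2 * C.s * xc P + C.t :=
  yc_pointFun h hP

end pointHom

section galois

variable {K : Type*} [Field K] {L : Type*} [Field L] [DecidableEq L] [Algebra K L]
  {W₁ W₂ : WeierstrassCurve K} {C : VariableChange K}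

omit [DecidableEq L] in
lemma baseChange_eq (h : W₁ = C • W₂) :
    (W₁⁄L) = (C.map (algebraMap K L)) • (W₂⁄L) := by
  rw [h]
  exact (map_variableChange W₂ C (algebraMap K L)).symm

/-- **The group homomorphism on `L`-points induced by a change of variables over `K`**:
`(x, y) ↦ (u²x + r, u³y + u²sx + t)` from `W₁ = C • W₂` to `W₂`. -/
noncomputable def pointHomBC (h : W₁ = C • W₂) :
    (W₁⁄L).toAffine.Point →+ (W₂⁄L).toAffine.Point :=
  pointHom (baseChange_eq (L := L) h)

lemma pointHomBC_injective (h : W₁ = C • W₂) :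
    Function.Injective (pointHomBC (L := L) h) :=
  pointHom_injective _

lemma pointHomBC_eq_zero_iff (h : W₁ = C • W₂) (P : (W₁⁄L).toAffine.Point) :
    pointHomBC h P = 0 ↔ P = 0 :=
  pointFun_eq_zero_iff (baseChange_eq (L := L) h) P

lemma xc_pointHomBC (h : W₁ = C • W₂) {P : (W₁⁄L).toAffine.Point} (hP : P ≠ 0) :
    xc (pointHomBC h P)
      = algebraMap K L (C.u : K) ^ 2 * xc P + algebraMap K L C.r :=
  xc_pointFun (baseChange_eq (L := L) h) hP

lemma yc_pointHomBC (h : W₁ = C • W₂) {P : (W₁⁄L).toAffine.Point} (hP : P ≠ 0) :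
    yc (pointHomBC h P)
      = algebraMap K L (C.u : K) ^ 3 * yc P
        + algebraMap K L (C.u : K) ^ 2 * algebraMap K L C.s * xc P + algebraMap K L C.t :=
  yc_pointFun (baseChange_eq (L := L) h) hP

/-- The change of variables commutes with the Galois action. -/
lemma pointHomBC_smul (h : W₁ = C • W₂) (σ : L ≃ₐ[K] L) (P : (W₁⁄L).toAffine.Point) :
    pointHomBC h (σ • P) = σ • pointHomBC h P := by
  by_cases hP : P = 0
  · subst hP
    rw [smul_zero, map_zero, smul_zero]
  have hσP : σ • P ≠ 0 := fun h0 => hP ((smul_eq_zero_iff W₁ σ P).mp h0)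
  have h1 : pointHomBC h P ≠ 0 := fun h0 => hP ((pointHomBC_eq_zero_iff h P).mp h0)
  have h2 : pointHomBC h (σ • P) ≠ 0 := fun h0 => hσP ((pointHomBC_eq_zero_iff h _).mp h0)
  have h3 : σ • pointHomBC h P ≠ 0 := fun h0 => h1 ((smul_eq_zero_iff W₂ σ _).mp h0)
  apply point_ext h2 h3
  · rw [xc_pointHomBC h hσP, xc_smul, xc_smul, xc_pointHomBC h hP]
    simp only [map_add, map_mul, map_pow, AlgEquiv.commutes]
  · rw [yc_pointHomBC h hσP, xc_smul, yc_smul, yc_smul, yc_pointHomBC h hP]
    simp only [map_add, map_mul, map_pow, AlgEquiv.commutes]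

end galois

section concrete

variable {K : Type*} [Field K]

/-- The Frey-type curve `y² + xy = x³ + ((B-1-A)/4)x² - (AB/16)x` is the change of variables
`(x, y) ↦ (4x, 8y + 4x)` of `Y² = X³ + (B-A)X² - ABX = X(X-A)(X+B)`. -/
lemma frey_eq_smul_short (h2 : (2 : K) ≠ 0) (A B : K) :
    (⟨1, (B - 1 - A) / 4, 0, -A * B / 16, 0⟩ : WeierstrassCurve K)
      = (⟨Units.mk0 2 h2, 0, 1, 0⟩ : VariableChange K) • shortW (B - A) (-A * B) := by
  have h4 : (4 : K) ≠ 0 := by
    have : (4 : K) = 2 * 2 := by norm_num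
    rw [this]; exact mul_ne_zero h2 h2
  have h16 : (16 : K) ≠ 0 := by
    have : (16 : K) = 4 * 4 := by norm_num
    rw [this]; exact mul_ne_zero h4 h4
  ext
  · simp only [variableChange_a₁, shortW_a₁, Units.val_inv_eq_inv_val, Units.val_mk0]
    field_simp
    ring
  · simp only [variableChange_a₂, shortW_a₁, shortW_a₂, Units.val_inv_eq_inv_val, Units.val_mk0]
    field_simp
    ring
  · simp only [variableChange_a₃, shortW_a₁, shortW_a₃, Units.val_inv_eq_inv_val, Units.val_mk0]
    ring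
  · simp only [variableChange_a₄, shortW_a₁, shortW_a₂, shortW_a₃, shortW_a₄,
      Units.val_inv_eq_inv_val, Units.val_mk0]
    field_simp
    ring
  · simp only [variableChange_a₆, shortW_a₁, shortW_a₂, shortW_a₃, shortW_a₄, shortW_a₆,
      Units.val_inv_eq_inv_val, Units.val_mk0]
    ring

/-- `Y² = X(X-A)(X+B)` is the translate `(X, Y) ↦ (X - A, Y)` of `Y² = X(X+A)(X+A+B)`. -/
lemma short_eq_smul_short_translate (A B : K) :
    shortW (B - A) (-A * B)
      = (⟨1, -A, 0, 0⟩ : VariableChange K) • shortW (2 * A + B) (A * (A + B)) := by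
  ext
  · simp only [variableChange_a₁, shortW_a₁, inv_one, Units.val_one]
    ring
  · simp only [variableChange_a₂, shortW_a₁, shortW_a₂, inv_one, Units.val_one]
    ring
  · simp only [variableChange_a₃, shortW_a₁, shortW_a₃, inv_one, Units.val_one]
    ring
  · simp only [variableChange_a₄, shortW_a₁, shortW_a₂, shortW_a₃, shortW_a₄, inv_one,
      Units.val_one]
    ring
  · simp only [variableChange_a₆, shortW_a₁, shortW_a₂, shortW_a₃, shortW_a₄, shortW_a₆, inv_one,
      Units.val_one]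
    ring

end concrete

end Fermat.Agent.Unram.VarChange
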