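/-
S05 package M2 (maps part): the Galois-equivariant injective homomorphisms from the Frey curve to the
short models `Y² = X(X+α)(X+β)` for the three choices of `(α, β)`.
-/
import Mathlib
import Fermat.Agent.Unram.VarChange
import Fermat.Prelude.Def_FLTPrelim_FreyPackage

set_option autoImplicit false

namespace Fermat.Agent.Unram.FreyMaps

open WeierstrassCurve WeierstrassCurve.Affine Fermat.Agent.Unram Fermat.Agent.Unram.VarChange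

variable {L : Type*} [Field L] [DecidableEq L] [Algebra ℚ L]

/-- The Frey curve is the change of variables `(x, y) ↦ (4x, 8y + 4x)` of
`Y² = X(X - a^p)(X + b^p)`. -/
lemma freyCurve_eq (P : FreyPackage) :
    P.freyCurve = (⟨Units.mk0 2 two_ne_zero, 0, 1, 0⟩ : VariableChange ℚ) •
      shortW ((P.b : ℚ) ^ P.p - (P.a : ℚ) ^ P.p) (-((P.a : ℚ) ^ P.p) * (P.b : ℚ) ^ P.p) :=
  frey_eq_smul_short two_ne_zero ((P.a : ℚ) ^ P.p) ((P.b : ℚ) ^ P.p)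

/-- Cases `q ∣ a`, `q ∣ b`, `q ∤ abc`: `{α, β} = {b^p, -a^p}`. -/
theorem exists_phi_ab (P : FreyPackage) {α β : ℤ}
    (h : (α = P.b ^ P.p ∧ β = -P.a ^ P.p) ∨ (α = -P.a ^ P.p ∧ β = P.b ^ P.p)) :
    ∃ φ : (P.freyCurve⁄L).Point →+ ((shortW ((α : ℚ) + β) ((α : ℚ) * β))⁄L).toAffine.Point,
      Function.Injective φ ∧ ∀ (σ : L ≃ₐ[ℚ] L) (x : (P.freyCurve⁄L).Point), φ (σ • x) = σ • φ x := by
  have hW : shortW ((α : ℚ) + β) ((α : ℚ) * β)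
      = shortW ((P.b : ℚ) ^ P.p - (P.a : ℚ) ^ P.p) (-((P.a : ℚ) ^ P.p) * (P.b : ℚ) ^ P.p) := by
    rcases h with ⟨rfl, rfl⟩ | ⟨rfl, rfl⟩
    · congr 1 <;> push_cast <;> ring
    · congr 1 <;> push_cast <;> ring
  have hE : P.freyCurve = (⟨Units.mk0 2 two_ne_zero, 0, 1, 0⟩ : VariableChange ℚ) •
      shortW ((α : ℚ) + β) ((α : ℚ) * β) := by
    rw [hW]
    exact freyCurve_eq P
  exact ⟨pointHomBC hE, pointHomBC_injective hE, fun σ x => pointHomBC_smul hE σ x⟩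

/-- Case `q ∣ c`: `(α, β) = (a^p, c^p)`. -/
theorem exists_phi_c (P : FreyPackage) {α β : ℤ} (h : α = P.a ^ P.p ∧ β = P.c ^ P.p) :
    ∃ φ : (P.freyCurve⁄L).Point →+ ((shortW ((α : ℚ) + β) ((α : ℚ) * β))⁄L).toAffine.Point,
      Function.Injective φ ∧ ∀ (σ : L ≃ₐ[ℚ] L) (x : (P.freyCurve⁄L).Point), φ (σ • x) = σ • φ x := by
  obtain ⟨rfl, rfl⟩ := h
  have hc : (P.c : ℚ) ^ P.p = (P.a : ℚ) ^ P.p + (P.b : ℚ) ^ P.p := by
    have := congrArg (fun z : ℤ => (z : ℚ)) P.hFLT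
    simp only [Int.cast_add, Int.cast_pow] at this
    exact this.symm
  have hW : shortW (((P.a ^ P.p : ℤ) : ℚ) + ((P.c ^ P.p : ℤ) : ℚ))
        (((P.a ^ P.p : ℤ) : ℚ) * ((P.c ^ P.p : ℤ) : ℚ))
      = shortW (2 * (P.a : ℚ) ^ P.p + (P.b : ℚ) ^ P.p)
          ((P.a : ℚ) ^ P.p * ((P.a : ℚ) ^ P.p + (P.b : ℚ) ^ P.p)) := by
    congr 1
    · push_cast
      rw [hc]
      ring
    · push_cast
      rw [hc]
  have h1 := freyCurve_eq P
  have h2 : shortW ((P.b : ℚ) ^ P.p - (P.a : ℚ) ^ P.p) (-((P.a : ℚ) ^ P.p) * (P.b : ℚ) ^ P.p)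
      = (⟨1, -((P.a : ℚ) ^ P.p), 0, 0⟩ : VariableChange ℚ) •
        shortW (((P.a ^ P.p : ℤ) : ℚ) + ((P.c ^ P.p : ℤ) : ℚ))
          (((P.a ^ P.p : ℤ) : ℚ) * ((P.c ^ P.p : ℤ) : ℚ)) := by
    rw [hW]
    exact short_eq_smul_short_translate ((P.a : ℚ) ^ P.p) ((P.b : ℚ) ^ P.p)
  refine ⟨(pointHomBC (L := L) h2).comp (pointHomBC (L := L) h1), ?_, ?_⟩
  · exact (pointHomBC_injective h2).comp (pointHomBC_injective h1)
  · intro σ x
    rw [AddMonoidHom.comp_apply, AddMonoidHom.comp_apply, pointHomBC_smul h1 σ x,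
      pointHomBC_smul h2 σ _]

/-- All three cases. -/
theorem exists_phi (P : FreyPackage) {α β : ℤ}
    (h : (α = P.b ^ P.p ∧ β = -P.a ^ P.p) ∨ (α = -P.a ^ P.p ∧ β = P.b ^ P.p) ∨
      (α = P.a ^ P.p ∧ β = P.c ^ P.p)) :
    ∃ φ : (P.freyCurve⁄L).Point →+ ((shortW ((α : ℚ) + β) ((α : ℚ) * β))⁄L).toAffine.Point,
      Function.Injective φ ∧ ∀ (σ : L ≃ₐ[ℚ] L) (x : (P.freyCurve⁄L).Point), φ (σ • x) = σ • φ x := by
  rcases h with h | h | h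
  · exact exists_phi_ab P (Or.inl h)
  · exact exists_phi_ab P (Or.inr h)
  · exact exists_phi_c P h

end Fermat.Agent.Unram.FreyMaps
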