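import Mathlib
import Fermat.Agent.Unram.Setup

/-!
# Unram / F-alg: the algebra of the formal group of a short Weierstrass curve

`W : y² = x³ + a x² + b x` (`a₁ = a₃ = a₆ = 0`, `a = a₂`, `b = a₄`) over a field `L`.
For an affine point `(x, y)` with `y ≠ 0` put `t = x / y`, `s = 1 / y`; then
`s = t³ + a t² s + b t s²`.  For two such points the chord/tangent in the `(t, s)`-plane is
`s = κ t + μ` with `κ = Num / Den`, and the sum `P₁ + P₂ = (x₃, y₃)` satisfies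
`t₃ = t₁ + t₂ + μ (a + 2 b κ) / E`, `s₃ = κ t₃ - μ`, where `E = 1 + a κ + b κ²`.
-/

set_option autoImplicit false
set_option linter.unusedSectionVars false

namespace Fermat.Agent.Unram.FormalAlg

open WeierstrassCurve

variable {L : Type*} [Field L]

/-- numerator of the slope of the chord in the `(t,s)`-plane -/
def fNum (a b t₁ t₂ s₂ : L) : L := t₂ ^ 2 + t₁ * t₂ + t₁ ^ 2 + a * (t₁ + t₂) * s₂ + b * s₂ ^ 2

/-- denominator of the slope of the chord in the `(t,s)`-plane -/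
def fDen (a b t₁ s₁ s₂ : L) : L := 1 - a * t₁ ^ 2 - b * t₁ * (s₁ + s₂)

/-- slope of the chord in the `(t,s)`-plane -/
noncomputable def fKappa (a b t₁ s₁ t₂ s₂ : L) : L := fNum a b t₁ t₂ s₂ / fDen a b t₁ s₁ s₂

/-- intercept of the chord in the `(t,s)`-plane -/
noncomputable def fMu (a b t₁ s₁ t₂ s₂ : L) : L := s₁ - fKappa a b t₁ s₁ t₂ s₂ * t₁

/-- leading coefficient of the cubic in `t` cut out by the chord -/
noncomputable def fE (a b t₁ s₁ t₂ s₂ : L) : L :=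
  1 + a * fKappa a b t₁ s₁ t₂ s₂ + b * fKappa a b t₁ s₁ t₂ s₂ ^ 2

/-- the curve in `(t,s)`-coordinates -/
theorem ts_equation {W : Affine L} (h1 : W.a₁ = 0) (h3 : W.a₃ = 0) (h6 : W.a₆ = 0) {x y : L}
    (h : W.Equation x y) (hy : y ≠ 0) :
    1 / y = (x / y) ^ 3 + W.a₂ * (x / y) ^ 2 * (1 / y) + W.a₄ * (x / y) * (1 / y) ^ 2 := by
  rw [Affine.equation_iff, h1, h3, h6] at h
  field_simp
  linear_combination h

/-- the chord identity `(s₂ - s₁) Den = (t₂ - t₁) Num` -/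
theorem chord_identity (a b t₁ s₁ t₂ s₂ : L)
    (h₁ : s₁ = t₁ ^ 3 + a * t₁ ^ 2 * s₁ + b * t₁ * s₁ ^ 2)
    (h₂ : s₂ = t₂ ^ 3 + a * t₂ ^ 2 * s₂ + b * t₂ * s₂ ^ 2) :
    (s₂ - s₁) * fDen a b t₁ s₁ s₂ = (t₂ - t₁) * fNum a b t₁ t₂ s₂ := by
  unfold fDen fNum
  linear_combination h₂ - h₁

section Main

variable [DecidableEq L] {W : Affine L} (h1 : W.a₁ = 0) (h3 : W.a₃ = 0) (h6 : W.a₆ = 0)

include h1 h3 in
theorem negY_eq (x y : L) : W.negY x y = -y := by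
  rw [Affine.negY, h1, h3]
  ring

include h1 h3 h6 in
/-- Vieta for the third intersection point (from Mathlib's `addPolynomial_slope`). -/
theorem vieta {x₁ y₁ x₂ y₂ : L} (he₁ : W.Equation x₁ y₁) (he₂ : W.Equation x₂ y₂)
    (hxy : ¬(x₁ = x₂ ∧ y₁ = W.negY x₂ y₂)) :
    x₁ * x₂ + x₁ * W.addX x₁ x₂ (W.slope x₁ x₂ y₁ y₂) + x₂ * W.addX x₁ x₂ (W.slope x₁ x₂ y₁ y₂) =
        W.a₄ - 2 * W.slope x₁ x₂ y₁ y₂ * (y₁ - W.slope x₁ x₂ y₁ y₂ * x₁) ∧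
      x₁ * x₂ * W.addX x₁ x₂ (W.slope x₁ x₂ y₁ y₂) = (y₁ - W.slope x₁ x₂ y₁ y₂ * x₁) ^ 2 := by
  have h := Affine.addPolynomial_slope he₁ he₂ hxy
  rw [Affine.addPolynomial_eq, neg_inj, Cubic.prod_X_sub_C_eq, Cubic.toPoly_injective] at h
  have hc := congrArg Cubic.c h
  have hd := congrArg Cubic.d h
  simp only [h1, h3, h6] at hc hd
  constructor
  · linear_combination -hc
  · linear_combination hd

include h1 h3 h6 in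
/-- **The formal group law in `(t,s)`-coordinates**: for affine points `(x₁,y₁)`, `(x₂,y₂)` with
`y₁, y₂ ≠ 0`, not opposite, such that `Den` and `E` do not vanish, the sum `(x₃, y₃)` has `y₃ ≠ 0`,
`t₃ = t₁ + t₂ + μ (a + 2 b κ) / E` and `s₃ = κ t₃ - μ`; moreover `μ ≠ 0`. -/
theorem formal_add (h2 : (2 : L) ≠ 0) {x₁ y₁ x₂ y₂ : L}
    (he₁ : W.Equation x₁ y₁) (he₂ : W.Equation x₂ y₂) (hy₁ : y₁ ≠ 0) (hy₂ : y₂ ≠ 0)
    (hxy : ¬(x₁ = x₂ ∧ y₁ = W.negY x₂ y₂))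
    (hD : fDen W.a₂ W.a₄ (x₁ / y₁) (1 / y₁) (1 / y₂) ≠ 0)
    (hE : fE W.a₂ W.a₄ (x₁ / y₁) (1 / y₁) (x₂ / y₂) (1 / y₂) ≠ 0) :
    fMu W.a₂ W.a₄ (x₁ / y₁) (1 / y₁) (x₂ / y₂) (1 / y₂) ≠ 0 ∧
    W.addY x₁ x₂ y₁ (W.slope x₁ x₂ y₁ y₂) ≠ 0 ∧
    W.addX x₁ x₂ (W.slope x₁ x₂ y₁ y₂) / W.addY x₁ x₂ y₁ (W.slope x₁ x₂ y₁ y₂) =
      x₁ / y₁ + x₂ / y₂ +
        fMu W.a₂ W.a₄ (x₁ / y₁) (1 / y₁) (x₂ / y₂) (1 / y₂) *
          (W.a₂ + 2 * W.a₄ * fKappa W.a₂ W.a₄ (x₁ / y₁) (1 / y₁) (x₂ / y₂) (1 / y₂)) /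
            fE W.a₂ W.a₄ (x₁ / y₁) (1 / y₁) (x₂ / y₂) (1 / y₂) ∧
    1 / W.addY x₁ x₂ y₁ (W.slope x₁ x₂ y₁ y₂) =
      fKappa W.a₂ W.a₄ (x₁ / y₁) (1 / y₁) (x₂ / y₂) (1 / y₂) *
          (W.addX x₁ x₂ (W.slope x₁ x₂ y₁ y₂) / W.addY x₁ x₂ y₁ (W.slope x₁ x₂ y₁ y₂)) -
        fMu W.a₂ W.a₄ (x₁ / y₁) (1 / y₁) (x₂ / y₂) (1 / y₂) := by
  set a := W.a₂ with ha
  set b := W.a₄ with hb
  set t₁ := x₁ / y₁ with ht₁
  set s₁ := 1 / y₁ with hs₁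
  set t₂ := x₂ / y₂ with ht₂
  set s₂ := 1 / y₂ with hs₂
  set κ := fKappa a b t₁ s₁ t₂ s₂ with hκ
  set μ := fMu a b t₁ s₁ t₂ s₂ with hμ
  set E := fE a b t₁ s₁ t₂ s₂ with hEdef
  set ℓ := W.slope x₁ x₂ y₁ y₂ with hℓ
  set x₃ := W.addX x₁ x₂ ℓ with hx₃
  -- the two points in `(t,s)`-coordinates
  have hts₁ : s₁ = t₁ ^ 3 + a * t₁ ^ 2 * s₁ + b * t₁ * s₁ ^ 2 := ts_equation h1 h3 h6 he₁ hy₁
  have hts₂ : s₂ = t₂ ^ 3 + a * t₂ ^ 2 * s₂ + b * t₂ * s₂ ^ 2 := ts_equation h1 h3 h6 he₂ hy₂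
  have hchord := chord_identity a b t₁ s₁ t₂ s₂ hts₁ hts₂
  have hκD : κ * fDen a b t₁ s₁ s₂ = fNum a b t₁ t₂ s₂ := by
    rw [hκ, fKappa, div_mul_cancel₀ _ hD]
  -- both points lie on the line `s = κ t + μ`
  have hl₁ : s₁ = κ * t₁ + μ := by rw [hμ, fMu]; ring
  have hl₂ : s₂ = κ * t₂ + μ := by
    have : (s₂ - s₁ - κ * (t₂ - t₁)) * fDen a b t₁ s₁ s₂ = 0 := by
      linear_combination hchord - (t₂ - t₁) * hκD
    have h0 := (mul_eq_zero.mp this).resolve_right hD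
    linear_combination h0 + hl₁
  -- `1 = κ x + μ y`
  have hs₁y : s₁ * y₁ = 1 := by rw [hs₁]; field_simp
  have hs₂y : s₂ * y₂ = 1 := by rw [hs₂]; field_simp
  have ht₁y : t₁ * y₁ = x₁ := by rw [ht₁]; field_simp
  have ht₂y : t₂ * y₂ = x₂ := by rw [ht₂]; field_simp
  have hL₁ : κ * x₁ + μ * y₁ = 1 := by linear_combination (-y₁) * hl₁ + hs₁y - κ * ht₁y
  have hL₂ : κ * x₂ + μ * y₂ = 1 := by linear_combination (-y₂) * hl₂ + hs₂y - κ * ht₂y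
  have hnegY : ∀ x y : L, W.negY x y = -y := negY_eq h1 h3
  -- `μ ≠ 0`
  have hμ0 : μ ≠ 0 := by
    intro h0
    rw [h0, zero_mul, add_zero] at hL₁ hL₂
    have hκ0 : κ ≠ 0 := by
      rintro h
      rw [h, zero_mul] at hL₁
      exact zero_ne_one hL₁
    have hx : x₁ = x₂ := mul_left_cancel₀ hκ0 (hL₁.trans hL₂.symm)
    have hy : y₁ = y₂ := by
      rcases Affine.Y_eq_of_X_eq he₁ he₂ hx with h | h
      · exact h
      · exact absurd ⟨hx, h⟩ hxy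
    have ht : t₁ = t₂ := by rw [ht₁, ht₂, hx, hy]
    have hs : s₁ = s₂ := by rw [hs₁, hs₂, hy]
    -- tangent case: `μ Den = -2 s₁`
    have hμD : μ * fDen a b t₁ s₁ s₂ = -2 * s₁ := by
      have e1 : μ * fDen a b t₁ s₁ s₂ = s₁ * fDen a b t₁ s₁ s₂ - t₁ * fNum a b t₁ t₂ s₂ := by
        rw [← hκD, hμ, fMu]; ring
      rw [e1, ← ht, ← hs]
      unfold fDen fNum
      linear_combination 3 * hts₁
    rw [h0, zero_mul] at hμD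
    have : s₁ = 0 := by
      have h' : (2 : L) * s₁ = 0 := by linear_combination hμD
      exact (mul_eq_zero.mp h').resolve_left h2
    rw [this, zero_mul] at hs₁y
    exact zero_ne_one hs₁y
  -- the slope in `(x,y)`-coordinates
  have hℓκ : ℓ * μ = -κ := by
    by_cases hx : x₁ = x₂
    · have hy : y₁ = y₂ := by
        rcases Affine.Y_eq_of_X_eq he₁ he₂ hx with h | h
        · exact h
        · exact absurd ⟨hx, h⟩ hxy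
      have hyne : y₁ ≠ W.negY x₂ y₂ := fun h => hxy ⟨hx, h⟩
      rw [hℓ, Affine.slope_of_Y_ne hx hyne, hnegY, h1]
      have ht : t₁ = t₂ := by rw [ht₁, ht₂, hx, hy]
      have hs : s₁ = s₂ := by rw [hs₁, hs₂, hy]
      have hμD : μ * fDen a b t₁ s₁ s₂ = -2 * s₁ := by
        have e1 : μ * fDen a b t₁ s₁ s₂ = s₁ * fDen a b t₁ s₁ s₂ - t₁ * fNum a b t₁ t₂ s₂ := by
          rw [← hκD, hμ, fMu]; ring
        rw [e1, ← ht, ← hs]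
        unfold fDen fNum
        linear_combination 3 * hts₁
      have h2y : y₁ - -y₁ ≠ 0 := by
        have : y₁ - -y₁ = 2 * y₁ := by ring
        rw [this]
        exact mul_ne_zero h2 hy₁
      rw [div_mul_eq_mul_div, div_eq_iff h2y]
      -- multiply by `Den`
      have hNum : fNum a b t₁ t₂ s₂ * y₁ ^ 2 = 3 * x₁ ^ 2 + 2 * a * x₁ + b := by
        rw [← ht, ← hs]
        unfold fNum
        rw [ht₁, hs₁]
        field_simp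
        ring
      apply mul_right_cancel₀ hD
      have e2 : -κ * (y₁ - -y₁) * fDen a b t₁ s₁ s₂ = -2 * y₁ * fNum a b t₁ t₂ s₂ := by
        rw [← hκD]; ring
      rw [e2, mul_assoc, hμD, ← hNum]
      linear_combination (-2 * y₁ * fNum a b t₁ t₂ s₂) * hs₁y
    · rw [hℓ, Affine.slope_of_X_ne hx]
      have hx' : x₁ - x₂ ≠ 0 := sub_ne_zero.mpr hx
      rw [div_mul_eq_mul_div, div_eq_iff hx']
      linear_combination hL₁ - hL₂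
  have hℓ' : ℓ = -κ / μ := by rw [eq_div_iff hμ0, hℓκ]
  have hν : y₁ - ℓ * x₁ = 1 / μ := by
    rw [eq_div_iff hμ0]
    linear_combination hL₁ - x₁ * hℓκ
  set ν := y₁ - ℓ * x₁ with hνdef
  have hy₁' : y₁ = ℓ * x₁ + ν := by rw [hνdef]; ring
  have hy₂' : y₂ = ℓ * x₂ + ν := by
    have : μ * (y₂ - (ℓ * x₂ + ν)) = 0 := by
      have hνμ : ν * μ = 1 := by rw [hν]; field_simp
      linear_combination hL₂ - x₂ * hℓκ - hνμ
    have h0 := (mul_eq_zero.mp this).resolve_left hμ0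
    linear_combination h0
  obtain ⟨hv2, hv3⟩ := vieta h1 h3 h6 he₁ he₂ hxy
  rw [← hℓ, ← hx₃, ← hνdef] at hv2 hv3
  have hv1 : x₁ + x₂ + x₃ = ℓ ^ 2 - a := by
    rw [hx₃, Affine.addX, h1]; ring
  -- the third point
  set y₃' := W.negAddY x₁ x₂ y₁ ℓ with hy₃'
  have hy₃'' : y₃' = ℓ * x₃ + ν := by
    rw [hy₃', Affine.negAddY, ← hx₃, hνdef]; ring
  have hy₃ : W.addY x₁ x₂ y₁ ℓ = -y₃' := by
    rw [Affine.addY, hnegY]
  have hT3a : y₁ * y₂ * y₃' = ν * (ν ^ 2 - a * ℓ * ν + b * ℓ ^ 2) := by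
    rw [hy₁', hy₂', hy₃'']
    linear_combination ℓ ^ 3 * hv3 + ℓ ^ 2 * ν * hv2 + ℓ * ν ^ 2 * hv1
  have hT3b : x₁ * y₂ * y₃' + x₂ * y₁ * y₃' + x₃ * y₁ * y₂ = ν * (2 * b * ℓ - a * ν) := by
    rw [hy₁', hy₂', hy₃'']
    linear_combination 3 * ℓ ^ 2 * hv3 + 2 * ℓ * ν * hv2 + ν ^ 2 * hv1
  -- in terms of `κ`, `μ`
  have hνμ : ν = 1 / μ := hν
  have hE' : ν ^ 2 - a * ℓ * ν + b * ℓ ^ 2 = E / μ ^ 2 := by
    rw [hνμ, hℓ', hEdef, fE]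
    field_simp
    ring
  have hν0 : ν ≠ 0 := by rw [hνμ]; exact one_div_ne_zero hμ0
  have hy₃'0 : y₃' ≠ 0 := by
    intro h0
    rw [h0, mul_zero, hE'] at hT3a
    have : ν * (E / μ ^ 2) ≠ 0 := mul_ne_zero hν0 (div_ne_zero hE (pow_ne_zero 2 hμ0))
    exact this hT3a.symm
  have hy₃0 : W.addY x₁ x₂ y₁ ℓ ≠ 0 := by rw [hy₃]; exact neg_ne_zero.mpr hy₃'0
  have hsum : x₁ / y₁ + x₂ / y₂ + x₃ / y₃' = -(μ * (a + 2 * b * κ) / E) := by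
    have e1 : x₁ / y₁ + x₂ / y₂ + x₃ / y₃' =
        (x₁ * y₂ * y₃' + x₂ * y₁ * y₃' + x₃ * y₁ * y₂) / (y₁ * y₂ * y₃') := by
      field_simp
    rw [e1, hT3a, hT3b, hE', hνμ, hℓ']
    field_simp
    ring
  have hline₃ : 1 / y₃' = κ * (x₃ / y₃') + μ := by
    have hνμ' : ν * μ = 1 := by rw [hνμ]; field_simp
    have h1' : κ * x₃ + μ * y₃' = 1 := by
      rw [hy₃'']
      linear_combination hνμ' + x₃ * hℓκ
    have h2' : 1 / y₃' = (κ * x₃ + μ * y₃') / y₃' := by rw [h1']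
    rw [h2', add_div, mul_div_assoc, mul_div_cancel_right₀ _ hy₃'0]
  refine ⟨hμ0, hy₃0, ?_, ?_⟩
  · rw [hy₃, div_neg]
    linear_combination -hsum
  · rw [hy₃, div_neg, div_neg, hline₃]
    ring

end Main

end Fermat.Agent.Unram.FormalAlg

namespace Fermat.Agent.Unram.FormalAlg

open WeierstrassCurve WeierstrassCurve.Affine

variable {L : Type*} [Field L] [DecidableEq L] {W : WeierstrassCurve L}

/-- **(A1)–(A3)** in the interface agreed with F-val, for `IsShort` curves. -/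
theorem add_ts (hW : IsShort W) (h2 : (2 : L) ≠ 0) {x₁ y₁ x₂ y₂ : L}
    (h₁ : W.toAffine.Equation x₁ y₁) (h₂ : W.toAffine.Equation x₂ y₂) (hy₁ : y₁ ≠ 0) (hy₂ : y₂ ≠ 0)
    (hxy : ¬(x₁ = x₂ ∧ y₁ = W.toAffine.negY x₂ y₂))
    (hD : fDen W.a₂ W.a₄ (x₁ / y₁) (1 / y₁) (1 / y₂) ≠ 0)
    (hE : fE W.a₂ W.a₄ (x₁ / y₁) (1 / y₁) (x₂ / y₂) (1 / y₂) ≠ 0) :
    fMu W.a₂ W.a₄ (x₁ / y₁) (1 / y₁) (x₂ / y₂) (1 / y₂) ≠ 0 ∧
    W.toAffine.addY x₁ x₂ y₁ (W.toAffine.slope x₁ x₂ y₁ y₂) ≠ 0 ∧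
    W.toAffine.addX x₁ x₂ (W.toAffine.slope x₁ x₂ y₁ y₂) /
          W.toAffine.addY x₁ x₂ y₁ (W.toAffine.slope x₁ x₂ y₁ y₂) - x₁ / y₁ - x₂ / y₂ =
        fMu W.a₂ W.a₄ (x₁ / y₁) (1 / y₁) (x₂ / y₂) (1 / y₂) *
          (W.a₂ + 2 * W.a₄ * fKappa W.a₂ W.a₄ (x₁ / y₁) (1 / y₁) (x₂ / y₂) (1 / y₂)) /
            fE W.a₂ W.a₄ (x₁ / y₁) (1 / y₁) (x₂ / y₂) (1 / y₂) ∧
    1 / W.toAffine.addY x₁ x₂ y₁ (W.toAffine.slope x₁ x₂ y₁ y₂) =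
      fKappa W.a₂ W.a₄ (x₁ / y₁) (1 / y₁) (x₂ / y₂) (1 / y₂) *
          (W.toAffine.addX x₁ x₂ (W.toAffine.slope x₁ x₂ y₁ y₂) /
            W.toAffine.addY x₁ x₂ y₁ (W.toAffine.slope x₁ x₂ y₁ y₂)) -
        fMu W.a₂ W.a₄ (x₁ / y₁) (1 / y₁) (x₂ / y₂) (1 / y₂) := by
  obtain ⟨hμ, hy, ht, hs⟩ :=
    formal_add (W := W.toAffine) hW.a₁ hW.a₃ hW.a₆ h2 h₁ h₂ hy₁ hy₂ hxy hD hE
  refine ⟨hμ, hy, ?_, hs⟩
  rw [ht]
  ring

/-- `t`-coordinate `x / y` of a point (`0` at the origin) -/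
noncomputable def tP (P : W.toAffine.Point) : L := xc P / yc P

/-- `s`-coordinate `1 / y` of a point (`0` at the origin) -/
noncomputable def sP (P : W.toAffine.Point) : L := 1 / yc P

@[simp] theorem tP_zero : tP (0 : W.toAffine.Point) = 0 := by simp [tP]

@[simp] theorem sP_zero : sP (0 : W.toAffine.Point) = 0 := by simp [sP]

/-- the curve equation in `(t,s)`-coordinates, point form -/
theorem sP_eq (hW : IsShort W) (P : W.toAffine.Point) (hy : yc P ≠ 0) :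
    sP P = tP P ^ 3 + W.a₂ * tP P ^ 2 * sP P + W.a₄ * tP P * sP P ^ 2 := by
  cases P with
  | zero => exact absurd rfl hy
  | some x y h => exact ts_equation (W := W.toAffine) hW.a₁ hW.a₃ hW.a₆ h.1 hy

/-- **(A1)–(A3)**, point form. -/
theorem add_ts_point (hW : IsShort W) (h2 : (2 : L) ≠ 0) (P₁ P₂ : W.toAffine.Point)
    (hy₁ : yc P₁ ≠ 0) (hy₂ : yc P₂ ≠ 0) (h12 : P₁ + P₂ ≠ 0)
    (hD : fDen W.a₂ W.a₄ (tP P₁) (sP P₁) (sP P₂) ≠ 0)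
    (hE : fE W.a₂ W.a₄ (tP P₁) (sP P₁) (tP P₂) (sP P₂) ≠ 0) :
    fMu W.a₂ W.a₄ (tP P₁) (sP P₁) (tP P₂) (sP P₂) ≠ 0 ∧
    yc (P₁ + P₂) ≠ 0 ∧
    tP (P₁ + P₂) - tP P₁ - tP P₂ =
        fMu W.a₂ W.a₄ (tP P₁) (sP P₁) (tP P₂) (sP P₂) *
          (W.a₂ + 2 * W.a₄ * fKappa W.a₂ W.a₄ (tP P₁) (sP P₁) (tP P₂) (sP P₂)) /
            fE W.a₂ W.a₄ (tP P₁) (sP P₁) (tP P₂) (sP P₂) ∧
    sP (P₁ + P₂) =
      fKappa W.a₂ W.a₄ (tP P₁) (sP P₁) (tP P₂) (sP P₂) * tP (P₁ + P₂) -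
        fMu W.a₂ W.a₄ (tP P₁) (sP P₁) (tP P₂) (sP P₂) := by
  cases P₁ with
  | zero => exact absurd rfl hy₁
  | some x₁ y₁ h₁ =>
    cases P₂ with
    | zero => exact absurd rfl hy₂
    | some x₂ y₂ h₂ =>
      have hxy : ¬(x₁ = x₂ ∧ y₁ = W.toAffine.negY x₂ y₂) := by
        rintro ⟨hx, hy⟩
        exact h12 (Point.add_of_Y_eq hx hy)
      rw [Point.add_some hxy]
      exact add_ts hW h2 h₁.1 h₂.1 hy₁ hy₂ hxy hD hE

end Fermat.Agent.Unram.FormalAlg
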