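import Mathlib
import Fermat.Agent.Unram.FormalAlg
import Fermat.Agent.Unram.FormalVal

/-!
# S05 / (F): the kernel of reduction, final form

`FormalAlg.add_ts` supplies the algebraic input of `FormalVal`; for a valuation context
`h : Ctx A W α β` the kernel of reduction `E₁` is a subgroup without `n`-torsion for units `n`.
-/

set_option autoImplicit false
set_option linter.unusedSectionVars false

namespace Fermat.Agent.Unram.FormalMain

open WeierstrassCurve WeierstrassCurve.Affine WeierstrassCurve.Affine.Point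

variable {L : Type*} [Field L] [DecidableEq L] {W : WeierstrassCurve L}

/-- the algebraic input of `FormalVal` -/
theorem algInput (hW : IsShort W) (h2 : (2 : L) ≠ 0) : FormalVal.AlgInput W := by
  intro x₁ y₁ x₂ y₂ h₁ h₂ hy₁ hy₂ hxy Num D κ μ E hNum hD hκ hμ hE hD0 hE0
  subst hNum hD
  subst hκ
  subst hμ hE
  obtain ⟨-, hA1, hA2, hA3⟩ := FormalAlg.add_ts hW h2 h₁ h₂ hy₁ hy₂ hxy hD0 hE0
  exact ⟨hA1, hA2, hA3⟩

variable {A : ValuationSubring L} {α β : L}

theorem two_ne_zero (h : Ctx A W α β) : (2 : L) ≠ 0 := fun h0 => by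
  have := h.two
  rw [h0, _root_.map_zero] at this
  exact zero_ne_one this

theorem val_b_le (h : Ctx A W α β) : A.valuation W.a₄ ≤ 1 := by
  rw [h.val_b]; exact h.hβ

/-- **KEY** (Silverman–Tate) for a valuation context. -/
theorem key (h : Ctx A W α β) {P₁ P₂ : W.toAffine.Point} (h₁ : InE1 A P₁) (h₂ : InE1 A P₂)
    {ρ : A.ValueGroup} (hρ : ρ < 1) (ht₁ : A.valuation (FormalVal.tc P₁) ≤ ρ)
    (ht₂ : A.valuation (FormalVal.tc P₂) ≤ ρ) :
    InE1 A (P₁ + P₂) ∧ A.valuation (FormalVal.tc (P₁ + P₂)) ≤ ρ ∧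
      A.valuation (FormalVal.tc (P₁ + P₂) - FormalVal.tc P₁ - FormalVal.tc P₂) ≤ ρ ^ 3 :=
  FormalVal.key' A h.short (algInput h.short (two_ne_zero h)) h.val_a_le (val_b_le h) h₁ h₂ hρ ht₁ ht₂

/-- **(F-sub)** -/
theorem inE1_add (h : Ctx A W α β) {P Q : W.toAffine.Point} (hP : InE1 A P) (hQ : InE1 A Q) :
    InE1 A (P + Q) :=
  FormalVal.inE1_add A h.short (algInput h.short (two_ne_zero h)) h.val_a_le (val_b_le h) hP hQ

theorem inE1_neg {P : W.toAffine.Point} (hP : InE1 A P) : InE1 A (-P) := FormalVal.inE1_neg A hP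

/-- **(F-sub)**, the shape consumed by END. -/
theorem inE1_sub (h : Ctx A W α β) {P Q : W.toAffine.Point} (hP : InE1 A P) (hQ : InE1 A Q) :
    InE1 A (P - Q) :=
  FormalVal.inE1_sub A h.short (algInput h.short (two_ne_zero h)) h.val_a_le (val_b_le h) hP hQ

/-- the kernel of reduction as a subgroup -/
noncomputable def E1 (h : Ctx A W α β) : AddSubgroup W.toAffine.Point :=
  FormalVal.E1 A.valuation h.short (algInput h.short (two_ne_zero h)) h.val_a_le (val_b_le h)

theorem mem_E1_iff (h : Ctx A W α β) (P : W.toAffine.Point) : P ∈ E1 h ↔ InE1 A P := Iff.rfl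

/-- **(F-tors)**: the kernel of reduction has no `n`-torsion when `n` is a unit. -/
theorem eq_zero_of_inE1_of_nsmul_eq_zero (h : Ctx A W α β) {P : W.toAffine.Point} (hP : InE1 A P)
    {n : ℕ} (hvn : A.valuation (n : L) = 1) (hnP : n • P = 0) : P = 0 :=
  FormalVal.eq_zero_of_inE1_of_nsmul_eq_zero A h.short (algInput h.short (two_ne_zero h))
    h.val_a_le (val_b_le h) hP hvn hnP

end Fermat.Agent.Unram.FormalMain
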