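import Mathlib
import Fermat.Agent.Unram.Setup
import Fermat.Agent.Unram.FormalAlg

/-!
# Unram / F-sub, F-tors: the kernel of reduction is a torsion-free (prime to the residue
characteristic) subgroup

Everything is deduced from the KEY estimate `KeyProp` for the formal group law
(`t (P₁ + P₂) ≡ t P₁ + t P₂` modulo `ρ³`), which is proved in `Unram/FormalVal.lean`.
-/

set_option autoImplicit false
set_option linter.unusedSectionVars false

namespace Fermat.Agent.Unram.FormalTors

open WeierstrassCurve WeierstrassCurve.Affine Fermat.Agent.Unram.FormalAlg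

variable {L : Type*} [Field L] [DecidableEq L] {W : WeierstrassCurve L} (A : ValuationSubring L)

/-- the KEY estimate for the formal group law, as a property of `(A, W)` -/
def KeyProp (A : ValuationSubring L) (W : WeierstrassCurve L) : Prop :=
  ∀ P₁ P₂ : W.toAffine.Point, InE1 A P₁ → InE1 A P₂ → ∀ ρ : A.ValueGroup, ρ < 1 →
    A.valuation (tP P₁) ≤ ρ → A.valuation (tP P₂) ≤ ρ →
      InE1 A (P₁ + P₂) ∧ A.valuation (tP (P₁ + P₂)) ≤ ρ ∧
        A.valuation (tP (P₁ + P₂) - tP P₁ - tP P₂) ≤ ρ ^ 3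

variable {A}

/-- for an affine point of `E₁`: `v(t)² v(x) = 1`, in particular `0 < v t < 1` -/
theorem val_tP_sq_mul (hW : IsShort W) (ha : A.valuation W.a₂ ≤ 1) (hb : A.valuation W.a₄ ≤ 1)
    {P : W.toAffine.Point} (hP : P ≠ 0) (hx : 1 < A.valuation (xc P)) :
    yc P ≠ 0 ∧ A.valuation (tP P) ^ 2 * A.valuation (xc P) = 1 := by
  cases P with
  | zero => exact absurd rfl hP
  | some x y h =>
    simp only [xc_some, yc_some, tP] at hx ⊢
    have heq := (hW.equation_iff x y).mp h.1
    set r := A.valuation x with hr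
    have hr0 : r ≠ 0 := (lt_trans zero_lt_one hx).ne'
    have hx0 : x ≠ 0 := by
      rintro rfl
      rw [hr, map_zero] at hr0
      exact hr0 rfl
    have h1 : A.valuation (W.a₂ * x ^ 2) < A.valuation (x ^ 3) := by
      rw [map_mul, map_pow, map_pow, ← hr]
      calc A.valuation W.a₂ * r ^ 2 ≤ 1 * r ^ 2 := mul_le_mul_left ha _
        _ = r ^ 2 := one_mul _
        _ < r ^ 3 := by
          rw [pow_succ r 2]
          exact lt_mul_of_one_lt_right (pow_pos (lt_trans zero_lt_one hx) 2) hx
    have h2 : A.valuation (W.a₄ * x) < A.valuation (x ^ 3) := by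
      rw [map_mul, map_pow, ← hr]
      calc A.valuation W.a₄ * r ≤ 1 * r := mul_le_mul_left hb _
        _ = r := one_mul _
        _ < r ^ 3 := by
          calc r = r ^ 1 := (pow_one r).symm
            _ < r ^ 3 := pow_lt_pow_right₀ hx (by norm_num)
    have hy2 : A.valuation (y ^ 2) = r ^ 3 := by
      rw [heq, add_assoc, Valuation.map_add_eq_of_lt_left, map_pow]
      exact lt_of_le_of_lt (A.valuation.map_add _ _) (max_lt h1 h2)
    have hy0 : y ≠ 0 := by
      rintro rfl
      rw [zero_pow two_ne_zero, map_zero] at hy2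
      exact pow_ne_zero 3 hr0 hy2.symm
    refine ⟨hy0, ?_⟩
    rw [map_div₀, div_pow, ← map_pow _ y, hy2, ← hr]
    field_simp

theorem val_tP_lt_one (hW : IsShort W) (ha : A.valuation W.a₂ ≤ 1) (hb : A.valuation W.a₄ ≤ 1)
    {P : W.toAffine.Point} (hP : InE1 A P) : A.valuation (tP P) < 1 := by
  rcases hP with rfl | hx
  · rw [tP_zero, map_zero]; exact zero_lt_one
  · have hP0 : P ≠ 0 := by
      rintro rfl
      rw [xc_zero, map_zero] at hx
      exact not_lt.mpr zero_le_one hx
    obtain ⟨-, h⟩ := val_tP_sq_mul hW ha hb hP0 hx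
    by_contra hge
    rw [not_lt] at hge
    have h1 : 1 < A.valuation (tP P) ^ 2 * A.valuation (xc P) :=
      lt_of_lt_of_le hx (le_mul_of_one_le_left (le_of_lt (lt_trans zero_lt_one hx))
        (one_le_pow₀ hge))
    rw [h] at h1
    exact lt_irrefl _ h1

theorem val_tP_ne_zero (hW : IsShort W) (ha : A.valuation W.a₂ ≤ 1) (hb : A.valuation W.a₄ ≤ 1)
    {P : W.toAffine.Point} (hP : P ≠ 0) (hx : 1 < A.valuation (xc P)) :
    A.valuation (tP P) ≠ 0 := by
  obtain ⟨-, h⟩ := val_tP_sq_mul hW ha hb hP hx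
  intro h0
  rw [h0, zero_pow two_ne_zero, zero_mul] at h
  exact zero_ne_one h

theorem inE1_zero : InE1 A (0 : W.toAffine.Point) := Or.inl rfl

theorem inE1_neg {P : W.toAffine.Point} (hP : InE1 A P) : InE1 A (-P) := by
  rcases hP with rfl | hx
  · left; exact neg_zero
  · right; rwa [xc_neg]

variable (hW : IsShort W) (ha : A.valuation W.a₂ ≤ 1) (hb : A.valuation W.a₄ ≤ 1)
  (hkey : KeyProp A W)

include hW ha hb hkey

theorem inE1_add {P Q : W.toAffine.Point} (hP : InE1 A P) (hQ : InE1 A Q) : InE1 A (P + Q) :=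
  (hkey P Q hP hQ (max (A.valuation (tP P)) (A.valuation (tP Q)))
    (max_lt (val_tP_lt_one hW ha hb hP) (val_tP_lt_one hW ha hb hQ))
    (le_max_left _ _) (le_max_right _ _)).1

theorem inE1_sub {P Q : W.toAffine.Point} (hP : InE1 A P) (hQ : InE1 A Q) : InE1 A (P - Q) := by
  rw [sub_eq_add_neg]
  exact inE1_add hW ha hb hkey hP (inE1_neg hQ)

/-- **F-sub**: the kernel of reduction as a subgroup -/
def E1 : AddSubgroup W.toAffine.Point where
  carrier := {P | InE1 A P}
  zero_mem' := inE1_zero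
  add_mem' := fun hP hQ => inE1_add hW ha hb hkey hP hQ
  neg_mem' := fun hP => inE1_neg hP

theorem mem_E1_iff (P : W.toAffine.Point) : P ∈ E1 hW ha hb hkey ↔ InE1 A P := Iff.rfl

/-- the formal logarithm is additive modulo `ρ³` along multiples -/
theorem nsmul_estimate {P : W.toAffine.Point} (hP : InE1 A P) (n : ℕ) :
    InE1 A (n • P) ∧ A.valuation (tP (n • P)) ≤ A.valuation (tP P) ∧
      A.valuation (tP (n • P) - (n : L) * tP P) ≤ A.valuation (tP P) ^ 3 := by
  induction n with
  | zero =>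
    refine ⟨by rw [zero_smul]; exact inE1_zero, ?_, ?_⟩
    · rw [zero_smul, tP_zero, map_zero]; exact zero_le
    · rw [zero_smul, tP_zero, Nat.cast_zero, zero_mul, sub_zero, map_zero]; exact zero_le
  | succ n ih =>
    obtain ⟨ih1, ih2, ih3⟩ := ih
    obtain ⟨k1, k2, k3⟩ := hkey (n • P) P ih1 hP (A.valuation (tP P))
      (val_tP_lt_one hW ha hb hP) ih2 le_rfl
    rw [succ_nsmul]
    refine ⟨k1, k2, ?_⟩
    have : tP (n • P + P) - ((n + 1 : ℕ) : L) * tP P =
        (tP (n • P + P) - tP (n • P) - tP P) + (tP (n • P) - (n : L) * tP P) := by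
      push_cast
      ring
    rw [this]
    exact (A.valuation.map_add _ _).trans (max_le k3 ih3)

theorem inE1_nsmul {P : W.toAffine.Point} (hP : InE1 A P) (n : ℕ) : InE1 A (n • P) :=
  (nsmul_estimate hW ha hb hkey hP n).1

/-- **F-tors**: `E₁` has no `n`-torsion for `n` a unit of `A`. -/
theorem eq_zero_of_inE1_of_nsmul_eq_zero {P : W.toAffine.Point} (hP : InE1 A P) {n : ℕ}
    (hn : A.valuation (n : L) = 1) (h : n • P = 0) : P = 0 := by
  by_contra hP0
  have hx : 1 < A.valuation (xc P) := hP.resolve_left hP0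
  obtain ⟨-, -, h3⟩ := nsmul_estimate hW ha hb hkey hP n
  rw [h, tP_zero, zero_sub, Valuation.map_neg, map_mul, hn, one_mul] at h3
  have hρ1 := val_tP_lt_one hW ha hb hP
  have hρ0 : 0 < A.valuation (tP P) := zero_lt_iff.mpr (val_tP_ne_zero hW ha hb hP0 hx)
  have : A.valuation (tP P) ^ 3 < A.valuation (tP P) := by
    calc A.valuation (tP P) ^ 3 < A.valuation (tP P) ^ 1 :=
          pow_lt_pow_right_of_lt_one₀ hρ0 hρ1 (by norm_num)
      _ = A.valuation (tP P) := pow_one _
  exact absurd h3 (not_le.mpr this)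

end Fermat.Agent.Unram.FormalTors
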