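/-
S05 package M2, arithmetic part (helper3): for a Frey package and a prime `q`, the integers `α, β`
with `q ∤ α`, `q ∤ α - β`, `β ≠ 0`, `v_q(β) = p * m`, in the four cases `q ∣ a`, `q ∣ b`, `q ∣ c`, `q ∤ abc`.
-/
import Mathlib
import Fermat.Prelude.Def_FLTPrelim_FreyPackage

set_option autoImplicit false

namespace Fermat.Agent.Unram
namespace FreyArith

/-- a prime dividing two of `a, b` contradicts coprimality -/
lemma not_dvd_of_gcd_eq_one {x y : ℤ} (h : gcd x y = 1) {q : ℕ} (hq : q.Prime)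
    (hx : (q : ℤ) ∣ x) : ¬ (q : ℤ) ∣ y := by
  intro hy
  have : (q : ℤ) ∣ gcd x y := dvd_gcd hx hy
  rw [h] at this
  have h1 : (q : ℤ) = 1 ∨ (q : ℤ) = -1 := Int.isUnit_iff.mp (isUnit_of_dvd_one this)
  have hq2 := hq.two_le
  rcases h1 with h1 | h1 <;> omega

lemma prime_dvd_pow_iff {q : ℕ} (hq : q.Prime) (x : ℤ) {n : ℕ} (hn : n ≠ 0) :
    (q : ℤ) ∣ x ^ n ↔ (q : ℤ) ∣ x := by
  have hp : Prime (q : ℤ) := Nat.prime_iff_prime_int.mp hq
  exact ⟨fun h => hp.dvd_of_dvd_pow h, fun h => dvd_pow h hn⟩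

lemma padicValInt_neg' (q : ℕ) (z : ℤ) : padicValInt q (-z) = padicValInt q z := by
  simp [padicValInt]

lemma padicValInt_pow' {q : ℕ} [Fact q.Prime] {z : ℤ} (_hz : z ≠ 0) (n : ℕ) :
    padicValInt q (z ^ n) = n * padicValInt q z := by
  unfold padicValInt
  rw [Int.natAbs_pow, padicValNat.pow]

theorem exists_roots (P : FreyPackage) {q : ℕ} (hq : q.Prime) :
    ∃ α β : ℤ, ∃ m : ℕ, ¬ (q : ℤ) ∣ α ∧ ¬ (q : ℤ) ∣ α - β ∧ β ≠ 0 ∧
      padicValInt q β = P.p * m ∧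
      ((α = P.b ^ P.p ∧ β = -P.a ^ P.p) ∨ (α = -P.a ^ P.p ∧ β = P.b ^ P.p) ∨
        (α = P.a ^ P.p ∧ β = P.c ^ P.p)) := by
  have hp0 : P.p ≠ 0 := P.hp0
  have : Fact q.Prime := ⟨hq⟩
  have hA0 : P.a ^ P.p ≠ 0 := pow_ne_zero _ P.ha0
  have hB0 : P.b ^ P.p ≠ 0 := pow_ne_zero _ P.hb0
  have hC0 : P.c ^ P.p ≠ 0 := pow_ne_zero _ P.hc0
  have hgab := P.hgcdab
  have hgac := P.hgcdac
  have hgbc := P.hgcdbc
  have hgba : gcd P.b P.a = 1 := by rw [gcd_comm]; exact hgab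
  have hgca : gcd P.c P.a = 1 := by rw [gcd_comm]; exact hgac
  have hgcb : gcd P.c P.b = 1 := by rw [gcd_comm]; exact hgbc
  have hFLT := P.hFLT
  by_cases hqa : (q : ℤ) ∣ P.a
  · -- `q ∣ a`: (α, β) = (B, -A)
    refine ⟨P.b ^ P.p, -P.a ^ P.p, padicValInt q P.a, ?_, ?_, neg_ne_zero.mpr hA0, ?_, Or.inl ⟨rfl, rfl⟩⟩
    · rw [prime_dvd_pow_iff hq _ hp0]
      exact not_dvd_of_gcd_eq_one hgab hq hqa
    · rw [sub_neg_eq_add, add_comm, hFLT, prime_dvd_pow_iff hq _ hp0]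
      exact not_dvd_of_gcd_eq_one hgac hq hqa
    · rw [padicValInt_neg', padicValInt_pow' P.ha0]
  · by_cases hqb : (q : ℤ) ∣ P.b
    · refine ⟨-P.a ^ P.p, P.b ^ P.p, padicValInt q P.b, ?_, ?_, hB0, ?_, Or.inr (Or.inl ⟨rfl, rfl⟩)⟩
      · rw [dvd_neg, prime_dvd_pow_iff hq _ hp0]
        exact hqa
      · have : -P.a ^ P.p - P.b ^ P.p = -(P.c ^ P.p) := by rw [← hFLT]; ring
        rw [this, dvd_neg, prime_dvd_pow_iff hq _ hp0]
        exact not_dvd_of_gcd_eq_one hgbc hq hqb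
      · rw [padicValInt_pow' P.hb0]
    · by_cases hqc : (q : ℤ) ∣ P.c
      · refine ⟨P.a ^ P.p, P.c ^ P.p, padicValInt q P.c, ?_, ?_, hC0, ?_, Or.inr (Or.inr ⟨rfl, rfl⟩)⟩
        · rw [prime_dvd_pow_iff hq _ hp0]; exact hqa
        · have : P.a ^ P.p - P.c ^ P.p = -(P.b ^ P.p) := by rw [← hFLT]; ring
          rw [this, dvd_neg, prime_dvd_pow_iff hq _ hp0]
          exact hqb
        · rw [padicValInt_pow' P.hc0]
      · refine ⟨P.b ^ P.p, -P.a ^ P.p, 0, ?_, ?_, neg_ne_zero.mpr hA0, ?_, Or.inl ⟨rfl, rfl⟩⟩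
        · rw [prime_dvd_pow_iff hq _ hp0]; exact hqb
        · rw [sub_neg_eq_add, add_comm, hFLT, prime_dvd_pow_iff hq _ hp0]
          exact hqc
        · rw [padicValInt_neg', padicValInt_pow' P.ha0, mul_zero]
          have : padicValInt q P.a = 0 := padicValInt.eq_zero_of_not_dvd hqa
          rw [this, mul_zero]

end FreyArith
end Fermat.Agent.Unram
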