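/-
S05 package M2: for every Frey package and prime `q` there is a short model `Y² = X(X+α)(X+β)` with
`q ∤ α`, `q ∤ α - β`, `β ≠ 0`, `v_q(β) = p·m`, and a Galois-equivariant injective homomorphism from the
points of the Frey curve to the points of the model.
-/
import Mathlib
import Fermat.Agent.Unram.FreyMaps
import Fermat.Agent.Unram.FreyArith

set_option autoImplicit false

namespace Fermat.Agent.Unram.FreyModel2

open WeierstrassCurve WeierstrassCurve.Affine Fermat.Agent.Unram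

theorem exists_model {L : Type*} [Field L] [DecidableEq L] [Algebra ℚ L] (P : FreyPackage) {q : ℕ}
    (hq : q.Prime) (_hq2 : q ≠ 2) :
    ∃ α β : ℤ, ∃ m : ℕ, ¬ (q : ℤ) ∣ α ∧ ¬ (q : ℤ) ∣ α - β ∧ β ≠ 0 ∧
      padicValInt q β = P.p * m ∧
      ∃ φ : (P.freyCurve⁄L).Point →+ ((shortW ((α : ℚ) + β) ((α : ℚ) * β))⁄L).toAffine.Point,
        Function.Injective φ ∧
          ∀ (σ : L ≃ₐ[ℚ] L) (x : (P.freyCurve⁄L).Point), φ (σ • x) = σ • φ x := by
  obtain ⟨α, β, m, h1, h2, h3, h4, hcase⟩ := FreyArith.exists_roots P hq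
  exact ⟨α, β, m, h1, h2, h3, h4, FreyMaps.exists_phi P hcase⟩

end Fermat.Agent.Unram.FreyModel2
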